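import Mathlib
import Fermat.Agent.LT.H556.A0
import Fermat.Agent.LT.T5.Spec
import Fermat.Agent.LT.H11.LC
import Fermat.Agent.LT.H11.SC
import Fermat.Agent.LT.T7.H159.HaarSplit
import Fermat.Agent.LT.T7.H159.RestrGL

/-!
# Row LT, tower T7, quadratic step `F/ℚ`, matching theorem over `ℚ` -- ASSET "RESTR-GL over `ℚ`"
(helper973)

OFF-MAIN.  No hole, nothing assumed.  ADDITIVE (suffix `973`).  REAL FORM of the asset
`T7/H159/RestrGL.lean` of helper159 (there: `K` totally complex, `GL₂(ℂ)` at the infinite places).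

`GL₂(𝔸_ℚ)` IS THE RESTRICTED PRODUCT of `GL₂(ℝ)` (the real place) and the groups `GL₂(ℚ_v)`
(finite places) with respect to the subgroups `GL₂(ℤ_v)`, in the abstract sense `IsRestrProd159`
of `T7/H159/HaarSplit.lean` (helper159, Mathlib only); so the Haar measure of `GL₂(𝔸_ℚ)` splits.

* `reHomQ973`, `reGLQ973` : the component at the real place, in `ℝ` / `GL₂(ℝ)`; THE SAME TERMS as
  `MQ298.reHomQ298`, `MQ298.reGLQ298` of helper298 (`T7/H298/MatchQSpec.lean`) and as
  `T3.R.reHom ℚ Rat.infinitePlace Rat.isReal_infinitePlace` (equal by `rfl`).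
* `isRestrProd_GLQ973 T₀ : IsRestrProd159 locProjQ973 locKQ973 (baseSetQ973 T₀)`.
* **`haarSplit_GLQ973`**: `μ` Haar on `GL₂(𝔸_ℚ)`, `μr` Haar on `GL₂(ℝ)`, `μF v` Haar on
  `GL₂(ℚ_v)` with `μF v (GL₂(ℤ_v)) = 1` for `v ∉ T₀`: there is ONE `c > 0` such that for every
  finite `T ⊇ T₀` and all measurable `FF v`, `Fr`

      ∫_{E_T} ∏_{v ∈ T} FF_v(g_v) · Fr(g_∞) dμ(g) = c · ∏_{v ∈ T} ∫ FF_v dμF_v · ∫ Fr dμr

  with `E_T = {g : ∀ v ∉ T, IsIntegralAt v g ∧ IsIntegralAt v g⁻¹}` (`OutT305 T`).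
* For functions of several places at once: `integral_restr159` with `isRestrProd_GLQ973`.

The finite places are those of helper159 (`intGL159 ℚ v`, `mkGL159`, `isCompact_GLBox159`, ...,
stated there for every number field); only the real place is new.
-/

set_option autoImplicit false

open IsDedekindDomain NumberField MeasureTheory
open scoped RestrictedProduct

noncomputable section

namespace Fermat.Agent.LT.T7.H973

open Fermat.Agent.LT.H556.A0 Fermat.Agent.LT Fermat.Agent.LT.T7.H159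

/-- The places of `ℚ`: the real place and the finite places. -/
abbrev PlQ973 : Type := Unit ⊕ HeightOneSpectrum (𝓞 ℚ)

/-- The local groups: `GL₂(ℝ)` at the real place, `GL₂(ℚ_v)` at the finite places. -/
def LocGLQ973 : PlQ973 → Type
  | Sum.inl _ => GL (Fin 2) ℝ
  | Sum.inr v => GL (Fin 2) (v.adicCompletion ℚ)

instance instGroupLocGLQ973 : ∀ i : PlQ973, Group (LocGLQ973 i)
  | Sum.inl _ => inferInstanceAs (Group (GL (Fin 2) ℝ))
  | Sum.inr v => inferInstanceAs (Group (GL (Fin 2) (v.adicCompletion ℚ)))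

instance instTopLocGLQ973 : ∀ i : PlQ973, TopologicalSpace (LocGLQ973 i)
  | Sum.inl _ => inferInstanceAs (TopologicalSpace (GL (Fin 2) ℝ))
  | Sum.inr v => inferInstanceAs (TopologicalSpace (GL (Fin 2) (v.adicCompletion ℚ)))

instance instTopGroupLocGLQ973 : ∀ i : PlQ973, IsTopologicalGroup (LocGLQ973 i)
  | Sum.inl _ => inferInstanceAs (IsTopologicalGroup (GL (Fin 2) ℝ))
  | Sum.inr v => inferInstanceAs (IsTopologicalGroup (GL (Fin 2) (v.adicCompletion ℚ)))

instance instMeasLocGLQ973 : ∀ i : PlQ973, MeasurableSpace (LocGLQ973 i) :=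
  fun i => borel (LocGLQ973 i)

instance instBorelLocGLQ973 : ∀ i : PlQ973, BorelSpace (LocGLQ973 i) :=
  fun _ => ⟨rfl⟩

theorem locallyCompactSpace_GLR973 : LocallyCompactSpace (GL (Fin 2) ℝ) := by
  have := H11.LC.locallyCompactSpace_matrix_h11 (Fin 2) ℝ
  have := H11.LC.t2Space_matrix_h11 (Fin 2) ℝ
  infer_instance

theorem secondCountable_GLR973 : SecondCountableTopology (GL (Fin 2) ℝ) := by
  have := H11.SC.secondCountableTopology_matrix_h11 (Fin 2) ℝ
  exact H11.SC.secondCountableTopology_units_h11 _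

instance instLCLocGLQ973 : ∀ i : PlQ973, LocallyCompactSpace (LocGLQ973 i)
  | Sum.inl _ => locallyCompactSpace_GLR973
  | Sum.inr v => H11.LC.locallyCompactSpace_GL2_adicCompletion_h11 ℚ v

instance instSCLocGLQ973 : ∀ i : PlQ973, SecondCountableTopology (LocGLQ973 i)
  | Sum.inl _ => secondCountable_GLR973
  | Sum.inr v => secondCountable_GLv159 ℚ v

/-! ## The components, the subgroups -/

/-- The component at the real place of `ℚ`, in `ℝ` (the term of `MQ298.reHomQ298`). -/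
def reHomQ973 : Adl ℚ →+* ℝ :=
  (InfinitePlace.Completion.extensionEmbeddingOfIsReal Rat.isReal_infinitePlace).comp
    ((Pi.evalRingHom (fun v : InfinitePlace ℚ => v.Completion) Rat.infinitePlace).comp
      (RingHom.fst (InfiniteAdeleRing ℚ) (FiniteAdeleRing (𝓞 ℚ) ℚ)))

/-- The component of `g ∈ GL₂(𝔸_ℚ)` at the real place, in `GL₂(ℝ)` (the term of
`MQ298.reGLQ298`). -/
def reGLQ973 : G ℚ →* GL (Fin 2) ℝ :=
  Matrix.GeneralLinearGroup.map reHomQ973

/-- The components `GL₂(𝔸_ℚ) → GL₂(ℝ)`, `GL₂(𝔸_ℚ) → GL₂(ℚ_v)`. -/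
def locProjQ973 : ∀ i : PlQ973, G ℚ →* LocGLQ973 i
  | Sum.inl _ => reGLQ973
  | Sum.inr v => Matrix.GeneralLinearGroup.map (T5.finHom v)

/-- The subgroups: `GL₂(ℤ_v)` at the finite places (`⊤` at the real place: it always belongs
to `S`). -/
def locKQ973 : ∀ i : PlQ973, Subgroup (LocGLQ973 i)
  | Sum.inl _ => ⊤
  | Sum.inr v => intGL159 ℚ v

open Classical in
/-- The base set: the real place and the finite places of `T₀`. -/
def baseSetQ973 (T₀ : Finset (HeightOneSpectrum (𝓞 ℚ))) : Finset PlQ973 :=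
  insert (Sum.inl ()) (T₀.image Sum.inr)

theorem inl_mem_baseSetQ973 (T₀ : Finset (HeightOneSpectrum (𝓞 ℚ))) (u : Unit) :
    (Sum.inl u : PlQ973) ∈ baseSetQ973 T₀ := by
  classical
  exact Finset.mem_insert_self _ _

theorem inr_mem_baseSetQ973 (T₀ : Finset (HeightOneSpectrum (𝓞 ℚ)))
    (v : HeightOneSpectrum (𝓞 ℚ)) :
    (Sum.inr v : PlQ973) ∈ baseSetQ973 T₀ ↔ v ∈ T₀ := by
  classical
  simp [baseSetQ973]

/-! ## The real place -/

/-- Every infinite place of `ℚ` is real. -/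
theorem isReal_ratPlace973 (w : InfinitePlace ℚ) : w.IsReal := by
  rw [Subsingleton.elim w Rat.infinitePlace]
  exact Rat.isReal_infinitePlace

/-- The complex component of an adele of `ℚ` is its real component. -/
theorem infHom_eq_reHomQ973 (w : InfinitePlace ℚ) (a : Adl ℚ) :
    T5.infHom w a = ((reHomQ973 a : ℝ) : ℂ) := by
  obtain rfl : w = Rat.infinitePlace := Subsingleton.elim _ _
  exact (InfinitePlace.Completion.extensionEmbeddingOfIsReal_apply
    Rat.isReal_infinitePlace _).symm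

theorem continuous_reHomQ973 : Continuous reHomQ973 :=
  (InfinitePlace.Completion.isometry_extensionEmbeddingOfIsReal
      Rat.isReal_infinitePlace).continuous.comp
    ((continuous_apply Rat.infinitePlace).comp continuous_fst)

theorem continuous_reGLQ973 : Continuous reGLQ973 :=
  continuous_GLmap159 _ continuous_reHomQ973

theorem continuous_locProjQ973 (i : PlQ973) : Continuous (locProjQ973 i) := by
  cases i with
  | inl u => exact continuous_reGLQ973
  | inr v => exact continuous_GLmap159 _ (continuous_finHom159 v)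

/-! ## `E_S` -/

theorem mem_restrSubQ_iff973 (S : Finset PlQ973) (g : G ℚ) :
    g ∈ restrSub159 locProjQ973 locKQ973 S ↔
      ∀ v : HeightOneSpectrum (𝓞 ℚ), (Sum.inr v : PlQ973) ∉ S →
        (∀ i j, ((g : Matrix (Fin 2) (Fin 2) (Adl ℚ)) i j).2 v ∈ v.adicCompletionIntegers ℚ) ∧
          ∀ i j, (((g⁻¹ : G ℚ) : Matrix (Fin 2) (Fin 2) (Adl ℚ)) i j).2 v
            ∈ v.adicCompletionIntegers ℚ := by
  constructor
  · intro h v hv
    have := h (Sum.inr v) hv
    exact this
  · intro h i hi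
    cases i with
    | inl u => exact Subgroup.mem_top _
    | inr v => exact h v hi

/-- `E_S` is open. -/
theorem isOpen_restrSubQ973 (S : Finset PlQ973) :
    IsOpen (restrSub159 locProjQ973 locKQ973 S : Set (G ℚ)) := by
  have hset : (restrSub159 locProjQ973 locKQ973 S : Set (G ℚ))
      = (⋂ i : Fin 2, ⋂ j : Fin 2,
          (fun g : G ℚ => (g : Matrix (Fin 2) (Fin 2) (Adl ℚ)) i j) ⁻¹'
            {a : Adl ℚ | ∀ v, (Sum.inr v : PlQ973) ∉ S → a.2 v ∈ v.adicCompletionIntegers ℚ})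
        ∩ (⋂ i : Fin 2, ⋂ j : Fin 2,
          (fun g : G ℚ => ((g⁻¹ : G ℚ) : Matrix (Fin 2) (Fin 2) (Adl ℚ)) i j) ⁻¹'
            {a : Adl ℚ | ∀ v, (Sum.inr v : PlQ973) ∉ S → a.2 v ∈ v.adicCompletionIntegers ℚ}) := by
    ext g
    simp only [SetLike.mem_coe, mem_restrSubQ_iff973, Set.mem_inter_iff, Set.mem_iInter,
      Set.mem_preimage, Set.mem_ofPred_eq]
    constructor
    · intro h
      exact ⟨fun i j v hv => (h v hv).1 i j, fun i j v hv => (h v hv).2 i j⟩
    · rintro ⟨h1, h2⟩ v hv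
      exact ⟨fun i j => h1 i j v hv, fun i j => h2 i j v hv⟩
  rw [hset]
  refine IsOpen.inter ?_ ?_
  · exact isOpen_iInter_of_finite fun i => isOpen_iInter_of_finite fun j =>
      (isOpen_intOutside159 _).preimage (continuous_entryGL159 i j)
  · exact isOpen_iInter_of_finite fun i => isOpen_iInter_of_finite fun j =>
      (isOpen_intOutside159 _).preimage (continuous_entryInvGL159 i j)

/-! ## Surjectivity -/

theorem finite_inr_memQ973 (S : Finset PlQ973) :
    {v : HeightOneSpectrum (𝓞 ℚ) | (Sum.inr v : PlQ973) ∈ S}.Finite :=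
  (S.finite_toSet.preimage (Sum.inr_injective.injOn)).subset fun _ h => h

theorem eventually_notMemQ973 (S : Finset PlQ973) :
    ∀ᶠ v : HeightOneSpectrum (𝓞 ℚ) in Filter.cofinite, (Sum.inr v : PlQ973) ∉ S := by
  rw [Filter.eventually_cofinite]
  refine (finite_inr_memQ973 S).subset fun v hv => ?_
  simpa using hv

/-- The real component of the adelic matrix with given components. -/
theorem reGLQ_mkGL973 (a : ∀ w : InfinitePlace ℚ, GL (Fin 2) w.Completion)
    (b : ∀ v : HeightOneSpectrum (𝓞 ℚ), GL (Fin 2) (v.adicCompletion ℚ))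
    (hb : ∀ᶠ v in Filter.cofinite, b v ∈ intGL159 ℚ v) :
    reGLQ973 (mkGL159 a b hb)
      = Matrix.GeneralLinearGroup.map
          (InfinitePlace.Completion.extensionEmbeddingOfIsReal Rat.isReal_infinitePlace)
          (a Rat.infinitePlace) :=
  Units.ext rfl

open Classical in
/-- `(p_i)_{i ∈ S}` maps `E_S` onto the product. -/
theorem surj_restrQ973 (S : Finset PlQ973) (hS : (Sum.inl () : PlQ973) ∈ S)
    (x : ∀ i : S, LocGLQ973 i) :
    ∃ g ∈ restrSub159 locProjQ973 locKQ973 S, restrProj159 locProjQ973 S g = x := by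
  set a : ∀ w : InfinitePlace ℚ, GL (Fin 2) w.Completion := fun w =>
    Matrix.GeneralLinearGroup.map
      ((InfinitePlace.Completion.ringEquivRealOfIsReal (isReal_ratPlace973 w)).symm :
        ℝ →+* w.Completion)
      (x ⟨Sum.inl (), hS⟩ : GL (Fin 2) ℝ) with ha
  set b : ∀ v : HeightOneSpectrum (𝓞 ℚ), GL (Fin 2) (v.adicCompletion ℚ) := fun v =>
    if h : (Sum.inr v : PlQ973) ∈ S then (x ⟨Sum.inr v, h⟩ : GL (Fin 2) (v.adicCompletion ℚ))
    else 1 with hb
  have hb1 : ∀ v : HeightOneSpectrum (𝓞 ℚ), (Sum.inr v : PlQ973) ∉ S → b v = 1 := by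
    intro v hv
    exact dif_neg hv
  have hbint : ∀ᶠ v in Filter.cofinite, b v ∈ intGL159 ℚ v :=
    (eventually_notMemQ973 S).mono fun v hv => by
      rw [hb1 v hv]; exact (intGL159 ℚ v).one_mem
  refine ⟨mkGL159 a b hbint, ?_, ?_⟩
  · intro i hi
    cases i with
    | inl u => exact Subgroup.mem_top _
    | inr v =>
      have e : locProjQ973 (Sum.inr v) (mkGL159 a b hbint) = b v := mkGL_fin159 a b hbint v
      rw [e, hb1 v hi]
      exact (intGL159 ℚ v).one_mem
  · funext i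
    obtain ⟨i, hi⟩ := i
    cases i with
    | inl u =>
      have e : locProjQ973 (Sum.inl u) (mkGL159 a b hbint)
          = Matrix.GeneralLinearGroup.map
              (InfinitePlace.Completion.extensionEmbeddingOfIsReal Rat.isReal_infinitePlace)
              (a Rat.infinitePlace) :=
        reGLQ_mkGL973 a b hbint
      rw [restrProj_apply159, e]
      refine Units.ext ?_
      ext k l
      simp only [ha, Matrix.GeneralLinearGroup.map_apply]
      exact (InfinitePlace.Completion.ringEquivRealOfIsReal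
        Rat.isReal_infinitePlace).apply_symm_apply _
    | inr v =>
      have e : locProjQ973 (Sum.inr v) (mkGL159 a b hbint) = b v := mkGL_fin159 a b hbint v
      rw [restrProj_apply159, e]
      exact dif_pos hi

/-! ## Properness -/

open Classical in
/-- `(p_i)_{i ∈ S}` is proper on `E_S` (boxes; the box of helper159 with the real entries
embedded in `ℂ`). -/
theorem proper_restrQ973 (S : Finset PlQ973) (hS : (Sum.inl () : PlQ973) ∈ S)
    (C : ∀ i : PlQ973, Set (LocGLQ973 i)) (hC : ∀ i ∈ S, IsCompact (C i)) :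
    ∃ C' : Set (G ℚ), IsCompact C' ∧
      {g | g ∈ restrSub159 locProjQ973 locKQ973 S ∧
        ∀ i ∈ S, locProjQ973 i g ∈ C i} ⊆ C' := by
  set DR : Set ℝ := entrySet159 (R := ℝ) (C (Sum.inl ())) with hDR
  set DI : InfinitePlace ℚ → Set ℂ := fun _ => (fun r : ℝ => (r : ℂ)) '' DR with hDI
  set DF : ∀ v : HeightOneSpectrum (𝓞 ℚ), Set (v.adicCompletion ℚ) := fun v =>
    if (Sum.inr v : PlQ973) ∈ S then entrySet159 (R := v.adicCompletion ℚ) (C (Sum.inr v))
    else (v.adicCompletionIntegers ℚ : Set (v.adicCompletion ℚ)) with hDF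
  have hDF1 : ∀ v, (Sum.inr v : PlQ973) ∈ S →
      DF v = entrySet159 (R := v.adicCompletion ℚ) (C (Sum.inr v)) := fun v hv => if_pos hv
  have hDF0 : ∀ v, (Sum.inr v : PlQ973) ∉ S →
      DF v = (v.adicCompletionIntegers ℚ : Set (v.adicCompletion ℚ)) := fun v hv => if_neg hv
  have hcR : IsCompact DR := isCompact_entrySet159 (R := ℝ) (hC (Sum.inl ()) hS)
  have hcI : ∀ w, IsCompact (DI w) := fun _ => hcR.image Complex.continuous_ofReal
  have hc : ∀ v, IsCompact (DF v) := by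
    intro v
    by_cases hv : (Sum.inr v : PlQ973) ∈ S
    · rw [hDF1 v hv]
      exact isCompact_entrySet159 (R := v.adicCompletion ℚ) (hC (Sum.inr v) hv)
    · rw [hDF0 v hv]
      exact H11.LC.isCompact_integers_h11 ℚ v
  have hint : ∀ᶠ v in Filter.cofinite,
      DF v ⊆ (v.adicCompletionIntegers ℚ : Set (v.adicCompletion ℚ)) :=
    (eventually_notMemQ973 S).mono fun v hv => by rw [hDF0 v hv]
  refine ⟨_, isCompact_GLBox159 DI hcI DF hc hint, ?_⟩
  rintro g ⟨hgE, hgC⟩
  have hE := (mem_restrSubQ_iff973 S g).1 hgE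
  have key : ∀ h : G ℚ, (∀ v, (Sum.inr v : PlQ973) ∉ S →
        ∀ i j, ((h : Matrix (Fin 2) (Fin 2) (Adl ℚ)) i j).2 v ∈ v.adicCompletionIntegers ℚ) →
      (∀ i j, reHomQ973 ((h : Matrix (Fin 2) (Fin 2) (Adl ℚ)) i j) ∈ DR) →
      (∀ v, (Sum.inr v : PlQ973) ∈ S → ∀ i j,
        ((h : Matrix (Fin 2) (Fin 2) (Adl ℚ)) i j).2 v
          ∈ entrySet159 (R := v.adicCompletion ℚ) (C (Sum.inr v))) →
      (h : Matrix (Fin 2) (Fin 2) (Adl ℚ)) ∈ matBox159 DI DF := by
    intro h h0 hI h1 i j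
    refine ⟨fun w => ?_, fun v => ?_⟩
    · rw [infHom_eq_reHomQ973 w]
      exact ⟨_, hI i j, rfl⟩
    · by_cases hv : (Sum.inr v : PlQ973) ∈ S
      · rw [hDF1 v hv]; exact h1 v hv i j
      · rw [hDF0 v hv]; exact h0 v hv i j
  refine ⟨key g (fun v hv => (hE v hv).1) ?_ ?_, key g⁻¹ (fun v hv => (hE v hv).2) ?_ ?_⟩
  · intro i j
    exact entry_mem159 (R := ℝ) (hgC (Sum.inl ()) hS) i j
  · intro v hv i j
    exact entry_mem159 (R := v.adicCompletion ℚ) (hgC (Sum.inr v) hv) i j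
  · intro i j
    have h1 := entryInv_mem159 (R := ℝ) (hgC (Sum.inl ()) hS) i j
    have h2 : ((reGLQ973 g)⁻¹ : GL (Fin 2) ℝ) = reGLQ973 g⁻¹ := (map_inv _ g).symm
    have h3 : (((reGLQ973 g)⁻¹ : GL (Fin 2) ℝ) : Matrix (Fin 2) (Fin 2) ℝ) i j
        ∈ entrySet159 (R := ℝ) (C (Sum.inl ())) := h1
    rw [h2] at h3
    exact h3
  · intro v hv i j
    have h1 := entryInv_mem159 (R := v.adicCompletion ℚ) (hgC (Sum.inr v) hv) i j
    have h2 : ((Matrix.GeneralLinearGroup.map (T5.finHom v) g)⁻¹ :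
        GL (Fin 2) (v.adicCompletion ℚ))
        = Matrix.GeneralLinearGroup.map (T5.finHom v) g⁻¹ := (map_inv _ g).symm
    have h3 : (((Matrix.GeneralLinearGroup.map (T5.finHom v) g)⁻¹ :
        GL (Fin 2) (v.adicCompletion ℚ)) :
        Matrix (Fin 2) (Fin 2) (v.adicCompletion ℚ)) i j
          ∈ entrySet159 (R := v.adicCompletion ℚ) (C (Sum.inr v)) := h1
    rw [h2] at h3
    exact h3

/-! ## The theorem -/

/-- **`GL₂(𝔸_ℚ)` IS THE RESTRICTED PRODUCT** of `GL₂(ℝ)` and the `GL₂(ℚ_v)` with respect to the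
`GL₂(ℤ_v)`, in the sense of `IsRestrProd159`. -/
theorem isRestrProd_GLQ973 (T₀ : Finset (HeightOneSpectrum (𝓞 ℚ))) :
    IsRestrProd159 locProjQ973 locKQ973 (baseSetQ973 T₀) where
  cont := continuous_locProjQ973
  isOpenK := fun i _ => by
    cases i with
    | inl u => exact isOpen_univ
    | inr v => exact isOpen_intGL159 v
  isOpen := fun S _ => isOpen_restrSubQ973 S
  surj := fun S hS x => surj_restrQ973 S (hS (inl_mem_baseSetQ973 T₀ ())) x
  proper := fun S hS C hC => proper_restrQ973 S (hS (inl_mem_baseSetQ973 T₀ ())) C hC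

/-! ## The splitting of the Haar measure of `GL₂(𝔸_ℚ)` -/

attribute [local instance] Fermat.Agent.LT.T5.instMeasurableSpaceG

/-- The family of the local measures. -/
def locMeasQ973 (μr : @Measure (GL (Fin 2) ℝ) (borel _))
    (μF : ∀ v : HeightOneSpectrum (𝓞 ℚ), @Measure (GL (Fin 2) (v.adicCompletion ℚ)) (borel _)) :
    ∀ i : PlQ973, Measure (LocGLQ973 i)
  | Sum.inl _ => μr
  | Sum.inr v => μF v

/-- The family of the local functions. -/
def locFnQ973 (Fr : GL (Fin 2) ℝ → ℂ)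
    (FF : ∀ v : HeightOneSpectrum (𝓞 ℚ), GL (Fin 2) (v.adicCompletion ℚ) → ℂ) :
    ∀ i : PlQ973, LocGLQ973 i → ℂ
  | Sum.inl _ => Fr
  | Sum.inr v => FF v

theorem baseSetQ_mono973 {T₀ T : Finset (HeightOneSpectrum (𝓞 ℚ))} (h : T₀ ⊆ T) :
    baseSetQ973 T₀ ⊆ baseSetQ973 T := by
  intro i hi
  cases i with
  | inl u => exact inl_mem_baseSetQ973 T u
  | inr v => exact (inr_mem_baseSetQ973 T v).2 (h ((inr_mem_baseSetQ973 T₀ v).1 hi))

theorem prod_baseSetQ973 {M : Type*} [CommMonoid M] (T : Finset (HeightOneSpectrum (𝓞 ℚ)))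
    (φ : PlQ973 → M) :
    ∏ i ∈ baseSetQ973 T, φ i = (∏ v ∈ T, φ (Sum.inr v)) * φ (Sum.inl ()) := by
  classical
  unfold baseSetQ973
  rw [Finset.prod_insert, Finset.prod_image (fun _ _ _ _ h => Sum.inr_injective h), mul_comm]
  intro h
  obtain ⟨v, -, hv⟩ := Finset.mem_image.1 h
  exact Sum.inr_ne_inl hv

/-- `E_T` in the vocabulary of A0 (`OutT305` of helper305). -/
theorem mem_restrSubQ_base973 (T : Finset (HeightOneSpectrum (𝓞 ℚ))) (g : G ℚ) :
    g ∈ restrSub159 locProjQ973 locKQ973 (baseSetQ973 T) ↔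
      ∀ v : HeightOneSpectrum (𝓞 ℚ), v ∉ T → IsIntegralAt v g ∧ IsIntegralAt v g⁻¹ := by
  rw [mem_restrSubQ_iff973]
  constructor
  · intro h v hv
    exact h v fun h' => hv ((inr_mem_baseSetQ973 T v).1 h')
  · intro h v hv
    exact h v fun h' => hv ((inr_mem_baseSetQ973 T v).2 h')

/-- **THE SPLITTING OF THE HAAR MEASURE OF `GL₂(𝔸_ℚ)`.**  `μ` a Haar measure of `GL₂(𝔸_ℚ)`,
`μr` a Haar measure of `GL₂(ℝ)`, `μF v` Haar measures of `GL₂(ℚ_v)` with
`μF v (GL₂(ℤ_v)) = 1` for `v ∉ T₀`: there is ONE constant `c > 0` such that for every finite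
`T ⊇ T₀` and all measurable local functions

    ∫_{E_T} ∏_{v ∈ T} FF_v(g_v) · Fr(g_∞) dμ(g) = c · ∏_{v ∈ T} ∫ FF_v dμF_v · ∫ Fr dμr,

`E_T = {g : g_v ∈ GL₂(ℤ_v) for all v ∉ T}`. -/
theorem haarSplit_GLQ973
    (μ : Measure (G ℚ)) (hμ : μ.IsHaarMeasure) (T₀ : Finset (HeightOneSpectrum (𝓞 ℚ)))
    (μr : @Measure (GL (Fin 2) ℝ) (borel _))
    (μF : ∀ v : HeightOneSpectrum (𝓞 ℚ), @Measure (GL (Fin 2) (v.adicCompletion ℚ)) (borel _))
    (hr : @Measure.IsHaarMeasure _ _ _ (borel _) μr)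
    (hF : ∀ v, @Measure.IsHaarMeasure _ _ _ (borel _) (μF v))
    (h1 : ∀ v : HeightOneSpectrum (𝓞 ℚ), v ∉ T₀ →
      μF v (intGL159 ℚ v : Set (GL (Fin 2) (v.adicCompletion ℚ))) = 1) :
    ∃ c : ℝ, 0 < c ∧ ∀ T : Finset (HeightOneSpectrum (𝓞 ℚ)), T₀ ⊆ T →
      ∀ (Fr : GL (Fin 2) ℝ → ℂ)
        (FF : ∀ v : HeightOneSpectrum (𝓞 ℚ), GL (Fin 2) (v.adicCompletion ℚ) → ℂ),
        @Measurable _ _ (borel _) _ Fr →
        (∀ v ∈ T, @Measurable _ _ (borel _) _ (FF v)) →
        ∫ g in {g : G ℚ | ∀ v : HeightOneSpectrum (𝓞 ℚ), v ∉ T →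
            IsIntegralAt v g ∧ IsIntegralAt v g⁻¹},
          (∏ v ∈ T, FF v (Matrix.GeneralLinearGroup.map (T5.finHom v) g)) *
            Fr (reGLQ973 g) ∂μ
          = (c : ℂ) * ((∏ v ∈ T, @integral _ _ _ _ (borel _) (μF v) (FF v)) *
              @integral _ _ _ _ (borel _) μr Fr) := by
  have := hμ
  have : BorelSpace (G ℚ) := borelSpace_G159
  have hH : ∀ i : PlQ973, (locMeasQ973 μr μF i).IsHaarMeasure := by
    intro i
    cases i with
    | inl u => exact hr
    | inr v => exact hF v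
  have hR := isRestrProd_GLQ973 T₀
  have hKm : ∀ i : PlQ973, i ∉ baseSetQ973 T₀ →
      locMeasQ973 μr μF i (locKQ973 i : Set (LocGLQ973 i)) = 1 := by
    intro i hi
    cases i with
    | inl u => exact absurd (inl_mem_baseSetQ973 T₀ u) hi
    | inr v => exact h1 v fun h' => hi ((inr_mem_baseSetQ973 T₀ v).2 h')
  refine ⟨(restrConst159 μ locProjQ973 locKQ973 (locMeasQ973 μr μF) (baseSetQ973 T₀) : ℝ),
    restrConst_pos159 _ _ _ _ _, ?_⟩
  intro T hT Fr FF hFr hFF
  have hf : ∀ i ∈ baseSetQ973 T, Measurable (locFnQ973 Fr FF i) := by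
    intro i hi
    cases i with
    | inl u => exact hFr
    | inr v => exact hFF v ((inr_mem_baseSetQ973 T v).1 hi)
  have e := integral_restr_prod159 μ hR (locMeasQ973 μr μF) hKm (baseSetQ973 T)
    (baseSetQ_mono973 hT) (locFnQ973 Fr FF) hf
  rw [prod_baseSetQ973 T fun i => ∫ x, locFnQ973 Fr FF i x ∂(locMeasQ973 μr μF i)] at e
  have hset : {g : G ℚ | ∀ v : HeightOneSpectrum (𝓞 ℚ), v ∉ T →
      IsIntegralAt v g ∧ IsIntegralAt v g⁻¹}
      = (restrSub159 locProjQ973 locKQ973 (baseSetQ973 T) : Set (G ℚ)) := by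
    ext g
    exact (mem_restrSubQ_base973 T g).symm
  rw [hset]
  refine Eq.trans ?_ e
  refine integral_congr_ae (Filter.Eventually.of_forall fun g => ?_)
  exact (prod_baseSetQ973 T fun i => locFnQ973 Fr FF i (locProjQ973 i g)).symm

/-! ## Appendix: the equation lemmas of the definitions of this file are realised HERE

(ruling of the row-lead, review 16:00Z: the grader's kernel checker rejects a closure in which two
modules realise the equation lemmas of the same definition with different terms; `simp [f]`,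
`rw [f]`, `unfold f` downstream now find them in the defining module).  No statement of this
file is changed. -/

theorem eqnsRealised973 : True := by
  have _a1 := @LocGLQ973.eq_1
  have _a2 := @LocGLQ973.eq_2
  have _a3 := @LocGLQ973.eq_def
  have _b1 := @instGroupLocGLQ973.eq_1
  have _b2 := @instGroupLocGLQ973.eq_2
  have _b3 := @instGroupLocGLQ973.eq_def
  have _c1 := @instTopLocGLQ973.eq_1
  have _c2 := @instTopLocGLQ973.eq_2
  have _c3 := @instTopLocGLQ973.eq_def
  have _d1 := @instMeasLocGLQ973.eq_1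
  have _d3 := @instMeasLocGLQ973.eq_def
  have _e1 := @locProjQ973.eq_1
  have _e2 := @locProjQ973.eq_2
  have _e3 := @locProjQ973.eq_def
  have _f1 := @locKQ973.eq_1
  have _f2 := @locKQ973.eq_2
  have _f3 := @locKQ973.eq_def
  have _g1 := @locMeasQ973.eq_1
  have _g2 := @locMeasQ973.eq_2
  have _g3 := @locMeasQ973.eq_def
  have _h1 := @locFnQ973.eq_1
  have _h2 := @locFnQ973.eq_2
  have _h3 := @locFnQ973.eq_def
  have _i1 := @baseSetQ973.eq_1
  have _i3 := @baseSetQ973.eq_def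
  have _j1 := @reHomQ973.eq_1
  have _j3 := @reHomQ973.eq_def
  have _k1 := @reGLQ973.eq_1
  have _k3 := @reGLQ973.eq_def
  trivial

end Fermat.Agent.LT.T7.H973

end
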