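import Mathlib
import Fermat.Agent.LT.T7.H801.BaseQCutSpec
import Fermat.Agent.LT.T7.H193.NatTools

/-!
# Row LT, tower T7, node T7.L2Q.1.H2a.B `CQ801.PairBQC801` (registry row 2856, owner helper973):
# THE SECOND PAIR OF THE CONSTRUCTION OVER `ℚ` (quadratic step) -- FIRST CUT, Spec

OFF-MAIN.  Definitions and frozen Props only (the proved top is `PairBQTop.lean`).  No hole,
nothing assumed.  ADDITIVE (new names only, all suffixed `973`, namespace
`Fermat.Agent.LT.T7.PBQ973`).  Vocabulary, byte-identical copies: `T7/H801/BaseQCutSpec.lean`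
(helper801@6ce712ecc, 7e08115d: `IsPairBQ801`, `PairBQC801`), `T7/H801/SupplyQConstrSpec.lean`
(`IsAvgPureQ801`, `LocBQ801`), `T7/H57/BaseQSpec.lean` (`CQ57.IsLevQ57`, `CQ57.IsLevFnQ57`),
`T7/H193/{ProjSpec,KillSpec,AvgFinal,NatTools}.lean` (helper193: `nat193`, `IsTorusData`,
`IsBiHInv`, `killing_of_torus193`).

MIRROR over `ℚ` of the first cut of helper57 of the cubic second pair
(`T7/H57/PairBSpec.lean` 40309edd, `PairBTop.lean`: `PreBC57`, `NatUpC57`, `NatDnC57`,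
`NatShapeC57`, `H193.RelTorusC`).

    pairBQC_of973 : RelTorusQC973 F → PreBQC973 P F → KillToolQC973 QWt.w1 → NatShapeQC973 F
                      → CQ801.PairBQC801 P F

## The cut: THE NATURAL AVERAGE IS SPLIT OFF

The second pair is a pair of ARCHIMEDEAN TORUS MEANS (`up2_kill` / `dn2_kill` force it: the cusp
functions of the level are invariant under the ray generator only, and `ℝ_{>0} / ⟨r⟩` has
non-trivial characters): `φ₂ = nat193 a' D' φ°`, `f₂ t = nat193 a D (f° t)` for COMPATIBLE torus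
data (`IsRelTorusQ973`) and an UN-AVERAGED pair `(φ°, f° w0, f° w1)`.

* **`PreBQC973 P F`** (NODE = the un-averaged pair; T3.18M + T3.18R explicit forms + T6): a
  level `𝔫`, and for all Haar measures, the exponents and all constants `c ≠ 0`, `a ≠ 0` a
  scalar `c₂` and a pair `(φ°, f°)` with `IsPreBQ973`: the fields of `CQ801.IsPairBQ801` EXCEPT
  the two killing properties, with BI-invariance (`H193.IsBiHInv`) in `up_inv`, `dn_inv`.
* **`RelTorusQC973 F`** (LEAF, [M]): compatible torus data exist for `ℚ ⊂ F`, `F` imaginary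
  quadratic.  THE NORM IS `N t' = 2 t'` (one complex place over the real place; NOT
  `H193.fibSum193`, see the header of `H193/NatMatchSpec.lean`): `D' = [0, c')`,
  `D = [0, 2 c')`, `c' = log t₀'`, `t₀'^4 = 2`, `2 c' = log t₀`, `t₀^2 = 2` (`T5.IsRayGen`).
  The structure carries the translation invariance of the mean downstairs for EVERY
  `r`-invariant function (`ray`; = `H820.MeanRay820` of helper820, needed for the type `w1`).
* **`KillToolQC973 t`** (LEAF for `t = w1`, [L]; `t = w0` is `H193.killing_of_torus193` for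
  `K = ℚ`, PROVED in the top file): THE KILLING TOOL over `ℚ` FOR THE TYPE `t`.  Port of
  `H193.kill193` / `H193.killing_of_torus193` to the type `wtOne` on the typed projection
  station of helper820 (`T7/H820/ProjQGen.lean`: `finAvgCusp_T820`, `finAvgOrth_T820`,
  `torAvgW_T820`, `torAvgOrth_T820`); the type-agnostic leaves (`RconvFinAvgC`, `NullC`,
  `NatOpC`, `NatEKC`, `NatAdjEKC`, `NatSmoothC`, `TorAvgFixC`, `NatHInvC`) are used as they
  are, the three leaves which mention the trivial type (`NatBasicC`, `NatAbsorbC`,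
  `RconvTorAvgC`) are ported (the elements over which one averages are central).
* **`NatShapeQC973 F`** (LEAF, [L]; Fubini + the push-forward): the torus means of an average of
  pure tensors with the local condition `LocBQ801` are an average of pure tensors with the
  local condition `LocBQ801` (parameter space `Ω × closure D'`).

The two plugs `NatUpQC973`, `NatDnQC973` (mirror of `PB57.NatUpC57`, `PB57.NatDnC57`) are
PROVED in the top file (from `H193.killing_of_torus193` for `K = F`, resp. from the tool of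
type `t`).

FALSITY CHECKS (helper973).  (a) THE NORM.  `AS.HasAbelN Φ β'` is
`∫_ℂ Φ [[c₁, x], [0, c₂]] dx = |c₁| |c₂| β'(log |c₁|, log |c₂|)` (usual absolute value), and
`R.HasAbelNR F β` is `∫_ℝ F [[c₁, x], [0, c₂]] dx = √(c₁ c₂) β(log c₁, log c₂)`.  For the
translate `Φ(· ρ⁻¹)`, `ρ = e^{t'}`: `∫_ℂ Φ [[c₁/ρ, x/ρ], [0, c₂/ρ]] dx
= ρ² · ρ⁻² |c₁| |c₂| β'(log |c₁| - t', log |c₂| - t')`, so the `N`-integral is the symmetric
bump `β'(· - (t', t'))`.  For `F(· σ⁻¹)`, `σ = e^s`: `σ · σ⁻¹ √(c₁ c₂)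
(halfQ801 c β')(log c₁ - s, log c₂ - s) = √(c₁ c₂) c β'((log c₁ - s)/2, (log c₂ - s)/2)`, and
this is `halfQ801 c (β'(· - (t', t')))` if and only if `s = 2 t'`.  So the translates of a
triple in the Abel relation `c` by `a'(t')` upstairs and `a(2 t')` downstairs are in the Abel
relation `c`, and NO other norm works.  (b) `T5.IsRayGen`: `t₀^(2 [K : ℚ]) = 2`, so
`log t₀(ℚ) = 2 log t₀(F)`: the norm maps the period upstairs to the period downstairs.
(c) The constants `c`, `a` are constants of the un-averaged pair; the torus mean is linear.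
(d) The Haar measures `μr`, `μc` occur in `LocBQ801` only, in a clause on the finite
components; the torus mean does not change the finite components.  (e) `KillToolQC973 w1`:
the proof of `H193.kill193` uses the trivial type only through `IsTorusData.mean` (here: `ray`)
and the leaves named above (helper820, header of `ProjQGen.lean`).  (f) The parameter space of
`NatShapeQC973` is `Ω × closure D'` with the measure `ν ⊗ (vol D')⁻¹ vol|_{D'}`; the local
condition holds for EVERY `t'` (not only for `t' ∈ D'`).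
-/

set_option autoImplicit false

open AutomorphicForm IsDedekindDomain NumberField MeasureTheory
open scoped ComplexConjugate

noncomputable section

namespace Fermat.Agent.LT.T7.PBQ973

open Fermat.Agent.LT.H556 Fermat.Agent.LT.H556.A0 Fermat.Agent.LT.T7 Fermat.Agent.LT.T7.H305
  Fermat.Agent.LT.T7.L2Q Fermat.Agent.LT.T7.H893 Fermat.Agent.LT.T7.H962
  Fermat.Agent.LT.T7.H732 Fermat.Agent.LT.T7.MQ298 Fermat.Agent.LT.T7.CQ801

attribute [local instance] Fermat.Agent.LT.T5.instMeasurableSpaceG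

section Defs

variable {F : Type} [Field F] [NumberField F]

/-- **THE NORM of the quadratic step** on the parameters of the positive scalars at infinity:
`N t' = 2 t'` (`F` has ONE infinite place, a complex place over the real place of `ℚ`; the sum
over the infinite places of `F` has one term). -/
def normVec973 (t' : InfinitePlace F → ℝ) : InfinitePlace ℚ → ℝ :=
  fun _ => 2 * ∑ w : InfinitePlace F, t' w

/-- **COMPATIBLE TORUS DATA over `ℚ`** for the level `𝔫` of `ℚ` and the level `𝔫 𝒪_F` of `F`: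
torus data downstairs and upstairs such that the norm `N t' = 2 t'` maps `D'` onto `D` and the
normalised Lebesgue measure of `D'` to the normalised Lebesgue measure of `D`; downstairs the
mean over `D` of EVERY `r`-invariant function is translation invariant (`ray`). -/
structure IsRelTorusQ973 (𝔫 : Ideal (𝓞 ℚ)) (r : G ℚ) (r' : G F)
    (a : (InfinitePlace ℚ → ℝ) → G ℚ) (D : Set (InfinitePlace ℚ → ℝ))
    (a' : (InfinitePlace F → ℝ) → G F) (D' : Set (InfinitePlace F → ℝ)) : Prop where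
  down : H193.IsTorusData 𝔫 r a D
  ray : ∀ e : G ℚ → ℂ, (∀ g : G ℚ, e (g * r) = e g) →
    ∀ (g : G ℚ) (s : InfinitePlace ℚ → ℝ),
      ∫ t in D, e (g * a (t + s)) = ∫ t in D, e (g * a t)
  up : H193.IsTorusData (upI (K' := F) 𝔫) r' a' D'
  maps : ∀ t' ∈ D', normVec973 t' ∈ D
  onto : ∀ t ∈ D, ∃ t' ∈ D', normVec973 t' = t
  push : ∀ h : (InfinitePlace ℚ → ℝ) → ℂ, IntegrableOn h D volume →
    (((volume D').toReal : ℝ) : ℂ)⁻¹ * ∫ t' in D', h (normVec973 t')
      = (((volume D).toReal : ℝ) : ℂ)⁻¹ * ∫ t in D, h t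

/-- **THE PROPERTIES OF THE UN-AVERAGED SECOND PAIR over `ℚ`** `(φ°, f° w0, f° w1)` with the
scalar `c₂`, the constant `c` of the Abel relation and the constant `a`: the fields of
`CQ801.IsPairBQ801` except `up2_kill`, `dn2_kill`, with BI-invariance under `U(𝔑₀)`, resp.
`U(𝔫)`, and the Iwahori subgroups along the orbit, resp. at `u`. -/
structure IsPreBQ973 (Φ : HeckeEigensystem F ℂ) (B : L2QBase962 F) (g : G F)
    (𝔫 : Ideal (𝓞 ℚ))
    (μr : @Measure (GL (Fin 2) ℝ) (borel _)) (μc : @Measure (GL (Fin 2) ℂ) (borel _))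
    (c a : ℂ) (T₀ : Finset (HeightOneSpectrum (𝓞 ℚ)))
    (n n₀ : HeightOneSpectrum (𝓞 F) → ℕ) (m : HeightOneSpectrum (𝓞 ℚ) → ℕ)
    (c₂ : EigData F → ℂ) (φ₀ : G F → ℂ) (f₀ : QWt → G ℚ → ℂ) : Prop where
  up_test : T5.IsTestFn (upI (K' := F) 𝔫) T5.trivType φ₀
  up_ek : T5.IsEK B.R'.μ φ₀ ∧ T5.IsEK B.R'.μ (T5.adjointFn φ₀)
  up_inv : H193.IsBiHInv B.𝔑₀ 2 B.o φ₀
  up_op : ∀ (ψ : G F → ℂ) (C : EigData F), IsEigFn B.𝔑₀ B.R'.r 2 B.o ψ C →
    ∀ x : G F, T5.Rconv B.R'.μ φ₀ ψ x = c₂ C * ψ x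
  up_ne : ∀ C : EigData F, C.AgreeOut B.S' (eigOf Φ) → c₂ C ≠ 0
  dn_test : ∀ t : QWt, T5.IsTestFn 𝔫 t.type (f₀ t)
  dn_ek : ∀ t : QWt, T5.IsEK B.R.μ (f₀ t) ∧ T5.IsEK B.R.μ (T5.adjointFn (f₀ t))
  dn_inv : ∀ t : QWt, H193.IsBiHInv 𝔫 1 (fun _ => B.u) (f₀ t)
  dn_wfn : ∀ (t : QWt) (ψ : G ℚ → ℂ), IsWFnQ t 𝔫 B.R.r B.u ψ →
    IsWFnQ t 𝔫 B.R.r B.u (T5.Rconv B.R.μ (f₀ t) ψ)
  dn_class : ∀ (t : QWt) (ψ : G ℚ → ℂ) (c : EigData ℚ), IsEigFnQ t 𝔫 B.R.r B.u ψ c →
    IsEigFnQ t 𝔫 B.R.r B.u (T5.Rconv B.R.μ (f₀ t) ψ) c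
  dn_comm : ∀ (t : QWt) (ψ : G ℚ → ℂ), IsWFnQ t 𝔫 B.R.r B.u ψ →
    ∀ (H : Finset (G ℚ)) (z : G ℚ), IsIwCosetSystem B.u H → IsScalarUniformizerAt B.u z →
      (∀ x : G ℚ, T5.Rconv B.R.μ (f₀ t) (iwOp B.u H ψ) x
        = iwOp B.u H (T5.Rconv B.R.μ (f₀ t) ψ) x) ∧
      ∀ (k : ℤ) (x : G ℚ), T5.Rconv B.R.μ (f₀ t) (shiftOp z k ψ) x
        = shiftOp z k (T5.Rconv B.R.μ (f₀ t) ψ) x
  up_supp : ∃ C : Set (G F), IsCompact C ∧ T5.H32.IsIwSupported32 2 B.o C φ₀
  dn_supp : ∀ t : QWt,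
    ∃ C : Set (G ℚ), IsCompact C ∧ T5.H32.IsIwSupported32 1 (fun _ => B.u) C (f₀ t)
  /-- the local shape of record: averages of pure tensors with the local condition
  `LocBQ801 … c`, constant `a` -/
  shape : IsAvgPureQ801 (upI (K' := F) 𝔫) 𝔫 T₀ (LocBQ801 B g 𝔫 μr μc c T₀ n n₀ m) a
    φ₀ (f₀ QWt.w0) (f₀ QWt.w1)

/-- The fields `up2_*` of `CQ801.IsPairBQ801` (the part upstairs of the second pair). -/
structure IsPairBUpQ973 (Φ : HeckeEigensystem F ℂ) (B : L2QBase962 F) (𝔫 : Ideal (𝓞 ℚ))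
    (c₂ : EigData F → ℂ) (φ₂ : G F → ℂ) : Prop where
  up2_test : T5.IsTestFn (upI (K' := F) 𝔫) T5.trivType φ₂
  up2_ek : T5.IsEK B.R'.μ φ₂ ∧ T5.IsEK B.R'.μ (T5.adjointFn φ₂)
  up2_inv : IsUInv B.𝔑₀ 2 B.o φ₂
  up2_op : ∀ (ψ : G F → ℂ) (C : EigData F), IsEigFn B.𝔑₀ B.R'.r 2 B.o ψ C →
    ∀ x : G F, T5.Rconv B.R'.μ φ₂ ψ x = c₂ C * ψ x
  up2_kill : ∀ ψ : G F → ℂ, T5.IsCuspFn (upI (K' := F) 𝔫) T5.trivType B.R'.r ψ →
    (∀ χ : G F → ℂ, IsWFn B.𝔑₀ B.R'.r 2 B.o χ → T5.innerD B.R'.μ B.R'.F ψ χ = 0) →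
    ∀ x : G F, T5.Rconv B.R'.μ φ₂ ψ x = 0
  up2_ne : ∀ C : EigData F, C.AgreeOut B.S' (eigOf Φ) → c₂ C ≠ 0
  up2_supp : ∃ C : Set (G F), IsCompact C ∧ T5.H32.IsIwSupported32 2 B.o C φ₂

/-- The fields `dn2_*` of `CQ801.IsPairBQ801` for ONE type `t` (the part downstairs of the
second pair). -/
structure IsPairBDnQ973 (B : L2QBase962 F) (𝔫 : Ideal (𝓞 ℚ)) (t : QWt) (f₂ : G ℚ → ℂ) :
    Prop where
  dn2_test : T5.IsTestFn 𝔫 t.type f₂
  dn2_ek : T5.IsEK B.R.μ f₂ ∧ T5.IsEK B.R.μ (T5.adjointFn f₂)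
  dn2_inv : IsUInv 𝔫 1 (fun _ => B.u) f₂
  dn2_wfn : ∀ ψ : G ℚ → ℂ, IsWFnQ t 𝔫 B.R.r B.u ψ →
    IsWFnQ t 𝔫 B.R.r B.u (T5.Rconv B.R.μ f₂ ψ)
  dn2_class : ∀ (ψ : G ℚ → ℂ) (c : EigData ℚ), IsEigFnQ t 𝔫 B.R.r B.u ψ c →
    IsEigFnQ t 𝔫 B.R.r B.u (T5.Rconv B.R.μ f₂ ψ) c
  dn2_comm : ∀ ψ : G ℚ → ℂ, IsWFnQ t 𝔫 B.R.r B.u ψ →
    ∀ (H : Finset (G ℚ)) (z : G ℚ), IsIwCosetSystem B.u H → IsScalarUniformizerAt B.u z →
      (∀ x : G ℚ, T5.Rconv B.R.μ f₂ (iwOp B.u H ψ) x
        = iwOp B.u H (T5.Rconv B.R.μ f₂ ψ) x) ∧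
      ∀ (k : ℤ) (x : G ℚ), T5.Rconv B.R.μ f₂ (shiftOp z k ψ) x
        = shiftOp z k (T5.Rconv B.R.μ f₂ ψ) x
  dn2_kill : ∀ ψ : G ℚ → ℂ, T5.IsCuspFn 𝔫 t.type B.R.r ψ →
    (∀ χ : G ℚ → ℂ, IsWFnQ t 𝔫 B.R.r B.u χ → T5.innerD B.R.μ B.R.F ψ χ = 0) →
    ∀ x : G ℚ, T5.Rconv B.R.μ f₂ ψ x = 0
  dn2_supp : ∃ C : Set (G ℚ), IsCompact C ∧ T5.H32.IsIwSupported32 1 (fun _ => B.u) C f₂

end Defs

/-! ## The killing tool over `ℚ` for a type (no field `F`) -/

section Tool

/-- **LEAF PBQ.K = THE KILLING TOOL over `ℚ` FOR THE TYPE `t`** (`H193.killing_of_torus193` for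
`K = ℚ`, `𝔑 = 𝔑₀ = 𝔫`, `l = 1`, orbit `(u)` and the `K_∞`-type `t.type`; the mean over `D` is
translation invariant for every `r`-invariant function).  For an Eisenstein-killing test
function `f₀` OF TYPE `t` with Eisenstein-killing adjoint which is bi-invariant under `U(𝔫)` and
the Iwahori subgroup at `u`, the torus mean `nat193 a D f₀` has the same properties, the same
action on the continuous functions which are invariant under the positive scalars at infinity,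
and KILLS the cusp functions of type `t` orthogonal to the invariant ones. -/
def KillToolQC973 (t : QWt) : Prop :=
  ∀ R : Frame5 ℚ, IsFrame5 R → ∀ 𝔫 : Ideal (𝓞 ℚ), 𝔫 ≠ ⊥ → ∀ u : HeightOneSpectrum (𝓞 ℚ),
    ∀ (a : (InfinitePlace ℚ → ℝ) → G ℚ) (D : Set (InfinitePlace ℚ → ℝ)),
      H193.IsTorusData 𝔫 R.r a D →
      (∀ e : G ℚ → ℂ, (∀ g : G ℚ, e (g * R.r) = e g) →
        ∀ (g : G ℚ) (s : InfinitePlace ℚ → ℝ),
          ∫ x in D, e (g * a (x + s)) = ∫ x in D, e (g * a x)) →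
    ∀ f₀ : G ℚ → ℂ, T5.IsTestFn 𝔫 t.type f₀ → T5.IsEK R.μ f₀ →
      T5.IsEK R.μ (T5.adjointFn f₀) → H193.IsBiHInv 𝔫 1 (fun _ => u) f₀ →
      T5.IsTestFn 𝔫 t.type (H193.nat193 a D f₀) ∧ T5.IsEK R.μ (H193.nat193 a D f₀) ∧
        T5.IsEK R.μ (T5.adjointFn (H193.nat193 a D f₀)) ∧
        H193.IsBiHInv 𝔫 1 (fun _ => u) (H193.nat193 a D f₀) ∧
        (∀ e : G ℚ → ℂ, Continuous e →
          (∀ (w : InfinitePlace ℚ) (z : G ℚ), IsArchPosScalar w z →
            ∀ g : G ℚ, e (g * z) = e g) →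
          ∀ x : G ℚ, T5.Rconv R.μ (H193.nat193 a D f₀) e x = T5.Rconv R.μ f₀ e x) ∧
        ∀ ψ : G ℚ → ℂ, T5.IsCuspFn 𝔫 t.type R.r ψ →
          (∀ χ : G ℚ → ℂ, IsWFnQ t 𝔫 R.r u χ → T5.innerD R.μ R.F ψ χ = 0) →
          ∀ x : G ℚ, T5.Rconv R.μ (H193.nat193 a D f₀) ψ x = 0

end Tool

/-! ## The nodes and the leaves of the first cut -/

section Nodes

variable (P : EKCond)
variable (F : Type) [Field F] [NumberField F]

/-- **LEAF PBQ.R = REL-TORUS over `ℚ` ([M]).**  `F` imaginary quadratic, `𝔫 ≠ 0`: compatible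
torus data exist for all ray generators.
Proof.  `a`, `a'` from `H193.PosScalC` (`H195.posScalC195`); `r = a (fun _ => c)`,
`c = log t₀`, `t₀² = 2`; `r' = a' (fun _ => c')`, `c' = log t₀'`, `t₀'⁴ = 2`, so `c = 2 c'`
(`Module.finrank ℚ F = 2`); `InfinitePlace ℚ`, `InfinitePlace F` are subsingletons
(`IsImagQuad`: one complex place); `D`, `D'` = the fundamental parallelepipeds of the bases
`(fun _ => c)`, `(fun _ => c')` (`ZSpan.fundamentalDomain`; as
`H820.torusData_of_subsingleton820`, with the explicit sets: `H193.TorusParC`, closed);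
`maps`, `onto`, `push`: in the coordinate of the single place `D' = [0, c')`, `D = [0, 2 c')`
and `N` is the multiplication by `2` (`H193.PushParC` with `J` empty, or directly:
`∫_{[0, 2c')} h = 2 ∫_{[0, c')} h(2 ·)`). -/
def RelTorusQC973 : Prop :=
  IsImagQuad F → ∀ 𝔫 : Ideal (𝓞 ℚ), 𝔫 ≠ ⊥ →
    ∀ (r : G ℚ) (r' : G F), T5.IsRayGen r → T5.IsRayGen r' →
    ∃ (a : (InfinitePlace ℚ → ℝ) → G ℚ) (D : Set (InfinitePlace ℚ → ℝ))
      (a' : (InfinitePlace F → ℝ) → G F) (D' : Set (InfinitePlace F → ℝ)),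
      IsRelTorusQ973 𝔫 r r' a D a' D'

/-- **NODE PBQ.0 = PRE-B over `ℚ` (the UN-AVERAGED second pair; T3.18M + T3.18R explicit forms
+ T6).**  For a common part of helper60 with `3 ∈ S` and a bad element `g` there is a LEVEL `𝔫`
such that for all Haar measures, the exponents of the level and ALL constants `c ≠ 0`, `a ≠ 0`
there are a scalar `c₂` and a pair `(φ°, f°)` with `IsPreBQ973`.
Construction.  As `PB57.PreBC57` with `ℓ = 2` (see there and the doc-string of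
`CQ801.PairBQC801`): `𝔫 = 𝔫₀ ^ d`, `d` so large that the partners of the double coset
functions at the bad places `v ≠ u` are bi-invariant under `U(𝔫)_v`.  Upstairs: the
Eisenstein-killing function of station T3.18M over `F` in the explicit form (finite sum of pure
tensors with unit components `1_{U₀}` at the bad places, spherical outside, bi-`U(2)`-invariant
at infinity with `N`-integral a symmetric bump `β'`), summed over the right translates by
`I_o / U(𝔑₀)_o` along the orbit.  Downstairs, for the two types: `a ·` the pure tensors of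
station T3.18R (`T3.R.ekOpExistR_c`) with THE SAME finite components for the two types (the
partners at the bad places, the Iwahori function at `u`, the matched spherical components
outside the level) and the component of weight `0`, resp. `-1`, at infinity with `N`-integral
`halfQ801 c β'` (`T3.R.AbelRealC`).  NO killing property. -/
def PreBQC973 : Prop :=
  HasSqrtNegThree F → IsImagQuad F →
    ∀ Φ : HeckeEigensystem F ℂ, A0.IsCuspAdelicSph0 F Φ → ConstOnFibresQ Φ → P F Φ →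
      ∀ B : L2Q.H60.L2QBase F, L2Q.H60.IsL2QBase Φ B → L2Q.H60.IsRamQ60 B →
      ∀ g : G F, B.IsBad g →
      ∃ 𝔫 : Ideal (𝓞 ℚ), CQ57.IsLevQ57 (toBase962_732 B) 𝔫 ∧
        ∀ (μr : @Measure (GL (Fin 2) ℝ) (borel _)) (μc : @Measure (GL (Fin 2) ℂ) (borel _)),
          @Measure.IsHaarMeasure _ _ _ (borel _) μr →
          @Measure.IsHaarMeasure _ _ _ (borel _) μc →
        ∀ (T₀ : Finset (HeightOneSpectrum (𝓞 ℚ)))
          (n n₀ : HeightOneSpectrum (𝓞 F) → ℕ) (m : HeightOneSpectrum (𝓞 ℚ) → ℕ),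
          CQ57.IsLevFnQ57 (toBase962_732 B) 𝔫 T₀ n n₀ m →
          ∀ c a : ℂ, c ≠ 0 → a ≠ 0 →
            ∃ (c₂ : EigData F → ℂ) (φ₀ : G F → ℂ) (f₀ : QWt → G ℚ → ℂ),
              IsPreBQ973 Φ (toBase962_732 B) g 𝔫 μr μc c a T₀ n n₀ m c₂ φ₀ f₀

/-- **PLUG PBQ.1 = NAT-UP over `ℚ`** (PROVED in the top file: plug of
`H193.killing_of_torus193` for `K = F`).  The torus mean upstairs of the un-averaged pair has
the properties `up2_*` of the second pair. -/
def NatUpQC973 : Prop :=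
  ∀ (Φ : HeckeEigensystem F ℂ) (B : L2QBase962 F), IsL2QBase962 Φ B →
    ∀ (g : G F) (𝔫 : Ideal (𝓞 ℚ)), CQ57.IsLevQ57 B 𝔫 →
    ∀ (μr : @Measure (GL (Fin 2) ℝ) (borel _)) (μc : @Measure (GL (Fin 2) ℂ) (borel _))
      (c a : ℂ) (T₀ : Finset (HeightOneSpectrum (𝓞 ℚ)))
      (n n₀ : HeightOneSpectrum (𝓞 F) → ℕ) (m : HeightOneSpectrum (𝓞 ℚ) → ℕ)
      (c₂ : EigData F → ℂ) (φ₀ : G F → ℂ) (f₀ : QWt → G ℚ → ℂ),
      IsPreBQ973 Φ B g 𝔫 μr μc c a T₀ n n₀ m c₂ φ₀ f₀ →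
    ∀ (aT : (InfinitePlace ℚ → ℝ) → G ℚ) (D : Set (InfinitePlace ℚ → ℝ))
      (aT' : (InfinitePlace F → ℝ) → G F) (D' : Set (InfinitePlace F → ℝ)),
      IsRelTorusQ973 𝔫 B.R.r B.R'.r aT D aT' D' →
      IsPairBUpQ973 Φ B 𝔫 c₂ (H193.nat193 aT' D' φ₀)

/-- **PLUG PBQ.2 = NAT-DOWN over `ℚ`** (PROVED in the top file from the killing tool of the two
types).  The torus means downstairs of the un-averaged pair have the properties `dn2_*` of the
second pair. -/
def NatDnQC973 : Prop :=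
  ∀ (Φ : HeckeEigensystem F ℂ) (B : L2QBase962 F), IsL2QBase962 Φ B →
    ∀ (g : G F) (𝔫 : Ideal (𝓞 ℚ)), CQ57.IsLevQ57 B 𝔫 →
    ∀ (μr : @Measure (GL (Fin 2) ℝ) (borel _)) (μc : @Measure (GL (Fin 2) ℂ) (borel _))
      (c a : ℂ) (T₀ : Finset (HeightOneSpectrum (𝓞 ℚ)))
      (n n₀ : HeightOneSpectrum (𝓞 F) → ℕ) (m : HeightOneSpectrum (𝓞 ℚ) → ℕ)
      (c₂ : EigData F → ℂ) (φ₀ : G F → ℂ) (f₀ : QWt → G ℚ → ℂ),
      IsPreBQ973 Φ B g 𝔫 μr μc c a T₀ n n₀ m c₂ φ₀ f₀ →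
    ∀ (aT : (InfinitePlace ℚ → ℝ) → G ℚ) (D : Set (InfinitePlace ℚ → ℝ))
      (aT' : (InfinitePlace F → ℝ) → G F) (D' : Set (InfinitePlace F → ℝ)),
      IsRelTorusQ973 𝔫 B.R.r B.R'.r aT D aT' D' →
      ∀ t : QWt, IsPairBDnQ973 B 𝔫 t (H193.nat193 aT D (f₀ t))

/-- **LEAF PBQ.3 = NAT-SHAPE over `ℚ` ([L]; Fubini + the push-forward).**  The torus means of
the un-averaged pair are an average of pure tensors with the local condition `LocBQ801`,
constant `a`.
Proof.  Parameter space `Ω × closure D'` (compact, Hausdorff, second countable), measure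
`ν ⊗ (vol D')⁻¹ vol|_{D'}`.  The translate of `pure305 T' φ₀ Φ` by `a'(t')⁻¹` is the pure tensor
with the archimedean component `Φ w (· e^{-t' w})`; the translate of `pureQ298 T f₀ F0` by
`a(N t')⁻¹` is the pure tensor with the archimedean component `F0(· e^{-2 t'})`; the finite
components do not change, the translated archimedean components are in the Abel relation `c`
(falsity check (a) of the header: `β'(· - (t', t'))` is a symmetric bump), test functions and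
supports: right translation by a central element at infinity.  Upstairs Fubini on
`Ω × D'`; downstairs `IsRelTorusQ973.push` (`nat193 a D f = (vol D')⁻¹ ∫_{D'} f(· a(N t')⁻¹)`,
as `H193.nat_eq_push193`) and Fubini. -/
def NatShapeQC973 : Prop :=
  IsImagQuad F →
  ∀ (Φ : HeckeEigensystem F ℂ) (B : L2QBase962 F), IsL2QBase962 Φ B →
    ∀ (g : G F) (𝔫 : Ideal (𝓞 ℚ)), CQ57.IsLevQ57 B 𝔫 →
    ∀ (μr : @Measure (GL (Fin 2) ℝ) (borel _)) (μc : @Measure (GL (Fin 2) ℂ) (borel _)),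
      @Measure.IsHaarMeasure _ _ _ (borel _) μr →
      @Measure.IsHaarMeasure _ _ _ (borel _) μc →
    ∀ (T₀ : Finset (HeightOneSpectrum (𝓞 ℚ)))
      (n n₀ : HeightOneSpectrum (𝓞 F) → ℕ) (m : HeightOneSpectrum (𝓞 ℚ) → ℕ),
      CQ57.IsLevFnQ57 B 𝔫 T₀ n n₀ m →
    ∀ c a : ℂ, c ≠ 0 → a ≠ 0 →
    ∀ (c₂ : EigData F → ℂ) (φ₀ : G F → ℂ) (f₀ : QWt → G ℚ → ℂ),
      IsPreBQ973 Φ B g 𝔫 μr μc c a T₀ n n₀ m c₂ φ₀ f₀ →
    ∀ (aT : (InfinitePlace ℚ → ℝ) → G ℚ) (D : Set (InfinitePlace ℚ → ℝ))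
      (aT' : (InfinitePlace F → ℝ) → G F) (D' : Set (InfinitePlace F → ℝ)),
      IsRelTorusQ973 𝔫 B.R.r B.R'.r aT D aT' D' →
      IsAvgPureQ801 (upI (K' := F) 𝔫) 𝔫 T₀ (LocBQ801 B g 𝔫 μr μc c T₀ n n₀ m) a
        (H193.nat193 aT' D' φ₀) (H193.nat193 aT D (f₀ QWt.w0)) (H193.nat193 aT D (f₀ QWt.w1))

end Nodes

/-! ## Appendix: the equation lemmas of the definitions of this file are realised HERE -/

theorem eqns_realised_pairBQSpec973 : True := by
  have _h0_0 := @normVec973.eq_1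
  have _h0_1 := @normVec973.eq_def
  have _h0_2 := @normVec973.eq_unfold
  have _h1_0 := @KillToolQC973.eq_1
  have _h1_1 := @KillToolQC973.eq_def
  have _h1_2 := @KillToolQC973.eq_unfold
  have _h2_0 := @RelTorusQC973.eq_1
  have _h2_1 := @RelTorusQC973.eq_def
  have _h2_2 := @RelTorusQC973.eq_unfold
  have _h3_0 := @PreBQC973.eq_1
  have _h3_1 := @PreBQC973.eq_def
  have _h3_2 := @PreBQC973.eq_unfold
  have _h4_0 := @NatUpQC973.eq_1
  have _h4_1 := @NatUpQC973.eq_def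
  have _h4_2 := @NatUpQC973.eq_unfold
  have _h5_0 := @NatDnQC973.eq_1
  have _h5_1 := @NatDnQC973.eq_def
  have _h5_2 := @NatDnQC973.eq_unfold
  have _h6_0 := @NatShapeQC973.eq_1
  have _h6_1 := @NatShapeQC973.eq_def
  have _h6_2 := @NatShapeQC973.eq_unfold
  trivial

end Fermat.Agent.LT.T7.PBQ973

end
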