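import Mathlib
import Fermat.Agent.LT.T7.H973.PairBQSpec

/-!
# Row LT, tower T7, node T7.L2Q.1.H2a.B.0 `PBQ973.PreBQC973` (registry row 3040):
# THE UN-AVERAGED SECOND PAIR OVER `ℚ` -- SECOND CUT (THE SWAP), Spec (helper973, node owner of
# row 2856; CANDIDATE cut for the owner of row 3040)

OFF-MAIN.  Definitions and frozen Props only (the proved top is `PreBQTop.lean`).  No hole,
nothing assumed.  ADDITIVE (new names only, all suffixed `973`, namespace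
`Fermat.Agent.LT.T7.PBQ973`).  MIRROR over `ℚ` of the second cut of helper57 of the cubic node
`PB57.PreBC57` (`T7/H57/PreBSpec.lean` d5bf85f8, `PreBTop.lean` 4555fe0b: THE SWAP).

    preBQC_of973 : CQ801.PairAQC801 P F → BadPartQC973 F → OpenSwapQ973 F → PreBQC973 P F

## The cut: THE SECOND PAIR IS THE FIRST PAIR WITH THE COMPONENTS AT THE LEVEL SWAPPED

The first pair of the empty word `(Φ₁ [], F₁ w0 [], F₁ w1 [])` (node `CQ801.PairAQC801`,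
registry row 2855) is an average of pure tensors with UNIT components at the places of the
level (`CQ801.LocAQ801 c`), for EVERY level and EVERY constant `c ≠ 0` of the Abel relation.
The un-averaged second pair is the average of the SAME pure tensors with the components at the
places of the level replaced:

* upstairs (`swUpQ973`): the Iwahori function at the places over `u`, the unit `1_{U(n₀ w)}`
  of the BASE level at the other places of the level;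
* downstairs (`swDnQ973`, THE SAME for the two types): the Iwahori function at `u`, a PARTNER
  `fb v` of the double coset function of the bad element at the other places of the level
  (`IsBadPartQ973`; T6).

`φ° = swapUpFnQ973 …`, `f° t = swapDnFnQ973 … a … (archQ973 F0 F1 t)`.  All properties of the
second pair are SOFT consequences of the properties of the first pair (see the header of
helper57's Spec, falsity checks (a)-(h), which hold verbatim with `ℓ = 2` and the types `w0`,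
`w1` downstairs: the elements by which one translates are supported at the finite places, so
they commute with `K_∞` and the translates have the same type).

* **`BadPartQC973 F`** (LEAF, [L], T6): the level `𝔫` and the partner family (for all Haar
  measures: the archimedean components of the clause are free, the zero functions are
  admissible).
* **`SwapUpSumQC973`**, **`SwapDnSumQC973`** (LEAVES, [M]; pure tensor calculus): THE KEY
  IDENTITIES (sums of translates); tools for the provers, they do not enter the top.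
* **`SwapUpTestQC973`, `SwapUpEKQC973`, `SwapUpInvQC973`, `SwapUpOpQC973`, `SwapUpSuppQC973`,
  `SwapMemUpQC973`** (LEAVES, one per field upstairs + the members of the average).
* **`SwapDnTestQC973`, `SwapDnEKQC973`, `SwapDnInvQC973`, `SwapDnOpQC973`, `SwapDnSuppQC973`,
  `SwapMemDnQC973`** (the same downstairs, for the two types).
* **`SwapLocQC973`** (LEAF, [S]): the swapped components satisfy `CQ801.LocBQ801`.

FALSITY CHECKS (helper973): those of helper57 (a)-(h), and (i) the constant `c` of the Abel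
relation is the same for the two pairs (`ArchOkQ801 c` is a clause on the archimedean
components, which are not swapped); (j) the first pair exists for every `c ≠ 0` and does not
see the Haar measures; the partner family is asked for ALL Haar measures (the clause `arch` of
`LocHypQb801` holds for the zero functions); (k) `LocHypQb801 … T …` looks at the components at
the places of `T` only, so the clause for `fb` is the clause for `swDnQ973 … fb f₀`.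
-/

set_option autoImplicit false

open AutomorphicForm IsDedekindDomain NumberField MeasureTheory
open scoped ComplexConjugate

noncomputable section

namespace Fermat.Agent.LT.T7.PBQ973

open Fermat.Agent.LT.H556 Fermat.Agent.LT.H556.A0 Fermat.Agent.LT.T7 Fermat.Agent.LT.T7.H305
  Fermat.Agent.LT.T7.L2Q Fermat.Agent.LT.T7.H893 Fermat.Agent.LT.T7.H962
  Fermat.Agent.LT.T7.H732 Fermat.Agent.LT.T7.MQ298 Fermat.Agent.LT.T7.CQ801

attribute [local instance] Fermat.Agent.LT.T5.instMeasurableSpaceG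

/-! ## 1. Vocabulary -/

section Defs

variable {F : Type} [Field F] [NumberField F]

open Classical in
/-- **THE PARTNER FAMILY over `ℚ`** `fb` of the double coset functions `1_{U₀ g_w U₀}` of the bad
element `g` at the bad places `v ∈ T₀`, `v ≠ u`, at the levels `(n, m)`: bi-`U(m v)`-invariant
of finite support, and for all Haar measures the first clause of `CQ801.LocBQ801` holds
(`LocHypQb801` for the set `T₀ ∖ {u}` with SOME archimedean components). -/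
structure IsBadPartQ973 (B : L2QBase962 F) (g : G F) (𝔫 : Ideal (𝓞 ℚ))
    (T₀ : Finset (HeightOneSpectrum (𝓞 ℚ)))
    (n n₀ : HeightOneSpectrum (𝓞 F) → ℕ) (m : HeightOneSpectrum (𝓞 ℚ) → ℕ)
    (fb : ∀ v : HeightOneSpectrum (𝓞 ℚ), GL (Fin 2) (v.adicCompletion ℚ) → ℂ) : Prop where
  inv_down : ∀ v ∈ T₀.erase B.u,
    T6.IsBiInv (T6.InU (m v)) (fb v) ∧ T6.HasFinSupp (T6.InU (m v)) (fb v)
  hyp : ∀ (μr : @Measure (GL (Fin 2) ℝ) (borel _)) (μc : @Measure (GL (Fin 2) ℂ) (borel _)),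
    @Measure.IsHaarMeasure _ _ _ (borel _) μr → @Measure.IsHaarMeasure _ _ _ (borel _) μc →
    ∃ (Φd : InfinitePlace F → GL (Fin 2) ℂ → ℂ) (F0d F1d : GL (Fin 2) ℝ → ℂ),
      LocHypQb801 (B.comp 𝔫) μr μc (T₀.erase B.u) n m
        (fun w => dblFn893 (n₀ w) (finGL305 w g)) Φd fb F0d F1d

open Classical in
/-- **THE SWAP UPSTAIRS**: the Iwahori function at the places over `u`, the unit of the base
level at the other places over `T₀`, the given component elsewhere. -/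
def swUpQ973 (B : L2QBase962 F) (T₀ : Finset (HeightOneSpectrum (𝓞 ℚ)))
    (n₀ : HeightOneSpectrum (𝓞 F) → ℕ)
    (φ₀ : ∀ w : HeightOneSpectrum (𝓞 F), GL (Fin 2) (w.adicCompletion F) → ℂ) :
    ∀ w : HeightOneSpectrum (𝓞 F), GL (Fin 2) (w.adicCompletion F) → ℂ :=
  fun w => if PlaceOver ℚ F B.u w then iwFn893
    else if ∃ v ∈ T₀, PlaceOver ℚ F v w then unitFn893 (n₀ w) else φ₀ w

open Classical in
/-- **THE SWAP DOWNSTAIRS**: the Iwahori function at `u`, the partner at the other places of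
`T₀`, the given component elsewhere. -/
def swDnQ973 (B : L2QBase962 F) (T₀ : Finset (HeightOneSpectrum (𝓞 ℚ)))
    (fb : ∀ v : HeightOneSpectrum (𝓞 ℚ), GL (Fin 2) (v.adicCompletion ℚ) → ℂ)
    (f₀ : ∀ v : HeightOneSpectrum (𝓞 ℚ), GL (Fin 2) (v.adicCompletion ℚ) → ℂ) :
    ∀ v : HeightOneSpectrum (𝓞 ℚ), GL (Fin 2) (v.adicCompletion ℚ) → ℂ :=
  fun v => if v = B.u then iwFn893 else if v ∈ T₀ then fb v else f₀ v

/-- The archimedean components downstairs of the type `t`: `F0` for `w0`, `F1` for `w1`. -/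
def archQ973 {Ω : Type} (F0 F1 : Ω → GL (Fin 2) ℝ → ℂ) (t : QWt) : Ω → GL (Fin 2) ℝ → ℂ :=
  QWt.rec F0 F1 t

/-- **THE FUNCTION UPSTAIRS OF THE UN-AVERAGED SECOND PAIR**: the average of the pure tensors
with the swapped components. -/
def swapUpFnQ973 (B : L2QBase962 F) (T₀ : Finset (HeightOneSpectrum (𝓞 ℚ)))
    (n₀ : HeightOneSpectrum (𝓞 F) → ℕ) {Ω : Type} [MeasurableSpace Ω] (ν : Measure Ω)
    (T' : Ω → Finset (HeightOneSpectrum (𝓞 F)))
    (φ₀ : Ω → ∀ w : HeightOneSpectrum (𝓞 F), GL (Fin 2) (w.adicCompletion F) → ℂ)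
    (Φ : Ω → InfinitePlace F → GL (Fin 2) ℂ → ℂ) : G F → ℂ :=
  fun h => ∫ ω, pure305 (T' ω) (swUpQ973 B T₀ n₀ (φ₀ ω)) (Φ ω) h ∂ν

/-- **THE FUNCTION DOWNSTAIRS OF THE UN-AVERAGED SECOND PAIR** for the archimedean components
`Fr`: the average of `a ·` the pure tensors with the swapped components. -/
def swapDnFnQ973 (B : L2QBase962 F) (T₀ : Finset (HeightOneSpectrum (𝓞 ℚ)))
    (fb : ∀ v : HeightOneSpectrum (𝓞 ℚ), GL (Fin 2) (v.adicCompletion ℚ) → ℂ) (a : ℂ)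
    {Ω : Type} [MeasurableSpace Ω] (ν : Measure Ω)
    (T : Ω → Finset (HeightOneSpectrum (𝓞 ℚ)))
    (f₀ : Ω → ∀ v : HeightOneSpectrum (𝓞 ℚ), GL (Fin 2) (v.adicCompletion ℚ) → ℂ)
    (Fr : Ω → GL (Fin 2) ℝ → ℂ) : G ℚ → ℂ :=
  fun h => ∫ ω, a * pureQ298 (T ω) (swDnQ973 B T₀ fb (f₀ ω)) (Fr ω) h ∂ν

/-- **THE DATA OF AN AVERAGE OF PURE TENSORS over `ℚ`**: the body of `CQ801.IsAvgPureQ801` for
given data (`IsAvgPureQ801 … φ' f0 f1` is `∃ data, IsAvgDatQ973 … φ' f0 f1 data`, by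
definition). -/
def IsAvgDatQ973 (𝔑 : Ideal (𝓞 F)) (𝔫 : Ideal (𝓞 ℚ)) (T₀ : Finset (HeightOneSpectrum (𝓞 ℚ)))
    (L : LocCondQ801 F) (c : ℂ) (φ' : G F → ℂ) (f0 f1 : G ℚ → ℂ)
    (Ω : Type) (_ : TopologicalSpace Ω) (_ : MeasurableSpace Ω) (ν : Measure Ω)
    (T : Ω → Finset (HeightOneSpectrum (𝓞 ℚ))) (T' : Ω → Finset (HeightOneSpectrum (𝓞 F)))
    (φ₀ : Ω → ∀ w : HeightOneSpectrum (𝓞 F), GL (Fin 2) (w.adicCompletion F) → ℂ)
    (Φ : Ω → InfinitePlace F → GL (Fin 2) ℂ → ℂ)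
    (f₀ : Ω → ∀ v : HeightOneSpectrum (𝓞 ℚ), GL (Fin 2) (v.adicCompletion ℚ) → ℂ)
    (F0 F1 : Ω → GL (Fin 2) ℝ → ℂ) : Prop :=
    (∀ a : Ω, T₀ ⊆ T a ∧ IsOver305 (T a) (T' a) ∧
      L (T a) (φ₀ a) (Φ a) (f₀ a) (F0 a) (F1 a)) ∧
    (∀ a : Ω, T5.IsTestFn 𝔑 T5.trivType (pure305 (T' a) (φ₀ a) (Φ a))) ∧
    (∀ a : Ω, T5.IsTestFn 𝔫 QWt.w0.type (fun h => c * pureQ298 (T a) (f₀ a) (F0 a) h)) ∧
    (∀ a : Ω, T5.IsTestFn 𝔫 QWt.w1.type (fun h => c * pureQ298 (T a) (f₀ a) (F1 a) h)) ∧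
    Continuous (fun p : Ω × G F => pure305 (T' p.1) (φ₀ p.1) (Φ p.1) p.2) ∧
    Continuous (fun p : Ω × G ℚ => c * pureQ298 (T p.1) (f₀ p.1) (F0 p.1) p.2) ∧
    Continuous (fun p : Ω × G ℚ => c * pureQ298 (T p.1) (f₀ p.1) (F1 p.1) p.2) ∧
    (∃ C : Set (G F), IsCompact C ∧
      ∀ (a : Ω) (h : G F), pure305 (T' a) (φ₀ a) (Φ a) h ≠ 0 → h ∈ C) ∧
    (∃ C : Set (G ℚ), IsCompact C ∧
      ∀ (a : Ω) (h : G ℚ), pureQ298 (T a) (f₀ a) (F0 a) h ≠ 0 → h ∈ C) ∧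
    (∃ C : Set (G ℚ), IsCompact C ∧
      ∀ (a : Ω) (h : G ℚ), pureQ298 (T a) (f₀ a) (F1 a) h ≠ 0 → h ∈ C) ∧
    (∀ h : G F, φ' h = ∫ a, pure305 (T' a) (φ₀ a) (Φ a) h ∂ν) ∧
    (∀ h : G ℚ, f0 h = ∫ a, c * pureQ298 (T a) (f₀ a) (F0 a) h ∂ν) ∧
    ∀ h : G ℚ, f1 h = ∫ a, c * pureQ298 (T a) (f₀ a) (F1 a) h ∂ν

/-- **THE CONTEXT OF THE SWAP LEAVES over `ℚ`**: `Q` holds for the common part, every level, all
Haar measures, the exponents, every constant `c ≠ 0`, EVERY first pair with the properties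
`CQ801.IsPairAQ801`, EVERY partner family and EVERY presentation of the first pair of the empty
word as an average of pure tensors. -/
def SwapCtxQ973 (F : Type) [Field F] [NumberField F]
    (Q : ∀ (_ : HeckeEigensystem F ℂ) (_ : L2QBase962 F) (_ : G F) (_ : Ideal (𝓞 ℚ))
      (_ : @Measure (GL (Fin 2) ℝ) (borel _)) (_ : @Measure (GL (Fin 2) ℂ) (borel _))
      (_ : ℂ) (_ : Finset (HeightOneSpectrum (𝓞 ℚ)))
      (_ _ : HeightOneSpectrum (𝓞 F) → ℕ) (_ : HeightOneSpectrum (𝓞 ℚ) → ℕ)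
      (_ : EigData F → ℂ)
      (_ : ∀ v : HeightOneSpectrum (𝓞 ℚ), GL (Fin 2) (v.adicCompletion ℚ) → ℂ)
      (Ω : Type) (_ : TopologicalSpace Ω) (_ : MeasurableSpace Ω) (_ : Measure Ω)
      (_ : Ω → Finset (HeightOneSpectrum (𝓞 ℚ))) (_ : Ω → Finset (HeightOneSpectrum (𝓞 F)))
      (_ : Ω → ∀ w : HeightOneSpectrum (𝓞 F), GL (Fin 2) (w.adicCompletion F) → ℂ)
      (_ : Ω → InfinitePlace F → GL (Fin 2) ℂ → ℂ)
      (_ : Ω → ∀ v : HeightOneSpectrum (𝓞 ℚ), GL (Fin 2) (v.adicCompletion ℚ) → ℂ)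
      (_ _ : Ω → GL (Fin 2) ℝ → ℂ), Prop) : Prop :=
  HasSqrtNegThree F → IsImagQuad F →
    ∀ (Φe : HeckeEigensystem F ℂ) (B : L2Q.H60.L2QBase F), L2Q.H60.IsL2QBase Φe B →
    L2Q.H60.IsRamQ60 B →
    ∀ g : G F, B.IsBad g →
    ∀ 𝔫 : Ideal (𝓞 ℚ), CQ57.IsLevQ57 (toBase962_732 B) 𝔫 →
    ∀ (μr : @Measure (GL (Fin 2) ℝ) (borel _)) (μc : @Measure (GL (Fin 2) ℂ) (borel _)),
      @Measure.IsHaarMeasure _ _ _ (borel _) μr →
      @Measure.IsHaarMeasure _ _ _ (borel _) μc →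
    ∀ (T₀ : Finset (HeightOneSpectrum (𝓞 ℚ)))
      (n n₀ : HeightOneSpectrum (𝓞 F) → ℕ) (m : HeightOneSpectrum (𝓞 ℚ) → ℕ),
      CQ57.IsLevFnQ57 (toBase962_732 B) 𝔫 T₀ n n₀ m →
    ∀ c : ℂ, c ≠ 0 →
    ∀ (c₁ : EigData F → ℂ) (Φ₁ : List (Gen F) → G F → ℂ)
      (F₁ : QWt → List (Gen F) → G ℚ → ℂ),
      IsPairAQ801 Φe (toBase962_732 B) 𝔫 c T₀ n m c₁ Φ₁ F₁ →
    ∀ fb : ∀ v : HeightOneSpectrum (𝓞 ℚ), GL (Fin 2) (v.adicCompletion ℚ) → ℂ,
      IsBadPartQ973 (toBase962_732 B) g 𝔫 T₀ n n₀ m fb →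
    ∀ (Ω : Type) (iT : TopologicalSpace Ω) (_ : CompactSpace Ω) (_ : T2Space Ω)
      (_ : SecondCountableTopology Ω) (iM : MeasurableSpace Ω)
      (_ : BorelSpace Ω) (ν : Measure Ω) (_ : IsFiniteMeasure ν)
      (T : Ω → Finset (HeightOneSpectrum (𝓞 ℚ))) (T' : Ω → Finset (HeightOneSpectrum (𝓞 F)))
      (φ₀ : Ω → ∀ w : HeightOneSpectrum (𝓞 F), GL (Fin 2) (w.adicCompletion F) → ℂ)
      (Φ : Ω → InfinitePlace F → GL (Fin 2) ℂ → ℂ)
      (f₀ : Ω → ∀ v : HeightOneSpectrum (𝓞 ℚ), GL (Fin 2) (v.adicCompletion ℚ) → ℂ)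
      (F0 F1 : Ω → GL (Fin 2) ℝ → ℂ),
      IsAvgDatQ973 (upI (K' := F) 𝔫) 𝔫 T₀ (LocAQ801 c T₀ n m) 1
        (Φ₁ []) (F₁ QWt.w0 []) (F₁ QWt.w1 []) Ω iT iM ν T T' φ₀ Φ f₀ F0 F1 →
      Q Φe (toBase962_732 B) g 𝔫 μr μc c T₀ n n₀ m c₁ fb Ω iT iM ν T T' φ₀ Φ f₀ F0 F1

end Defs

/-! ## 2. The leaves -/

section Leaves

variable (F : Type) [Field F] [NumberField F]

/-- **LEAF PBQ.0.1 = BAD-PART over `ℚ` ([L]; T6).**  For a common part of helper60 with `3 ∈ S`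
and a bad element `g`: a level `𝔫` with the level properties such that for the exponents of the
level there is a partner family.
Construction.  As `PB57.BadPartC57` with `ℓ = 2`: `𝔫 = 𝔫₀ ^ d`, `d` so large that at every bad
place `v ≠ u` with ONE place `w` over it (inert or ramified: `3 ∈ S`) the double coset function
`1_{U(n₀ w) g_w U(n₀ w)}` has a partner at the levels `(n w, m v)` (`T6.BadMatchC` + the level
changes); at a bad place which splits: ONE `σ`-ordered enumeration of the fibre, `fb v` = the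
convolution product of the two transported double coset functions.  The archimedean components
of the clause: the zero functions. -/
def BadPartQC973 : Prop :=
  HasSqrtNegThree F → IsImagQuad F →
    ∀ (Φe : HeckeEigensystem F ℂ) (B : L2Q.H60.L2QBase F), L2Q.H60.IsL2QBase Φe B →
    L2Q.H60.IsRamQ60 B →
    ∀ g : G F, B.IsBad g →
      ∃ 𝔫 : Ideal (𝓞 ℚ), CQ57.IsLevQ57 (toBase962_732 B) 𝔫 ∧
        ∀ (T₀ : Finset (HeightOneSpectrum (𝓞 ℚ)))
          (n n₀ : HeightOneSpectrum (𝓞 F) → ℕ) (m : HeightOneSpectrum (𝓞 ℚ) → ℕ),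
          CQ57.IsLevFnQ57 (toBase962_732 B) 𝔫 T₀ n n₀ m →
          ∃ fb : ∀ v : HeightOneSpectrum (𝓞 ℚ), GL (Fin 2) (v.adicCompletion ℚ) → ℂ,
            IsBadPartQ973 (toBase962_732 B) g 𝔫 T₀ n n₀ m fb

/-- **LEAF PBQ.0.U0 = SWAP-UP-SUM ([M]; THE KEY IDENTITY upstairs).**  The swapped pure tensor
is the sum of the right translates (and of the left translates) of the pure tensor by a finite
set `HU` of elements of `H` (representatives of `H / U(𝔫 𝒪_F)`): trivial at infinity and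
outside `S'`, integral with integral inverse, congruent to `1` modulo `𝔑₀` outside the orbit,
Iwahori along the orbit. -/
def SwapUpSumQC973 : Prop :=
  SwapCtxQ973 F fun _ B _ _ _ _ _ T₀ _ n₀ _ _ _ Ω _ _ _ _ T' φ₀ Φ _ _ _ =>
    ∃ HU : Finset (G F), HU.Nonempty ∧
      (∀ h ∈ HU, (∀ w : InfinitePlace F, TrivAtInf w h) ∧
        (∀ w : HeightOneSpectrum (𝓞 F), w ∉ B.S' → TrivAtFin w h) ∧
        (∀ w : HeightOneSpectrum (𝓞 F), IsIntegralAt w h ∧ IsIntegralAt w h⁻¹) ∧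
        (∀ w : HeightOneSpectrum (𝓞 F), (∀ j < 2, w ≠ B.o j) → ∀ i j : Fin 2,
          (finComp w h - 1) i j ∈ idealClosure B.𝔑₀ w ∧
            (finComp w h⁻¹ - 1) i j ∈ idealClosure B.𝔑₀ w) ∧
        ∀ j < 2, T5.InIwahori (B.o j) h) ∧
      ∀ (ω : Ω) (x : G F),
        pure305 (T' ω) (swUpQ973 B T₀ n₀ (φ₀ ω)) (Φ ω) x
            = ∑ h ∈ HU, pure305 (T' ω) (φ₀ ω) (Φ ω) (x * h⁻¹) ∧
          pure305 (T' ω) (swUpQ973 B T₀ n₀ (φ₀ ω)) (Φ ω) x
            = ∑ h ∈ HU, pure305 (T' ω) (φ₀ ω) (Φ ω) (h⁻¹ * x)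

/-- **LEAF PBQ.0.D0 = SWAP-DOWN-SUM ([M]; THE KEY IDENTITY downstairs).**  The swapped pure
tensor is a finite linear combination of left translates of the pure tensor by elements which
are trivial at infinity and outside `T₀` and Iwahori at `u`; THE SAME combination for the two
types. -/
def SwapDnSumQC973 : Prop :=
  SwapCtxQ973 F fun _ B _ _ _ _ _ T₀ _ _ _ _ fb Ω _ _ _ T _ _ _ f₀ F0 F1 =>
    ∃ (X : Finset (G ℚ)) (c : G ℚ → ℂ),
      (∀ x ∈ X, (∀ w : InfinitePlace ℚ, TrivAtInf w x) ∧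
        (∀ v : HeightOneSpectrum (𝓞 ℚ), v ∉ T₀ → TrivAtFin v x) ∧ T5.InIwahori B.u x) ∧
      ∀ (t : QWt) (ω : Ω) (y : G ℚ),
        pureQ298 (T ω) (swDnQ973 B T₀ fb (f₀ ω)) (archQ973 F0 F1 t ω) y
          = ∑ x ∈ X, c x * pureQ298 (T ω) (f₀ ω) (archQ973 F0 F1 t ω) (x⁻¹ * y)

/-- **LEAF PBQ.0.U1 = SWAP-UP-TEST** (field `up_test`). -/
def SwapUpTestQC973 : Prop :=
  SwapCtxQ973 F fun _ B _ 𝔫 _ _ _ T₀ _ n₀ _ _ _ _ _ _ ν _ T' φ₀ Φ _ _ _ =>
    T5.IsTestFn (upI (K' := F) 𝔫) T5.trivType (swapUpFnQ973 B T₀ n₀ ν T' φ₀ Φ)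

/-- **LEAF PBQ.0.U2 = SWAP-UP-EK** (field `up_ek`). -/
def SwapUpEKQC973 : Prop :=
  SwapCtxQ973 F fun _ B _ _ _ _ _ T₀ _ n₀ _ _ _ _ _ _ ν _ T' φ₀ Φ _ _ _ =>
    T5.IsEK B.R'.μ (swapUpFnQ973 B T₀ n₀ ν T' φ₀ Φ) ∧
      T5.IsEK B.R'.μ (T5.adjointFn (swapUpFnQ973 B T₀ n₀ ν T' φ₀ Φ))

/-- **LEAF PBQ.0.U3 = SWAP-UP-INV** (field `up_inv`). -/
def SwapUpInvQC973 : Prop :=
  SwapCtxQ973 F fun _ B _ _ _ _ _ T₀ _ n₀ _ _ _ _ _ _ ν _ T' φ₀ Φ _ _ _ =>
    H193.IsBiHInv B.𝔑₀ 2 B.o (swapUpFnQ973 B T₀ n₀ ν T' φ₀ Φ)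

/-- **LEAF PBQ.0.U4 = SWAP-UP-OP** (fields `up_op`, `up_ne`): `c₂ = [H : U] · c₁`. -/
def SwapUpOpQC973 : Prop :=
  SwapCtxQ973 F fun Φe B _ _ _ _ _ T₀ _ n₀ _ _ _ _ _ _ ν _ T' φ₀ Φ _ _ _ =>
    ∃ c₂ : EigData F → ℂ,
      (∀ (ψ : G F → ℂ) (C : EigData F), IsEigFn B.𝔑₀ B.R'.r 2 B.o ψ C →
        ∀ x : G F, T5.Rconv B.R'.μ (swapUpFnQ973 B T₀ n₀ ν T' φ₀ Φ) ψ x = c₂ C * ψ x) ∧
      ∀ C : EigData F, C.AgreeOut B.S' (eigOf Φe) → c₂ C ≠ 0

/-- **LEAF PBQ.0.U5 = SWAP-UP-SUPP** (field `up_supp`). -/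
def SwapUpSuppQC973 : Prop :=
  SwapCtxQ973 F fun _ B _ _ _ _ _ T₀ _ n₀ _ _ _ _ _ _ ν _ T' φ₀ Φ _ _ _ =>
    ∃ C : Set (G F), IsCompact C ∧
      T5.H32.IsIwSupported32 2 B.o C (swapUpFnQ973 B T₀ n₀ ν T' φ₀ Φ)

/-- **LEAF PBQ.0.U6 = SWAP-MEM-UP** (the members of the average upstairs: test functions,
jointly continuous, supported in one compact set). -/
def SwapMemUpQC973 : Prop :=
  SwapCtxQ973 F fun _ B _ 𝔫 _ _ _ T₀ _ n₀ _ _ _ Ω _ _ _ _ T' φ₀ Φ _ _ _ =>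
    (∀ ω : Ω, T5.IsTestFn (upI (K' := F) 𝔫) T5.trivType
      (pure305 (T' ω) (swUpQ973 B T₀ n₀ (φ₀ ω)) (Φ ω))) ∧
    Continuous (fun p : Ω × G F =>
      pure305 (T' p.1) (swUpQ973 B T₀ n₀ (φ₀ p.1)) (Φ p.1) p.2) ∧
    ∃ C : Set (G F), IsCompact C ∧
      ∀ (ω : Ω) (h : G F), pure305 (T' ω) (swUpQ973 B T₀ n₀ (φ₀ ω)) (Φ ω) h ≠ 0 → h ∈ C

/-- **LEAF PBQ.0.D1 = SWAP-DOWN-TEST** (field `dn_test`, the two types). -/
def SwapDnTestQC973 : Prop :=
  SwapCtxQ973 F fun _ B _ 𝔫 _ _ _ T₀ _ _ _ _ fb _ _ _ ν T _ _ _ f₀ F0 F1 =>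
    ∀ (a : ℂ) (t : QWt),
      T5.IsTestFn 𝔫 t.type (swapDnFnQ973 B T₀ fb a ν T f₀ (archQ973 F0 F1 t))

/-- **LEAF PBQ.0.D2 = SWAP-DOWN-EK** (field `dn_ek`, the two types). -/
def SwapDnEKQC973 : Prop :=
  SwapCtxQ973 F fun _ B _ _ _ _ _ T₀ _ _ _ _ fb _ _ _ ν T _ _ _ f₀ F0 F1 =>
    ∀ (a : ℂ) (t : QWt),
      T5.IsEK B.R.μ (swapDnFnQ973 B T₀ fb a ν T f₀ (archQ973 F0 F1 t)) ∧
        T5.IsEK B.R.μ (T5.adjointFn (swapDnFnQ973 B T₀ fb a ν T f₀ (archQ973 F0 F1 t)))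

/-- **LEAF PBQ.0.D3 = SWAP-DOWN-INV** (field `dn_inv`, the two types). -/
def SwapDnInvQC973 : Prop :=
  SwapCtxQ973 F fun _ B _ 𝔫 _ _ _ T₀ _ _ _ _ fb _ _ _ ν T _ _ _ f₀ F0 F1 =>
    ∀ (a : ℂ) (t : QWt),
      H193.IsBiHInv 𝔫 1 (fun _ => B.u) (swapDnFnQ973 B T₀ fb a ν T f₀ (archQ973 F0 F1 t))

/-- **LEAF PBQ.0.D4 = SWAP-DOWN-OP** (fields `dn_wfn`, `dn_class`, `dn_comm`, the two types). -/
def SwapDnOpQC973 : Prop :=
  SwapCtxQ973 F fun _ B _ 𝔫 _ _ _ T₀ _ _ _ _ fb _ _ _ ν T _ _ _ f₀ F0 F1 =>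
    ∀ (a : ℂ) (t : QWt),
      (∀ ψ : G ℚ → ℂ, IsWFnQ t 𝔫 B.R.r B.u ψ →
        IsWFnQ t 𝔫 B.R.r B.u
          (T5.Rconv B.R.μ (swapDnFnQ973 B T₀ fb a ν T f₀ (archQ973 F0 F1 t)) ψ)) ∧
      (∀ (ψ : G ℚ → ℂ) (c : EigData ℚ), IsEigFnQ t 𝔫 B.R.r B.u ψ c →
        IsEigFnQ t 𝔫 B.R.r B.u
          (T5.Rconv B.R.μ (swapDnFnQ973 B T₀ fb a ν T f₀ (archQ973 F0 F1 t)) ψ) c) ∧
      ∀ ψ : G ℚ → ℂ, IsWFnQ t 𝔫 B.R.r B.u ψ →
        ∀ (H : Finset (G ℚ)) (z : G ℚ), IsIwCosetSystem B.u H →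
          IsScalarUniformizerAt B.u z →
          (∀ x : G ℚ,
            T5.Rconv B.R.μ (swapDnFnQ973 B T₀ fb a ν T f₀ (archQ973 F0 F1 t))
                (iwOp B.u H ψ) x
              = iwOp B.u H
                (T5.Rconv B.R.μ (swapDnFnQ973 B T₀ fb a ν T f₀ (archQ973 F0 F1 t)) ψ) x) ∧
          ∀ (k : ℤ) (x : G ℚ),
            T5.Rconv B.R.μ (swapDnFnQ973 B T₀ fb a ν T f₀ (archQ973 F0 F1 t))
                (shiftOp z k ψ) x
              = shiftOp z k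
                (T5.Rconv B.R.μ (swapDnFnQ973 B T₀ fb a ν T f₀ (archQ973 F0 F1 t)) ψ) x

/-- **LEAF PBQ.0.D5 = SWAP-DOWN-SUPP** (field `dn_supp`, the two types). -/
def SwapDnSuppQC973 : Prop :=
  SwapCtxQ973 F fun _ B _ _ _ _ _ T₀ _ _ _ _ fb _ _ _ ν T _ _ _ f₀ F0 F1 =>
    ∀ (a : ℂ) (t : QWt), ∃ C : Set (G ℚ), IsCompact C ∧
      T5.H32.IsIwSupported32 1 (fun _ => B.u) C
        (swapDnFnQ973 B T₀ fb a ν T f₀ (archQ973 F0 F1 t))

/-- **LEAF PBQ.0.D6 = SWAP-MEM-DOWN** (the members of the average downstairs, the two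
types). -/
def SwapMemDnQC973 : Prop :=
  SwapCtxQ973 F fun _ B _ 𝔫 _ _ _ T₀ _ _ _ _ fb Ω _ _ _ T _ _ _ f₀ F0 F1 =>
    ∀ (a : ℂ) (t : QWt),
      (∀ ω : Ω, T5.IsTestFn 𝔫 t.type
        (fun h => a * pureQ298 (T ω) (swDnQ973 B T₀ fb (f₀ ω)) (archQ973 F0 F1 t ω) h)) ∧
      Continuous (fun p : Ω × G ℚ =>
        a * pureQ298 (T p.1) (swDnQ973 B T₀ fb (f₀ p.1)) (archQ973 F0 F1 t p.1) p.2) ∧
      ∃ C : Set (G ℚ), IsCompact C ∧
        ∀ (ω : Ω) (h : G ℚ),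
          pureQ298 (T ω) (swDnQ973 B T₀ fb (f₀ ω)) (archQ973 F0 F1 t ω) h ≠ 0 → h ∈ C

/-- **LEAF PBQ.0.L = SWAP-LOC ([S]).**  The swapped components satisfy the local condition
`CQ801.LocBQ801` of the second pair: the first clause from the partner family
(`IsBadPartQ973.hyp`; `LocHypQb801` for the set `T₀ ∖ {u}` looks at the components at these
places only), the values of the swaps (the place under a place of `F` is unique),
`SphOut893` and `ArchOkQ801 c` unchanged. -/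
def SwapLocQC973 : Prop :=
  SwapCtxQ973 F fun _ B g 𝔫 μr μc c T₀ n n₀ m _ fb Ω _ _ _ T _ φ₀ Φ f₀ F0 F1 =>
    ∀ ω : Ω, LocBQ801 B g 𝔫 μr μc c T₀ n n₀ m (T ω) (swUpQ973 B T₀ n₀ (φ₀ ω)) (Φ ω)
      (swDnQ973 B T₀ fb (f₀ ω)) (F0 ω) (F1 ω)

/-- **THE OPEN LEAVES OF THE SWAP over `ℚ`** (the key identities `SwapUpSumQC973`,
`SwapDnSumQC973` are tools for the provers and do not enter the top). -/
structure OpenSwapQ973 : Prop where
  upTest : SwapUpTestQC973 F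
  upEK : SwapUpEKQC973 F
  upInv : SwapUpInvQC973 F
  upOp : SwapUpOpQC973 F
  upSupp : SwapUpSuppQC973 F
  memUp : SwapMemUpQC973 F
  dnTest : SwapDnTestQC973 F
  dnEK : SwapDnEKQC973 F
  dnInv : SwapDnInvQC973 F
  dnOp : SwapDnOpQC973 F
  dnSupp : SwapDnSuppQC973 F
  memDn : SwapMemDnQC973 F
  loc : SwapLocQC973 F

end Leaves

/-! ## Appendix: the equation lemmas of the definitions of this file are realised HERE -/

theorem eqns_realised_preBQSpec973 : True := by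
  have _h0_0 := @swUpQ973.eq_1
  have _h0_1 := @swUpQ973.eq_def
  have _h0_2 := @swUpQ973.eq_unfold
  have _h1_0 := @swDnQ973.eq_1
  have _h1_1 := @swDnQ973.eq_def
  have _h1_2 := @swDnQ973.eq_unfold
  have _h2_0 := @swapUpFnQ973.eq_1
  have _h2_1 := @swapUpFnQ973.eq_def
  have _h2_2 := @swapUpFnQ973.eq_unfold
  have _h3_0 := @swapDnFnQ973.eq_1
  have _h3_1 := @swapDnFnQ973.eq_def
  have _h3_2 := @swapDnFnQ973.eq_unfold
  have _h4_0 := @IsAvgDatQ973.eq_1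
  have _h4_1 := @IsAvgDatQ973.eq_def
  have _h4_2 := @IsAvgDatQ973.eq_unfold
  have _h5_0 := @SwapCtxQ973.eq_1
  have _h5_1 := @SwapCtxQ973.eq_def
  have _h5_2 := @SwapCtxQ973.eq_unfold
  have _h6_0 := @BadPartQC973.eq_1
  have _h6_1 := @BadPartQC973.eq_def
  have _h6_2 := @BadPartQC973.eq_unfold
  have _h7_0 := @SwapUpSumQC973.eq_1
  have _h7_1 := @SwapUpSumQC973.eq_def
  have _h7_2 := @SwapUpSumQC973.eq_unfold
  have _h8_0 := @SwapDnSumQC973.eq_1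
  have _h8_1 := @SwapDnSumQC973.eq_def
  have _h8_2 := @SwapDnSumQC973.eq_unfold
  have _h9_0 := @SwapUpTestQC973.eq_1
  have _h9_1 := @SwapUpTestQC973.eq_def
  have _h9_2 := @SwapUpTestQC973.eq_unfold
  have _h10_0 := @SwapUpEKQC973.eq_1
  have _h10_1 := @SwapUpEKQC973.eq_def
  have _h10_2 := @SwapUpEKQC973.eq_unfold
  have _h11_0 := @SwapUpInvQC973.eq_1
  have _h11_1 := @SwapUpInvQC973.eq_def
  have _h11_2 := @SwapUpInvQC973.eq_unfold
  have _h12_0 := @SwapUpOpQC973.eq_1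
  have _h12_1 := @SwapUpOpQC973.eq_def
  have _h12_2 := @SwapUpOpQC973.eq_unfold
  have _h13_0 := @SwapUpSuppQC973.eq_1
  have _h13_1 := @SwapUpSuppQC973.eq_def
  have _h13_2 := @SwapUpSuppQC973.eq_unfold
  have _h14_0 := @SwapMemUpQC973.eq_1
  have _h14_1 := @SwapMemUpQC973.eq_def
  have _h14_2 := @SwapMemUpQC973.eq_unfold
  have _h15_0 := @SwapDnTestQC973.eq_1
  have _h15_1 := @SwapDnTestQC973.eq_def
  have _h15_2 := @SwapDnTestQC973.eq_unfold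
  have _h16_0 := @SwapDnEKQC973.eq_1
  have _h16_1 := @SwapDnEKQC973.eq_def
  have _h16_2 := @SwapDnEKQC973.eq_unfold
  have _h17_0 := @SwapDnInvQC973.eq_1
  have _h17_1 := @SwapDnInvQC973.eq_def
  have _h17_2 := @SwapDnInvQC973.eq_unfold
  have _h18_0 := @SwapDnOpQC973.eq_1
  have _h18_1 := @SwapDnOpQC973.eq_def
  have _h18_2 := @SwapDnOpQC973.eq_unfold
  have _h19_0 := @SwapDnSuppQC973.eq_1
  have _h19_1 := @SwapDnSuppQC973.eq_def
  have _h19_2 := @SwapDnSuppQC973.eq_unfold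
  have _h20_0 := @SwapMemDnQC973.eq_1
  have _h20_1 := @SwapMemDnQC973.eq_def
  have _h20_2 := @SwapMemDnQC973.eq_unfold
  have _h21_0 := @SwapLocQC973.eq_1
  have _h21_1 := @SwapLocQC973.eq_def
  have _h21_2 := @SwapLocQC973.eq_unfold
  have _h22_0 := @archQ973.eq_1
  have _h22_1 := @archQ973.eq_def
  have _h22_2 := @archQ973.eq_unfold
  trivial

end Fermat.Agent.LT.T7.PBQ973

end
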