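import Mathlib
import Fermat.Agent.LT.T1.Closed
import Fermat.Agent.LT.T7.H820.ProjQ
import Fermat.Agent.LT.T7.H973.PairBQSpec

/-!
# Row LT, tower T7, leaf T7.L2Q.1.H2a.B.K `PBQ973.KillToolQC973 QWt.w1` (registry row 3042,
# helper973): THE KILLING TOOL over `ℚ` FOR A `K_∞`-TYPE -- CLOSED, UNCONDITIONAL

OFF-MAIN.  Complete proofs, nothing assumed.  ADDITIVE (new names only, all suffixed `973`).

    killToolQ973 (t : QWt) : PBQ973.KillToolQC973 t           (BOTH types, one proof)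
    killToolQ_w1_973 : PBQ973.KillToolQC973 QWt.w1           (the leaf, VERBATIM)
    pairBQC_of_three973 : RelTorusQC973 F → PreBQC973 P F → NatShapeQC973 F
                            → CQ801.PairBQC801 P F            (in `PairBQTop2.lean`)

Proof.  Port of `H193.killing_of_torus193` / `H193.kill193` (helper193) to the type `t.type`:

* test function: `H496.continuous_nat496`, `H496.hasCompactSupport_nat496` (type-agnostic),
  `NatSmoothC` (type-agnostic), bi-invariance of type `τ` (`a t` is central);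
* Eisenstein-killing, adjoint, bi-`H`-invariance, `R(f♮) e = R(f) e` on the invariant
  functions: the type-agnostic leaves `NatEKC`, `NatAdjEKC`, `NatHInvC`, `NatOpC`, `TorAvgFixC`;
* killing: `R(f♮) ψ = R(f♮) (P_f ψ)` (`RconvFinAvgC`, `f♮` is right `H`-invariant)
  `= R(f) (P_∞ P_f ψ)` (`NatOpC`), and `P_∞ P_f ψ` is an invariant cusp function OF TYPE `τ`
  (`H820.finAvgCusp_T820`, `H820.torAvgW_T820`, helper820) which is orthogonal to itself
  (`H820.finAvgOrth_T820`, `H820.torAvgOrth_T820` and the hypothesis), hence killed by every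
  `R(φ)` (`NullC`).  NO absorption property is needed in this order of the two averages.
-/

set_option autoImplicit false
set_option linter.unusedSectionVars false
set_option linter.unusedVariables false

open AutomorphicForm IsDedekindDomain NumberField MeasureTheory
open scoped ComplexConjugate

noncomputable section

namespace Fermat.Agent.LT.T7.PBQ973

open Fermat.Agent.LT.H556 Fermat.Agent.LT.H556.A0 Fermat.Agent.LT Fermat.Agent.LT.T7
  Fermat.Agent.LT.T7.L2Q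

attribute [local instance] Fermat.Agent.LT.T5.instMeasurableSpaceG

section OneField

variable {K : Type} [Field K] [NumberField K]

/-- **The torus mean of a function which is bi-invariant of type `τ` is bi-invariant of type
`τ`** (`a t` is central). -/
theorem isBiInvariant_nat973 {𝔑 : Ideal (𝓞 K)} {r : G K}
    {a : (InfinitePlace K → ℝ) → G K} {D : Set (InfinitePlace K → ℝ)}
    (hD : H193.IsTorusData 𝔑 r a D) {𝔫 : Ideal (𝓞 K)} {τ : G K → ℂ} {φ : G K → ℂ}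
    (hφ : T5.IsBiInvariant 𝔫 τ φ) : T5.IsBiInvariant 𝔫 τ (H193.nat193 a D φ) := by
  have hc : ∀ (t : InfinitePlace K → ℝ) (g : G K), g * (a t)⁻¹ = (a t)⁻¹ * g :=
    fun t g => H496.inv_central496 (hD.central t) g
  refine ⟨fun u hu g => ?_, fun u hu g => ?_, fun w k hk g => ?_, fun w k hk g => ?_⟩
  · show (((volume D).toReal : ℝ) : ℂ)⁻¹ * ∫ t in D, φ (g * u * (a t)⁻¹)
      = (((volume D).toReal : ℝ) : ℂ)⁻¹ * ∫ t in D, φ (g * (a t)⁻¹)
    congr 1
    refine integral_congr_ae (Filter.Eventually.of_forall fun t => ?_)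
    show φ (g * u * (a t)⁻¹) = φ (g * (a t)⁻¹)
    rw [mul_assoc, hc t u, ← mul_assoc]
    exact hφ.level_right u hu _
  · show (((volume D).toReal : ℝ) : ℂ)⁻¹ * ∫ t in D, φ (u * g * (a t)⁻¹)
      = (((volume D).toReal : ℝ) : ℂ)⁻¹ * ∫ t in D, φ (g * (a t)⁻¹)
    congr 1
    refine integral_congr_ae (Filter.Eventually.of_forall fun t => ?_)
    show φ (u * g * (a t)⁻¹) = φ (g * (a t)⁻¹)
    rw [mul_assoc]
    exact hφ.level_left u hu _
  · show (((volume D).toReal : ℝ) : ℂ)⁻¹ * ∫ t in D, φ (g * k * (a t)⁻¹)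
      = (τ k)⁻¹ * ((((volume D).toReal : ℝ) : ℂ)⁻¹ * ∫ t in D, φ (g * (a t)⁻¹))
    have h1 : ∫ t in D, φ (g * k * (a t)⁻¹) = ∫ t in D, (τ k)⁻¹ * φ (g * (a t)⁻¹) := by
      refine integral_congr_ae (Filter.Eventually.of_forall fun t => ?_)
      show φ (g * k * (a t)⁻¹) = (τ k)⁻¹ * φ (g * (a t)⁻¹)
      rw [mul_assoc, hc t k, ← mul_assoc]
      exact hφ.arch_right w k hk _
    rw [h1, integral_const_mul]
    ring
  · show (((volume D).toReal : ℝ) : ℂ)⁻¹ * ∫ t in D, φ (k * g * (a t)⁻¹)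
      = (τ k)⁻¹ * ((((volume D).toReal : ℝ) : ℂ)⁻¹ * ∫ t in D, φ (g * (a t)⁻¹))
    have h1 : ∫ t in D, φ (k * g * (a t)⁻¹) = ∫ t in D, (τ k)⁻¹ * φ (g * (a t)⁻¹) := by
      refine integral_congr_ae (Filter.Eventually.of_forall fun t => ?_)
      show φ (k * g * (a t)⁻¹) = (τ k)⁻¹ * φ (g * (a t)⁻¹)
      rw [mul_assoc]
      exact hφ.arch_left w k hk _
    rw [h1, integral_const_mul]
    ring

/-- **The torus mean of a test function of type `τ` is a test function of type `τ`.** -/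
theorem isTestFn_natT973 (hT1 : T1.T1Out K) {𝔑 : Ideal (𝓞 K)} {r : G K}
    {a : (InfinitePlace K → ℝ) → G K} {D : Set (InfinitePlace K → ℝ)}
    (hD : H193.IsTorusData 𝔑 r a D) {𝔫 : Ideal (𝓞 K)} {τ : G K → ℂ} {φ : G K → ℂ}
    (hφ : T5.IsTestFn 𝔫 τ φ) : T5.IsTestFn 𝔫 τ (H193.nat193 a D φ) := by
  have : T2Space (G K) := hT1.locComp.2.2.1
  have : SecondCountableTopology (G K) := hT1.locComp.2.2.2
  exact ⟨hφ.ktype, H496.continuous_nat496 hD.cont hD.bdd hφ.cont hφ.supp,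
    H496.hasCompactSupport_nat496 hD.cont hD.bdd hφ.supp,
    (H193.natLeaves193 K).smooth hT1 𝔑 r a D hD φ hφ.cont hφ.supp hφ.smooth,
    isBiInvariant_nat973 hD hφ.inv⟩

/-- **THE KILLING TOOL FOR AN ARBITRARY `K_∞`-TYPE `τ`**, parametric in the torus data, under
the hypothesis that the mean over `D` of every `r`-invariant function is translation invariant
(`H820.MeanRay820`; fields with one infinite place). -/
theorem killing_of_torusT973 (hT1 : T1.T1Out K) (τ : G K → ℂ) (R : Frame5 K)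
    (hR : IsFrame5 R) (𝔑 𝔑₀ : Ideal (𝓞 K)) (h𝔑 : 𝔑 ≠ ⊥) (hle : 𝔑 ≤ 𝔑₀) (l : ℕ)
    (o : ℕ → HeightOneSpectrum (𝓞 K))
    {a : (InfinitePlace K → ℝ) → G K} {D : Set (InfinitePlace K → ℝ)}
    (hD : H193.IsTorusData 𝔑₀ R.r a D) (hM : H820.MeanRay820 R.r a D) (φ₀ : G K → ℂ)
    (htest : T5.IsTestFn 𝔑 τ φ₀) (hek : T5.IsEK R.μ φ₀)
    (hadj : T5.IsEK R.μ (T5.adjointFn φ₀)) (hinv : H193.IsBiHInv 𝔑₀ l o φ₀) :
    T5.IsTestFn 𝔑 τ (H193.nat193 a D φ₀) ∧ T5.IsEK R.μ (H193.nat193 a D φ₀) ∧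
      T5.IsEK R.μ (T5.adjointFn (H193.nat193 a D φ₀)) ∧
      H193.IsBiHInv 𝔑₀ l o (H193.nat193 a D φ₀) ∧
      (∀ e : G K → ℂ, Continuous e →
        (∀ (w : InfinitePlace K) (z : G K), IsArchPosScalar w z →
          ∀ g : G K, e (g * z) = e g) →
        ∀ x : G K, T5.Rconv R.μ (H193.nat193 a D φ₀) e x = T5.Rconv R.μ φ₀ e x) ∧
      ∀ ψ : G K → ℂ, T5.IsCuspFn 𝔑 τ R.r ψ →
        (∀ χ : G K → ℂ, H820.IsWFnT820 τ 𝔑₀ R.r l o χ → T5.innerD R.μ R.F ψ χ = 0) →
        ∀ x : G K, T5.Rconv R.μ (H193.nat193 a D φ₀) ψ x = 0 := by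
  have L := H193.projLeaves193 K
  have N := H193.natLeaves193 K
  have LK := H193.killLeaves193 K
  have ht : T5.IsTestFn 𝔑 τ (H193.nat193 a D φ₀) := isTestFn_natT973 hT1 hD htest
  have hr : H193.IsRightHInv 𝔑₀ l o (H193.nat193 a D φ₀) :=
    N.hInv 𝔑₀ R.r a D hD 𝔑₀ l o φ₀ (H193.isRightHInv_of_biHInv193 hinv)
  have hbi : H193.IsBiHInv 𝔑₀ l o (H193.nat193 a D φ₀) :=
    ⟨fun u hu y => ⟨H193.nat_left_inv193 a D (fun y => (hinv.1 u hu y).1) y, hr.1 u hu y⟩,
      fun h h1 h2 h3 y =>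
        ⟨H193.nat_left_inv193 a D (fun y => (hinv.2 h h1 h2 h3 y).1) y,
          hr.2 h ⟨h1, h2, h3⟩ y⟩⟩
  refine ⟨ht, N.ek hT1 N.op R hR 𝔑₀ R.r a D hD φ₀ htest.cont htest.supp hek,
    N.adjEK hT1 R hR 𝔑₀ R.r a D hD φ₀ htest.cont htest.supp hadj, hbi, ?_, ?_⟩
  · intro e he hi x
    rw [N.op hT1 R hR 𝔑₀ R.r a D hD φ₀ htest.cont htest.supp e he x]
    have hfix : H193.torAvg a D e = e := funext fun g => N.fix 𝔑₀ R.r a D hD e hi g
    rw [hfix]
  · intro ψ hψ horth x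
    obtain ⟨Rep, hRep⟩ := H193.finDataC_of193 L 𝔑 𝔑₀ h𝔑 hle l o
    obtain ⟨hc, hiw⟩ := H820.finAvgCusp_T820 hT1 τ hRep hR.ray hψ
    have hW := H820.torAvgW_T820 hT1 τ hD hM hc hiw
    -- the projection is orthogonal to the invariant cusp functions of type `τ`
    have hproj : ∀ χ : G K → ℂ, H820.IsWFnT820 τ 𝔑₀ R.r l o χ →
        T5.innerD R.μ R.F (fun x => ψ x - H193.torAvg a D (H193.finAvg Rep ψ) x) χ = 0 := by
      intro χ hχ
      have e1 := H820.finAvgOrth_T820 hT1 L.translInv R hR hRep hψ hχ.cusp hχ.iw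
      have e2 := H820.torAvgOrth_T820 hT1 L.translInv R hR hD hc hχ.cusp hχ.arch_scalar
      have hsplit : (fun x => ψ x - H193.torAvg a D (H193.finAvg Rep ψ) x)
          = fun x => (ψ x - H193.finAvg Rep ψ x)
            + (H193.finAvg Rep ψ x - H193.torAvg a D (H193.finAvg Rep ψ) x) := by
        funext x
        ring
      have c1 : Continuous fun x => ψ x - H193.finAvg Rep ψ x := hψ.cont.sub hc.cont
      have c2 : Continuous fun x =>
          H193.finAvg Rep ψ x - H193.torAvg a D (H193.finAvg Rep ψ) x :=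
        hc.cont.sub hW.cusp.cont
      rw [hsplit, H193.innerD_add193 hR.frame.finite c1 c2 hχ.cusp.cont
        (H193.bdd_sub193 hψ.bdd hc.bdd) (H193.bdd_sub193 hc.bdd hW.cusp.bdd) hχ.cusp.bdd,
        e1, e2, add_zero]
    -- so it has norm zero
    have hnorm : T5.innerD R.μ R.F (H193.torAvg a D (H193.finAvg Rep ψ))
        (H193.torAvg a D (H193.finAvg Rep ψ)) = 0 := by
      have h1 := hproj _ hW
      rw [H193.innerD_sub193 hR.frame.finite hψ.cont hW.cusp.cont hW.cusp.cont hψ.bdd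
        hW.cusp.bdd hW.cusp.bdd, horth _ hW, zero_sub, neg_eq_zero] at h1
      exact h1
    rw [← LK.rconvFinAvg hT1 R hR 𝔑 𝔑₀ l o Rep hRep (H193.nat193 a D φ₀) ht.cont ht.supp hr ψ
      hψ.cont x,
      N.op hT1 R hR 𝔑₀ R.r a D hD φ₀ htest.cont htest.supp (H193.finAvg Rep ψ) hc.cont x]
    exact LK.null hT1 R hR _ hW.cusp.cont hW.cusp.bdd hW.cusp.aut.left_inv hW.cusp.aut.ray
      hnorm φ₀ x

end OneField

/-- **LEAF PBQ.K = THE KILLING TOOL over `ℚ`, for BOTH types.** -/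
theorem killToolQ973 (t : QWt) : KillToolQC973 t := by
  intro R hR 𝔫 h𝔫 u a D hD hM f₀ htest hek hadj hinv
  obtain ⟨ht, hek', hadj', hbi, hop, hkill⟩ :=
    killing_of_torusT973 (T1.t1Out ℚ) t.type R hR 𝔫 𝔫 h𝔫 le_rfl 1 (fun _ => u) hD hM f₀ htest
      hek hadj hinv
  exact ⟨ht, hek', hadj', hbi, hop, fun ψ hψ horth x =>
    hkill ψ hψ (fun χ hχ => horth χ ((H820.isWFnQ_iff820 t 𝔫 R.r u χ).2 hχ)) x⟩

/-- **LEAF T7.L2Q.1.H2a.B.K (registry row 3042), CLOSED.** -/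
theorem killToolQ_w1_973 : KillToolQC973 QWt.w1 := killToolQ973 QWt.w1

/-- The frozen Prop, VERBATIM. -/
example : Fermat.Agent.LT.T7.PBQ973.KillToolQC973 Fermat.Agent.LT.T7.L2Q.QWt.w1 :=
  killToolQ_w1_973

end Fermat.Agent.LT.T7.PBQ973

end
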