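import Mathlib
import Fermat.Agent.LT.T1.Closed
import Fermat.Agent.LT.T7.H973.PairBQSpec

/-!
# Row LT, tower T7, node T7.L2Q.1.H2a.B `CQ801.PairBQC801` (registry row 2856, owner helper973):
# THE SECOND PAIR OF THE CONSTRUCTION OVER `ℚ` (quadratic step) -- FIRST CUT, proved top

OFF-MAIN.  Complete proofs, nothing assumed.  ADDITIVE (new names only, all suffixed `973`).

    natUpQC973        : NatUpQC973 F                       (plug of `H193.killing_of_torus193`, `K = F`)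
    killToolQ_w0_973  : KillToolQC973 QWt.w0               (`H193.killing_of_torus193`, `K = ℚ`)
    natDnQC_of973     : (∀ t, KillToolQC973 t) → NatDnQC973 F
    pairBQC_of973'    : RelTorusQC973 F → PreBQC973 P F → NatUpQC973 F → NatDnQC973 F
                          → NatShapeQC973 F → CQ801.PairBQC801 P F      (the mirror of `pairBC_of57`)
    pairBQC_of973     : RelTorusQC973 F → PreBQC973 P F → KillToolQC973 QWt.w1 → NatShapeQC973 F
                          → CQ801.PairBQC801 P F                        (VERBATIM node of record)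

The small lemmas on the support of a torus mean and on `iwOp`, `shiftOp` are those of helper115
(`T7/H115/NatUp.lean`, `NatDn.lean`; cubic leaves `PB57.NatUpC57`, `PB57.NatDnC57`), proved
again here under new names (the files of helper115 import the cubic Spec).
-/

set_option autoImplicit false
set_option linter.unusedSectionVars false
set_option linter.unusedVariables false

open AutomorphicForm IsDedekindDomain NumberField MeasureTheory
open scoped ComplexConjugate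

noncomputable section

namespace Fermat.Agent.LT.T7.PBQ973

open Fermat.Agent.LT.H556 Fermat.Agent.LT.H556.A0 Fermat.Agent.LT Fermat.Agent.LT.T7
  Fermat.Agent.LT.T7.H305
  Fermat.Agent.LT.T7.L2Q Fermat.Agent.LT.T7.H893 Fermat.Agent.LT.T7.H962
  Fermat.Agent.LT.T7.H732 Fermat.Agent.LT.T7.MQ298 Fermat.Agent.LT.T7.CQ801

attribute [local instance] Fermat.Agent.LT.T5.instMeasurableSpaceG

/-! ## 1. Small lemmas (one field) -/

section OneField

variable {K : Type} [Field K] [NumberField K]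

/-- If the torus mean does not vanish at `y`, the function does not vanish at some `y a(t)⁻¹`,
`t ∈ D`. -/
theorem exists_ne_of_nat_ne973 {a : (InfinitePlace K → ℝ) → G K}
    {D : Set (InfinitePlace K → ℝ)} (hDm : MeasurableSet D) {φ : G K → ℂ} {y : G K}
    (h : H193.nat193 a D φ y ≠ 0) : ∃ t ∈ D, φ (y * (a t)⁻¹) ≠ 0 := by
  by_contra hcon
  apply h
  have h0 : ∀ t ∈ D, φ (y * (a t)⁻¹) = 0 := fun t ht => by
    by_contra hne
    exact hcon ⟨t, ht, hne⟩
  have h1 : ∫ t in D, φ (y * (a t)⁻¹) = 0 := by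
    have h2 : ∫ t in D, φ (y * (a t)⁻¹) = ∫ t in D, (0 : ℂ) :=
      setIntegral_congr_fun hDm h0
    rw [h2, integral_zero]
  show (((volume D).toReal : ℝ) : ℂ)⁻¹ * ∫ t in D, φ (y * (a t)⁻¹) = 0
  rw [h1, mul_zero]

/-- An element which is trivial at the finite place `w` is Iwahori at `w`. -/
theorem inIwahori_of_trivAtFin973 (w : HeightOneSpectrum (𝓞 K)) {z : G K}
    (hz : TrivAtFin w z) : T5.InIwahori w z := by
  have h1 : finComp w z = 1 := hz
  have h2 : finComp w z⁻¹ = 1 := by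
    have h3 : finComp w z⁻¹ * finComp w z = 1 := by
      rw [← H942.finComp_mul942, inv_mul_cancel, H942.finComp_one942]
    rw [h1, mul_one] at h3
    exact h3
  have hint : ∀ i j, (1 : Matrix (Fin 2) (Fin 2) (w.adicCompletion K)) i j
      ∈ w.adicCompletionIntegers K := by
    intro i j
    by_cases h : i = j
    · subst h
      rw [Matrix.one_apply_eq]
      exact Subring.one_mem _
    · rw [Matrix.one_apply_ne h]
      exact Subring.zero_mem _
  refine ⟨fun i j => ?_, fun i j => ?_, ?_⟩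
  · rw [h1]; exact hint i j
  · rw [h2]; exact hint i j
  · rw [h1, Matrix.one_apply_ne (by decide : (1 : Fin 2) ≠ 0), map_zero]
    exact zero_lt_one

/-- **The support of a torus mean.**  If `φ` is Iwahori-supported in the compact set `C`, the
torus mean `φ♮` is Iwahori-supported in the compact set `C · a(closure D)`. -/
theorem isIwSupported_nat973 {𝔑 : Ideal (𝓞 K)} {r : G K}
    {a : (InfinitePlace K → ℝ) → G K} {D : Set (InfinitePlace K → ℝ)}
    (hD : H193.IsTorusData 𝔑 r a D) {l : ℕ} {o : ℕ → HeightOneSpectrum (𝓞 K)} {φ : G K → ℂ}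
    (h : ∃ C : Set (G K), IsCompact C ∧ T5.H32.IsIwSupported32 l o C φ) :
    ∃ C : Set (G K), IsCompact C ∧ T5.H32.IsIwSupported32 l o C (H193.nat193 a D φ) := by
  obtain ⟨C, hC, hsupp⟩ := h
  have hcl : IsCompact (closure D) := hD.bdd.isCompact_closure
  refine ⟨(fun p : G K × (InfinitePlace K → ℝ) => p.1 * a p.2) '' (C ×ˢ closure D),
    (hC.prod hcl).image (continuous_fst.mul (hD.cont.comp continuous_snd)), ?_⟩
  intro y hy
  obtain ⟨t, ht, hne⟩ := exists_ne_of_nat_ne973 hD.meas hy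
  obtain ⟨hiw, c, hc, hagree⟩ := hsupp _ hne
  have hy' : y = y * (a t)⁻¹ * a t := by rw [inv_mul_cancel_right]
  refine ⟨fun j hj => ?_, c * a t, ⟨(c, t), ⟨hc, subset_closure ht⟩, rfl⟩, ?_⟩
  · rw [hy']
    exact T5.H942.inIwahori_mul942 (o j) (hiw j hj)
      (inIwahori_of_trivAtFin973 (o j) (hD.fin t (o j)))
  · have := T5.H942.agreeOutside_mul942 {v | ∃ j < l, v = o j} hagree
      (T5.H942.agreeOutside_refl942 {v | ∃ j < l, v = o j} (a t))
    rw [← hy'] at this
    exact this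

/-- A positive scalar at an infinite place is central (torus data exist). -/
theorem posScalar_central973 {𝔑 : Ideal (𝓞 K)} {r : G K}
    {a : (InfinitePlace K → ℝ) → G K} {D : Set (InfinitePlace K → ℝ)}
    (hD : H193.IsTorusData 𝔑 r a D) {w : InfinitePlace K} {z : G K}
    (hz : IsArchPosScalar w z) (g : G K) : z * g = g * z := by
  obtain ⟨s, hs⟩ := H865.posScalar_eq865 hD hz
  rw [hs]
  exact hD.central s g

theorem continuous_iwOp973 (w : HeightOneSpectrum (𝓞 K)) (H : Finset (G K)) {ψ : G K → ℂ}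
    (hψ : Continuous ψ) : Continuous (iwOp w H ψ) := by
  have h : iwOp w H ψ = fun x => ((Real.sqrt (Ideal.absNorm w.asIdeal : ℝ) : ℝ) : ℂ)⁻¹
      * ∑ h ∈ H, ψ (x * h) := rfl
  rw [h]
  exact continuous_const.mul
    (continuous_finsetSum _ fun h _ => hψ.comp (continuous_id.mul continuous_const))

theorem continuous_shiftOp973 (z : G K) (k : ℤ) {ψ : G K → ℂ} (hψ : Continuous ψ) :
    Continuous (shiftOp z k ψ) := by
  have h : shiftOp z k ψ = fun x => ψ (x * z ^ k) := rfl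
  rw [h]
  exact hψ.comp (continuous_id.mul continuous_const)

/-- `iwOp` preserves the invariance under the positive scalars at infinity. -/
theorem iwOp_posScalar973 {𝔑 : Ideal (𝓞 K)} {r : G K}
    {a : (InfinitePlace K → ℝ) → G K} {D : Set (InfinitePlace K → ℝ)}
    (hD : H193.IsTorusData 𝔑 r a D) (v : HeightOneSpectrum (𝓞 K)) (H : Finset (G K))
    {ψ : G K → ℂ}
    (hψ : ∀ (w : InfinitePlace K) (z : G K), IsArchPosScalar w z → ∀ g : G K, ψ (g * z) = ψ g)
    (w : InfinitePlace K) (z : G K) (hz : IsArchPosScalar w z) (g : G K) :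
    iwOp v H ψ (g * z) = iwOp v H ψ g := by
  show ((Real.sqrt (Ideal.absNorm v.asIdeal : ℝ) : ℝ) : ℂ)⁻¹ * ∑ h ∈ H, ψ (g * z * h)
    = ((Real.sqrt (Ideal.absNorm v.asIdeal : ℝ) : ℝ) : ℂ)⁻¹ * ∑ h ∈ H, ψ (g * h)
  congr 1
  refine Finset.sum_congr rfl fun h _ => ?_
  rw [mul_assoc, posScalar_central973 hD hz h, ← mul_assoc]
  exact hψ w z hz (g * h)

/-- `shiftOp` preserves the invariance under the positive scalars at infinity. -/
theorem shiftOp_posScalar973 {𝔑 : Ideal (𝓞 K)} {r : G K}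
    {a : (InfinitePlace K → ℝ) → G K} {D : Set (InfinitePlace K → ℝ)}
    (hD : H193.IsTorusData 𝔑 r a D) (z₀ : G K) (k : ℤ) {ψ : G K → ℂ}
    (hψ : ∀ (w : InfinitePlace K) (z : G K), IsArchPosScalar w z → ∀ g : G K, ψ (g * z) = ψ g)
    (w : InfinitePlace K) (z : G K) (hz : IsArchPosScalar w z) (g : G K) :
    shiftOp z₀ k ψ (g * z) = shiftOp z₀ k ψ g := by
  show ψ (g * z * z₀ ^ k) = ψ (g * z₀ ^ k)
  rw [mul_assoc, posScalar_central973 hD hz (z₀ ^ k), ← mul_assoc]
  exact hψ w z hz (g * z₀ ^ k)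

end OneField

/-! ## 2. The killing tool of the trivial type over `ℚ` -/

section ToolW0

/-- The invariant cusp functions of type `w0` over `ℚ` are the invariant cusp functions of the
cyclic step for `K = ℚ`, `l = 1`, orbit `(u)`. -/
theorem isWFnQ_w0_iff973 {𝔫 : Ideal (𝓞 ℚ)} {r : G ℚ} {u : HeightOneSpectrum (𝓞 ℚ)}
    {ψ : G ℚ → ℂ} : IsWFnQ QWt.w0 𝔫 r u ψ ↔ IsWFn 𝔫 r 1 (fun _ => u) ψ :=
  ⟨fun h => ⟨h.cusp, h.arch_scalar, h.iw⟩, fun h => ⟨h.cusp, h.arch_scalar, h.iw⟩⟩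

/-- **THE KILLING TOOL over `ℚ` FOR THE TRIVIAL TYPE**: `H193.killing_of_torus193`, `K = ℚ`. -/
theorem killToolQ_w0_973 : KillToolQC973 QWt.w0 := by
  intro R hR 𝔫 h𝔫 u a D hD _ f₀ htest hek hadj hinv
  obtain ⟨ht, hek', hadj', hbi, hop, hkill⟩ :=
    H193.killing_of_torus193 (T1.t1Out ℚ) R hR 𝔫 𝔫 h𝔫 le_rfl 1 (fun _ => u) hD f₀ htest hek
      hadj hinv
  exact ⟨ht, hek', hadj', hbi, hop,
    fun ψ hψ horth x => hkill ψ hψ (fun χ hχ => horth χ (isWFnQ_w0_iff973.2 hχ)) x⟩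

end ToolW0

/-! ## 3. The plugs and the top -/

section Top

variable {P : EKCond}
variable {F : Type} [Field F] [NumberField F]

/-- The extension of a non-zero ideal is not zero. -/
theorem upI_ne_bot973 {𝔫 : Ideal (𝓞 ℚ)} (h : 𝔫 ≠ ⊥) : upI (K' := F) 𝔫 ≠ ⊥ := by
  intro h0
  apply h
  exact (Ideal.map_eq_bot_iff_of_injective
    (FaithfulSMul.algebraMap_injective (𝓞 ℚ) (𝓞 F))).1 h0

variable (F) in
/-- **PLUG PBQ.1 = NAT-UP over `ℚ`**, PROVED. -/
theorem natUpQC973 : NatUpQC973 F := by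
  intro Φ B hB g 𝔫 hlev μr μc c a T₀ n n₀ m c₂ φ₀ f₀ hpre aT D aT' D' hrel
  have hT1 : T1.T1Out F := T1.t1Out F
  have hD : H193.IsTorusData B.𝔑₀ B.R'.r aT' D' :=
    H193.isTorusData_mono193 hlev.level_g hrel.up
  obtain ⟨ht, hek, hadj, hbi, hop, hkill⟩ :=
    H193.killing_of_torus193 hT1 B.R' hB.frame' (upI (K' := F) 𝔫) B.𝔑₀
      (upI_ne_bot973 hlev.level_ne) hlev.level_g 2 B.o hD φ₀ hpre.up_test hpre.up_ek.1
      hpre.up_ek.2 hpre.up_inv
  exact
    { up2_test := ht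
      up2_ek := ⟨hek, hadj⟩
      up2_inv := hbi
      up2_op := fun ψ C hψ x => by
        rw [hop ψ hψ.inv.cusp.cont hψ.inv.arch_scalar x]
        exact hpre.up_op ψ C hψ x
      up2_kill := hkill
      up2_ne := hpre.up_ne
      up2_supp := isIwSupported_nat973 hD hpre.up_supp }

variable (F) in
/-- **PLUG PBQ.2 = NAT-DOWN over `ℚ`**, from the killing tool of the two types. -/
theorem natDnQC_of973 (hK : ∀ t : QWt, KillToolQC973 t) : NatDnQC973 F := by
  intro Φ B hB g 𝔫 hlev μr μc c a T₀ n n₀ m c₂ φ₀ f₀ hpre aT D aT' D' hrel t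
  have hD : H193.IsTorusData 𝔫 B.R.r aT D := hrel.down
  obtain ⟨ht, hek, hadj, hbi, hop, hkill⟩ :=
    hK t B.R hB.frame 𝔫 hlev.level_ne B.u aT D hD hrel.ray (f₀ t) (hpre.dn_test t)
      (hpre.dn_ek t).1 (hpre.dn_ek t).2 (hpre.dn_inv t)
  -- `R(f♮) ψ = R(f) ψ` on the invariant cusp functions
  have hfun : ∀ ψ : G ℚ → ℂ, IsWFnQ t 𝔫 B.R.r B.u ψ →
      T5.Rconv B.R.μ (H193.nat193 aT D (f₀ t)) ψ = T5.Rconv B.R.μ (f₀ t) ψ := fun ψ hψ =>
    funext fun x => hop ψ hψ.cusp.cont hψ.arch_scalar x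
  exact
    { dn2_test := ht
      dn2_ek := ⟨hek, hadj⟩
      dn2_inv := hbi
      dn2_wfn := fun ψ hψ => by
        rw [hfun ψ hψ]
        exact hpre.dn_wfn t ψ hψ
      dn2_class := fun ψ c hψ => by
        rw [hfun ψ hψ.inv]
        exact hpre.dn_class t ψ c hψ
      dn2_comm := fun ψ hψ H z hH hz => by
        obtain ⟨h1, h2⟩ := hpre.dn_comm t ψ hψ H z hH hz
        refine ⟨fun x => ?_, fun k x => ?_⟩
        · rw [hfun ψ hψ, hop (iwOp B.u H ψ) (continuous_iwOp973 B.u H hψ.cusp.cont)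
            (iwOp_posScalar973 hD B.u H hψ.arch_scalar) x]
          exact h1 x
        · rw [hfun ψ hψ, hop (shiftOp z k ψ) (continuous_shiftOp973 z k hψ.cusp.cont)
            (shiftOp_posScalar973 hD z k hψ.arch_scalar) x]
          exact h2 k x
      dn2_kill := hkill
      dn2_supp := isIwSupported_nat973 hD (hpre.dn_supp t) }

/-- The second pair from its two halves and the shape. -/
theorem isPairBQ_of_halves973 {Φ : HeckeEigensystem F ℂ} {B : L2QBase962 F} {g : G F}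
    {𝔫 : Ideal (𝓞 ℚ)} {μr : @Measure (GL (Fin 2) ℝ) (borel _)}
    {μc : @Measure (GL (Fin 2) ℂ) (borel _)} {c a : ℂ}
    {T₀ : Finset (HeightOneSpectrum (𝓞 ℚ))} {n n₀ : HeightOneSpectrum (𝓞 F) → ℕ}
    {m : HeightOneSpectrum (𝓞 ℚ) → ℕ} {c₂ : EigData F → ℂ} {φ₂ : G F → ℂ}
    {f₂ : QWt → G ℚ → ℂ} (hu : IsPairBUpQ973 Φ B 𝔫 c₂ φ₂)
    (hd : ∀ t : QWt, IsPairBDnQ973 B 𝔫 t (f₂ t))
    (hs : IsAvgPureQ801 (upI (K' := F) 𝔫) 𝔫 T₀ (LocBQ801 B g 𝔫 μr μc c T₀ n n₀ m) a
      φ₂ (f₂ QWt.w0) (f₂ QWt.w1)) :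
    IsPairBQ801 Φ B g 𝔫 μr μc c a T₀ n n₀ m c₂ φ₂ f₂ where
  up2_test := hu.up2_test
  up2_ek := hu.up2_ek
  up2_inv := hu.up2_inv
  up2_op := hu.up2_op
  up2_kill := hu.up2_kill
  up2_ne := hu.up2_ne
  dn2_test := fun t => (hd t).dn2_test
  dn2_ek := fun t => (hd t).dn2_ek
  dn2_inv := fun t => (hd t).dn2_inv
  dn2_wfn := fun t => (hd t).dn2_wfn
  dn2_class := fun t => (hd t).dn2_class
  dn2_comm := fun t => (hd t).dn2_comm
  dn2_kill := fun t => (hd t).dn2_kill
  up2_supp := hu.up2_supp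
  dn2_supp := fun t => (hd t).dn2_supp
  shape := hs

/-- **THE TOP OF THE FIRST CUT OF THE SECOND PAIR over `ℚ`** (the mirror of
`PB57.pairBC_of57`): the second pair is the pair of the torus means of the un-averaged pair for
compatible torus data. -/
theorem pairBQC_of973' (hRel : RelTorusQC973 F) (hPre : PreBQC973 P F)
    (hUp : NatUpQC973 F) (hDn : NatDnQC973 F) (hSh : NatShapeQC973 F) : PairBQC801 P F := by
  intro h3 hquad Φ hΦ hconst hPΦ B hB hram g hg
  have hB' := isL2QBase962_of60_732 hB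
  obtain ⟨𝔫, hlev, hpre⟩ := hPre h3 hquad Φ hΦ hconst hPΦ B hB hram g hg
  obtain ⟨aT, D, aT', D', hrel⟩ :=
    hRel hquad 𝔫 hlev.level_ne (toBase962_732 B).R.r (toBase962_732 B).R'.r
      hB'.frame.ray hB'.frame'.ray
  refine ⟨𝔫, hlev, fun μr μc hμr hμc T₀ n n₀ m hexp c a hc ha => ?_⟩
  obtain ⟨c₂, φ₀, f₀, h0⟩ := hpre μr μc hμr hμc T₀ n n₀ m hexp c a hc ha
  exact ⟨c₂, H193.nat193 aT' D' φ₀, fun t => H193.nat193 aT D (f₀ t),
    isPairBQ_of_halves973
      (hUp Φ _ hB' g 𝔫 hlev μr μc c a T₀ n n₀ m c₂ φ₀ f₀ h0 aT D aT' D' hrel)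
      (hDn Φ _ hB' g 𝔫 hlev μr μc c a T₀ n n₀ m c₂ φ₀ f₀ h0 aT D aT' D' hrel)
      (hSh hquad Φ _ hB' g 𝔫 hlev μr μc hμr hμc T₀ n n₀ m hexp c a hc ha c₂ φ₀ f₀ h0
        aT D aT' D' hrel)⟩

/-- **THE TOP OF THE FIRST CUT, with the plugs discharged**: the node of record
`CQ801.PairBQC801 P F` (registry row 2856) from the four open pieces. -/
theorem pairBQC_of973 (hRel : RelTorusQC973 F) (hPre : PreBQC973 P F)
    (hK1 : KillToolQC973 QWt.w1) (hSh : NatShapeQC973 F) : PairBQC801 P F :=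
  pairBQC_of973' hRel hPre (natUpQC973 F)
    (natDnQC_of973 F fun t => by
      cases t
      · exact killToolQ_w0_973
      · exact hK1)
    hSh

/-- The frozen node, VERBATIM. -/
example (hRel : RelTorusQC973 F) (hPre : PreBQC973 P F) (hK1 : KillToolQC973 QWt.w1)
    (hSh : NatShapeQC973 F) :
    Fermat.Agent.LT.T7.CQ801.PairBQC801 P F := pairBQC_of973 hRel hPre hK1 hSh

end Top

end Fermat.Agent.LT.T7.PBQ973

end
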