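import Mathlib
import Fermat.Agent.LT.T7.H973.PairBQTop
import Fermat.Agent.LT.T7.H973.KillToolQ

/-!
# Row LT, tower T7, node T7.L2Q.1.H2a.B `CQ801.PairBQC801` (registry row 2856, owner helper973):
# the top of the first cut with the killing tool discharged

OFF-MAIN.  Complete proofs, nothing assumed.  ADDITIVE.

    pairBQC_of_three973 : RelTorusQC973 F → PreBQC973 P F → NatShapeQC973 F
                            → CQ801.PairBQC801 P F

(`KillToolQC973 QWt.w1` is CLOSED: `KillToolQ.lean`, `killToolQ_w1_973`.)
-/

set_option autoImplicit false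

open AutomorphicForm IsDedekindDomain NumberField MeasureTheory
open scoped ComplexConjugate

noncomputable section

namespace Fermat.Agent.LT.T7.PBQ973

open Fermat.Agent.LT.H556 Fermat.Agent.LT.H556.A0 Fermat.Agent.LT Fermat.Agent.LT.T7
  Fermat.Agent.LT.T7.L2Q Fermat.Agent.LT.T7.CQ801

variable {P : EKCond}
variable {F : Type} [Field F] [NumberField F]

/-- **THE NODE OF RECORD `CQ801.PairBQC801 P F` FROM THE THREE OPEN PIECES**: compatible torus
data, the un-averaged pair, the shape of the torus means. -/
theorem pairBQC_of_three973 (hRel : RelTorusQC973 F) (hPre : PreBQC973 P F)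
    (hSh : NatShapeQC973 F) : PairBQC801 P F :=
  pairBQC_of973 hRel hPre killToolQ_w1_973 hSh

/-- The frozen node, VERBATIM. -/
example (hRel : RelTorusQC973 F) (hPre : PreBQC973 P F) (hSh : NatShapeQC973 F) :
    Fermat.Agent.LT.T7.CQ801.PairBQC801 P F := pairBQC_of_three973 hRel hPre hSh

end Fermat.Agent.LT.T7.PBQ973

end
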