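import Mathlib
import Fermat.Agent.LT.T7.H973.PreBQSpec
import Fermat.Agent.LT.T7.H973.PairBQTop2

/-!
# Row LT, tower T7, node T7.L2Q.1.H2a.B.0 `PBQ973.PreBQC973` (registry row 3040):
# THE UN-AVERAGED SECOND PAIR OVER `ℚ` -- SECOND CUT (THE SWAP), PROVED TOP (helper973)

OFF-MAIN.  Complete proofs, nothing assumed.  ADDITIVE (new names only, suffix `973`).

    preBQC_of973      : CQ801.PairAQC801 P F → BadPartQC973 F → OpenSwapQ973 F → PreBQC973 P F
    pairBQC_of_cuts973 : RelTorusQC973 F → NatShapeQC973 F → CQ801.PairAQC801 P F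
                           → BadPartQC973 F → OpenSwapQ973 F → CQ801.PairBQC801 P F

The un-averaged second pair is `(swapUpFnQ973 …, fun t => swapDnFnQ973 … a … (archQ973 F0 F1 t))`
for the data of the average of the first pair of the empty word; the fields of `IsPreBQ973` are
the swap leaves.  Mirror of `PB57.preBC_of57` (helper57).
-/

set_option autoImplicit false

open AutomorphicForm IsDedekindDomain NumberField MeasureTheory
open scoped ComplexConjugate

noncomputable section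

namespace Fermat.Agent.LT.T7.PBQ973

open Fermat.Agent.LT.H556 Fermat.Agent.LT.H556.A0 Fermat.Agent.LT.T7 Fermat.Agent.LT.T7.H305
  Fermat.Agent.LT.T7.L2Q Fermat.Agent.LT.T7.H893 Fermat.Agent.LT.T7.H962
  Fermat.Agent.LT.T7.H732 Fermat.Agent.LT.T7.MQ298 Fermat.Agent.LT.T7.CQ801

attribute [local instance] Fermat.Agent.LT.T5.instMeasurableSpaceG

variable (P : EKCond)
variable (F : Type) [Field F] [NumberField F]

/-- **THE SECOND CUT OF THE NODE `PreBQC973`, PROVED TOP.** -/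
theorem preBQC_of973 (hA : PairAQC801 P F) (hBad : BadPartQC973 F) (hS : OpenSwapQ973 F) :
    PreBQC973 P F := by
  intro h3 hquad Φe hcusp hconst hP B hB hram g hg
  obtain ⟨𝔫, hlev, hbad⟩ := hBad h3 hquad Φe B hB hram g hg
  refine ⟨𝔫, hlev, fun μr μc hμr hμc T₀ n n₀ m hexp c a hc _ => ?_⟩
  obtain ⟨c₁, Φ₁, F₁, hpa⟩ :=
    hA h3 hquad Φe hcusp hconst hP B hB hram 𝔫 hlev T₀ n n₀ m hexp c hc
  obtain ⟨fb, hfb⟩ := hbad T₀ n n₀ m hexp
  obtain ⟨Ω, iT, iC, i2, iS, iM, iB, ν, iF, T, T', φ₀, Φ, f₀, F0, F1, hdat⟩ :=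
    hpa.shape [] (fun x hx => absurd hx (List.not_mem_nil))
  have hd : IsAvgDatQ973 (upI (K' := F) 𝔫) 𝔫 T₀ (LocAQ801 c T₀ n m) 1
      (Φ₁ []) (F₁ QWt.w0 []) (F₁ QWt.w1 []) Ω iT iM ν T T' φ₀ Φ f₀ F0 F1 := hdat
  have ctx : ∀ Q, SwapCtxQ973 F Q →
      Q Φe (toBase962_732 B) g 𝔫 μr μc c T₀ n n₀ m c₁ fb Ω iT iM ν T T' φ₀ Φ f₀ F0 F1 :=
    fun Q hQ =>
      hQ h3 hquad Φe B hB hram g hg 𝔫 hlev μr μc hμr hμc T₀ n n₀ m hexp c hc c₁ Φ₁ F₁ hpa
        fb hfb Ω iT iC i2 iS iM iB ν iF T T' φ₀ Φ f₀ F0 F1 hd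
  obtain ⟨c₂, hop, hne⟩ := ctx _ hS.upOp
  have hmu := ctx _ hS.memUp
  have hmd := ctx _ hS.memDn a
  have hdo := ctx _ hS.dnOp a
  refine ⟨c₂, swapUpFnQ973 (toBase962_732 B) T₀ n₀ ν T' φ₀ Φ,
    fun t => swapDnFnQ973 (toBase962_732 B) T₀ fb a ν T f₀ (archQ973 F0 F1 t), ?_⟩
  exact
    { up_test := ctx _ hS.upTest
      up_ek := ctx _ hS.upEK
      up_inv := ctx _ hS.upInv
      up_op := hop
      up_ne := hne
      dn_test := fun t => ctx _ hS.dnTest a t
      dn_ek := fun t => ctx _ hS.dnEK a t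
      dn_inv := fun t => ctx _ hS.dnInv a t
      dn_wfn := fun t => (hdo t).1
      dn_class := fun t => (hdo t).2.1
      dn_comm := fun t => (hdo t).2.2
      up_supp := ctx _ hS.upSupp
      dn_supp := fun t => ctx _ hS.dnSupp a t
      shape := ⟨Ω, iT, iC, i2, iS, iM, iB, ν, iF, T, T',
        fun ω => swUpQ973 (toBase962_732 B) T₀ n₀ (φ₀ ω), Φ,
        fun ω => swDnQ973 (toBase962_732 B) T₀ fb (f₀ ω), F0, F1,
        fun ω => ⟨(hd.1 ω).1, (hd.1 ω).2.1, ctx _ hS.loc ω⟩,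
        hmu.1, (hmd QWt.w0).1, (hmd QWt.w1).1, hmu.2.1, (hmd QWt.w0).2.1, (hmd QWt.w1).2.1,
        hmu.2.2, (hmd QWt.w0).2.2, (hmd QWt.w1).2.2, fun _ => rfl, fun _ => rfl,
        fun _ => rfl⟩ }

/-- **THE NODE `CQ801.PairBQC801` (registry row 2856) from the two cuts**: the first cut
(`pairBQC_of_three973`: the natural average is split off, the killing tool closed) and the
second cut (`preBQC_of973`: the swap of the components of the first pair at the places of the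
level). -/
theorem pairBQC_of_cuts973 (hRel : RelTorusQC973 F) (hSh : NatShapeQC973 F)
    (hA : PairAQC801 P F) (hBad : BadPartQC973 F) (hS : OpenSwapQ973 F) : PairBQC801 P F :=
  pairBQC_of_three973 hRel (preBQC_of973 P F hA hBad hS) hSh

end Fermat.Agent.LT.T7.PBQ973

end
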