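import Mathlib
import Fermat.Agent.LT.T7.H557.DescTriv
import Fermat.Agent.LT.T7.H973.PreBQSpec

/-!
# Row LT, tower T7, leaf T7.L2Q.1.H2a.B.0.L `PBQ973.SwapLocQC973` (helper973):
# the swapped components satisfy the local condition `CQ801.LocBQ801` -- CLOSED, UNCONDITIONAL

OFF-MAIN.  Complete proofs, nothing assumed.  ADDITIVE (new names only, suffix `973`).

    swapLocQC973 (F) : PBQ973.SwapLocQC973 F          (VERBATIM)

Proof.  The first clause: `IsBadPartQ973.hyp` for the Haar measures; `LocHypQb801 … T …` looks at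
the components downstairs at the places of `T = T₀ ∖ {u}` only, where `swDnQ973 … fb f₀ = fb`.
The values of the swaps: the place under a place of `F` is unique (`H557.placeOver_unique_557`).
`SphOut893`: the swaps do not touch the places outside `T₀` (`u ∈ T₀`: `IsLevQ57.u_level`,
`IsLevFnQ57.div`).  `ArchOkQ801 c`: from the first pair.
-/

set_option autoImplicit false
set_option linter.unusedSectionVars false
set_option linter.unusedVariables false

open AutomorphicForm IsDedekindDomain NumberField MeasureTheory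
open scoped ComplexConjugate

noncomputable section

namespace Fermat.Agent.LT.T7.PBQ973

open Fermat.Agent.LT.H556 Fermat.Agent.LT.H556.A0 Fermat.Agent.LT.T7 Fermat.Agent.LT.T7.H305
  Fermat.Agent.LT.T7.L2Q Fermat.Agent.LT.T7.H893 Fermat.Agent.LT.T7.H962
  Fermat.Agent.LT.T7.H732 Fermat.Agent.LT.T7.MQ298 Fermat.Agent.LT.T7.CQ801

attribute [local instance] Fermat.Agent.LT.T5.instMeasurableSpaceG

section Values

variable {F : Type} [Field F] [NumberField F]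

open Classical in
/-- The swap downstairs at `u`. -/
theorem swDnQ_u973 (B : L2QBase962 F) (T₀ : Finset (HeightOneSpectrum (𝓞 ℚ)))
    (fb f₀ : ∀ v : HeightOneSpectrum (𝓞 ℚ), GL (Fin 2) (v.adicCompletion ℚ) → ℂ) :
    swDnQ973 B T₀ fb f₀ B.u = iwFn893 := by
  show (if B.u = B.u then iwFn893 else if B.u ∈ T₀ then fb B.u else f₀ B.u) = iwFn893
  rw [if_pos rfl]

open Classical in
/-- The swap downstairs at a place of the level different from `u`. -/
theorem swDnQ_bad973 (B : L2QBase962 F) (T₀ : Finset (HeightOneSpectrum (𝓞 ℚ)))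
    (fb f₀ : ∀ v : HeightOneSpectrum (𝓞 ℚ), GL (Fin 2) (v.adicCompletion ℚ) → ℂ)
    {v : HeightOneSpectrum (𝓞 ℚ)} (hv : v ∈ T₀) (hu : v ≠ B.u) :
    swDnQ973 B T₀ fb f₀ v = fb v := by
  show (if v = B.u then iwFn893 else if v ∈ T₀ then fb v else f₀ v) = fb v
  rw [if_neg hu, if_pos hv]

open Classical in
/-- The swap downstairs outside the level. -/
theorem swDnQ_out973 (B : L2QBase962 F) (T₀ : Finset (HeightOneSpectrum (𝓞 ℚ)))
    (fb f₀ : ∀ v : HeightOneSpectrum (𝓞 ℚ), GL (Fin 2) (v.adicCompletion ℚ) → ℂ)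
    {v : HeightOneSpectrum (𝓞 ℚ)} (hv : v ∉ T₀) (hu : v ≠ B.u) :
    swDnQ973 B T₀ fb f₀ v = f₀ v := by
  show (if v = B.u then iwFn893 else if v ∈ T₀ then fb v else f₀ v) = f₀ v
  rw [if_neg hu, if_neg hv]

open Classical in
/-- The swap upstairs at a place over `u`. -/
theorem swUpQ_u973 (B : L2QBase962 F) (T₀ : Finset (HeightOneSpectrum (𝓞 ℚ)))
    (n₀ : HeightOneSpectrum (𝓞 F) → ℕ)
    (φ₀ : ∀ w : HeightOneSpectrum (𝓞 F), GL (Fin 2) (w.adicCompletion F) → ℂ)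
    {w : HeightOneSpectrum (𝓞 F)} (hw : PlaceOver ℚ F B.u w) :
    swUpQ973 B T₀ n₀ φ₀ w = iwFn893 := by
  show (if PlaceOver ℚ F B.u w then iwFn893
    else if ∃ v ∈ T₀, PlaceOver ℚ F v w then unitFn893 (n₀ w) else φ₀ w) = iwFn893
  rw [if_pos hw]

open Classical in
/-- The swap upstairs at a place over a place of the level different from `u`. -/
theorem swUpQ_bad973 (B : L2QBase962 F) (T₀ : Finset (HeightOneSpectrum (𝓞 ℚ)))
    (n₀ : HeightOneSpectrum (𝓞 F) → ℕ)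
    (φ₀ : ∀ w : HeightOneSpectrum (𝓞 F), GL (Fin 2) (w.adicCompletion F) → ℂ)
    {v : HeightOneSpectrum (𝓞 ℚ)} (hv : v ∈ T₀) (hu : v ≠ B.u)
    {w : HeightOneSpectrum (𝓞 F)} (hw : PlaceOver ℚ F v w) :
    swUpQ973 B T₀ n₀ φ₀ w = unitFn893 (n₀ w) := by
  show (if PlaceOver ℚ F B.u w then iwFn893
    else if ∃ v ∈ T₀, PlaceOver ℚ F v w then unitFn893 (n₀ w) else φ₀ w) = unitFn893 (n₀ w)
  have h1 : ¬ PlaceOver ℚ F B.u w := fun h => hu (H557.placeOver_unique_557 hw h)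
  rw [if_neg h1, if_pos ⟨v, hv, hw⟩]

open Classical in
/-- The swap upstairs at a place over a place outside the level. -/
theorem swUpQ_out973 (B : L2QBase962 F) (T₀ : Finset (HeightOneSpectrum (𝓞 ℚ)))
    (n₀ : HeightOneSpectrum (𝓞 F) → ℕ)
    (φ₀ : ∀ w : HeightOneSpectrum (𝓞 F), GL (Fin 2) (w.adicCompletion F) → ℂ)
    {v : HeightOneSpectrum (𝓞 ℚ)} (hv : v ∉ T₀) (hu : v ≠ B.u)
    {w : HeightOneSpectrum (𝓞 F)} (hw : PlaceOver ℚ F v w) :
    swUpQ973 B T₀ n₀ φ₀ w = φ₀ w := by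
  show (if PlaceOver ℚ F B.u w then iwFn893
    else if ∃ v ∈ T₀, PlaceOver ℚ F v w then unitFn893 (n₀ w) else φ₀ w) = φ₀ w
  have h1 : ¬ PlaceOver ℚ F B.u w := fun h => hu (H557.placeOver_unique_557 hw h)
  have h2 : ¬ ∃ v' ∈ T₀, PlaceOver ℚ F v' w := by
    rintro ⟨v', hv', hw'⟩
    exact hv (H557.placeOver_unique_557 hw' hw ▸ hv')
  rw [if_neg h1, if_neg h2]

/-- **The local hypotheses look at the components downstairs at the places of `T` only.** -/
theorem locHypQb_congr973 {D : CompData ℚ F} {μr : @Measure (GL (Fin 2) ℝ) (borel _)}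
    {μc : @Measure (GL (Fin 2) ℂ) (borel _)} {T : Finset (HeightOneSpectrum (𝓞 ℚ))}
    {n : HeightOneSpectrum (𝓞 F) → ℕ} {m : HeightOneSpectrum (𝓞 ℚ) → ℕ}
    {φ₀ : ∀ w : HeightOneSpectrum (𝓞 F), GL (Fin 2) (w.adicCompletion F) → ℂ}
    {Φ : InfinitePlace F → GL (Fin 2) ℂ → ℂ}
    {f₀ f₀' : ∀ v : HeightOneSpectrum (𝓞 ℚ), GL (Fin 2) (v.adicCompletion ℚ) → ℂ}
    {F0 F1 : GL (Fin 2) ℝ → ℂ} (h : LocHypQb801 D μr μc T n m φ₀ Φ f₀ F0 F1)
    (he : ∀ v ∈ T, f₀' v = f₀ v) : LocHypQb801 D μr μc T n m φ₀ Φ f₀' F0 F1 where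
  inv_up := h.inv_up
  inv_down := fun v hv => by rw [he v hv]; exact h.inv_down v hv
  arch_up := h.arch_up
  arch_down0 := h.arch_down0
  arch_down1 := h.arch_down1
  inert := fun v hv => by rw [he v hv]; exact h.inert v hv
  split := fun v hv => by rw [he v hv]; exact h.split v hv
  arch := h.arch

end Values

section Leaf

variable (F : Type) [Field F] [NumberField F]

open Classical in
/-- **LEAF PBQ.0.L = SWAP-LOC**, VERBATIM. -/
theorem swapLocQC973 : SwapLocQC973 F := by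
  intro h3 hquad Φe B hB hram g hg 𝔫 hlev μr μc hμr hμc T₀ n n₀ m hexp c hc c₁ Φ₁ F₁ hpa fb hfb
    Ω iT iC i2 iS iM iB ν iF T T' φ₀ Φ f₀ F0 F1 hd ω
  obtain ⟨-, -, hunit_dn, hunit_up, hsph, harch⟩ := hd.1 ω
  have huT : (toBase962_732 B).u ∈ T₀ := (hexp.div _).2 hlev.u_level
  obtain ⟨Φd, F0d, F1d, hhyp⟩ := hfb.hyp μr μc hμr hμc
  refine ⟨⟨Φd, F0d, F1d, locHypQb_congr973 hhyp fun v hv => ?_⟩, fun v hv hu w hw => ?_,
    swDnQ_u973 _ T₀ fb (f₀ ω), fun w hw => swUpQ_u973 _ T₀ n₀ (φ₀ ω) hw, ?_, harch⟩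
  · exact swDnQ_bad973 _ T₀ fb (f₀ ω) (Finset.mem_of_mem_erase hv) (Finset.ne_of_mem_erase hv)
  · exact swUpQ_bad973 _ T₀ n₀ (φ₀ ω) hv hu hw
  · intro v hvT hv0
    have hu : v ≠ (toBase962_732 B).u := fun h => hv0 (h ▸ huT)
    obtain ⟨A, Av, h1, h2, h3', h4⟩ := hsph v hvT hv0
    refine ⟨A, Av, ?_, fun w hw => ?_, h3', h4⟩
    · rw [swDnQ_out973 _ T₀ fb (f₀ ω) hv0 hu]
      exact h1
    · rw [swUpQ_out973 _ T₀ n₀ (φ₀ ω) hv0 hu hw]
      exact h2 w hw

/-- The frozen Prop, VERBATIM. -/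
example : Fermat.Agent.LT.T7.PBQ973.SwapLocQC973 F := swapLocQC973 F

end Leaf

end Fermat.Agent.LT.T7.PBQ973

end
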