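import Mathlib
import Fermat.Agent.LT.T7.H62Q.RelTorusQ
import Fermat.Agent.LT.T7.H873.NatShapeQ
import Fermat.Agent.LT.T7.H973.PreBQTop
import Fermat.Agent.LT.T7.H973.SwapLocQ

/-!
# Row LT, tower T7, node T7.L2Q.1.H2a.B `CQ801.PairBQC801` (registry row 2856, owner helper973):
# INTEGRATION of the first cut -- the natural-average pack over `ℚ` is CLOSED

OFF-MAIN.  Complete proofs, nothing assumed.  ADDITIVE (new names only, suffix `973`).

    pairBQC_of_preBQ973 : PreBQC973 P F → CQ801.PairBQC801 P F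
    pairBQC_of_swap973  : CQ801.PairAQC801 P F → BadPartQC973 F → OpenSwapQ973 F
                            → CQ801.PairBQC801 P F

Closed leaves used (byte-identical copies of the files of the provers):
* `RelTorusQC973 F`  = `H62Q.relTorusQC62 F`   (helper62@c78a1dd05, `T7/H62Q/RelTorusQ.lean`);
* `NatShapeQC973 F`  = `H873.natShapeQC873 F`  (helper873@79632e35e, `T7/H873/NatShapeQ.lean`);
* `KillToolQC973 w1` = `killToolQ_w1_973`      (helper973, `T7/H973/KillToolQ.lean`);
* `SwapLocQC973 F`   = `swapLocQC973 F`        (helper973, `T7/H973/SwapLocQ.lean`).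

ONLY OPEN ITEM of the second pair over `ℚ`: the node `PreBQC973` (the un-averaged kill-free
pair) = `PairAQC801` + `BadPartQC973` + the swap leaves.
-/

set_option autoImplicit false

open AutomorphicForm IsDedekindDomain NumberField MeasureTheory
open scoped ComplexConjugate

noncomputable section

namespace Fermat.Agent.LT.T7.PBQ973

open Fermat.Agent.LT.H556 Fermat.Agent.LT.H556.A0 Fermat.Agent.LT Fermat.Agent.LT.T7
  Fermat.Agent.LT.T7.L2Q Fermat.Agent.LT.T7.CQ801

variable {P : EKCond}
variable {F : Type} [Field F] [NumberField F]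

/-- **THE SECOND PAIR over `ℚ` FROM THE UN-AVERAGED PAIR**, UNCONDITIONAL otherwise. -/
theorem pairBQC_of_preBQ973 (hPre : PreBQC973 P F) : PairBQC801 P F :=
  pairBQC_of_three973 (H62Q.relTorusQC62 F) hPre (H873.natShapeQC873 F)

/-- **THE SECOND PAIR over `ℚ` FROM THE FIRST PAIR, THE PARTNER FAMILY AND THE SWAP LEAVES.** -/
theorem pairBQC_of_swap973 (hA : PairAQC801 P F) (hBad : BadPartQC973 F)
    (hS : OpenSwapQ973 F) : PairBQC801 P F :=
  pairBQC_of_preBQ973 (preBQC_of973 P F hA hBad hS)

/-- The frozen node, VERBATIM. -/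
example (hPre : PreBQC973 P F) : Fermat.Agent.LT.T7.CQ801.PairBQC801 P F :=
  pairBQC_of_preBQ973 hPre

end Fermat.Agent.LT.T7.PBQ973

end
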