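import Mathlib
import Fermat.Agent.LT.T7.H973.PreBQSpec
import Fermat.Agent.LT.T7.H219.SwapDnSum

/-!
# Row LT, tower T7, leaf PBQ.0.D0 `PBQ973.SwapDnSumQC973` (registry row 3131): THE KEY IDENTITY
# DOWNSTAIRS over `ℚ` (helper973, SPARE of the node owner; OFF-MAIN)

`swapDnSumQC973 (F) : PBQ973.SwapDnSumQC973 F`, VERBATIM against `LT/T7/H973/PreBQSpec.lean`
(sha256 200eee4e).  UNCONDITIONAL.  No hole, nothing assumed.  ADDITIVE (new names only, all
suffixed `973`).

Proof.  Q-mirror of `H219.swapDnSumC219` (helper219, `T7/H219/SwapDnSum.lean`), whose local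
and gluing lemmas (stated for ONE number field) are used as they are with the field `ℚ`:
at `v ∈ T₀` the swapped component `ψ_v` (the Iwahori function at `u`, the partner `fb v`
elsewhere) is right invariant under `U(m v)` with finite support modulo `U(m v)`, hence
`ψ_v(y) = ∑_{x ∈ R_v} ψ_v(x) 1_{U(m v)}(x⁻¹ y)`; the product over `v ∈ T₀` is the sum over
the families `(x_v)`; a family is glued to an element of `GL₂(𝔸_ℚ)` which is trivial at
infinity and outside `T₀`; the components of the first pair at `T₀` are the units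
(`LocAQ801`).  The archimedean component (ONE function on `GL₂(ℝ)`, of the type `t`) is not
touched: the glued elements are trivial at the real place.
-/

set_option autoImplicit false
set_option linter.style.haveILetI false
set_option linter.unusedSectionVars false
set_option linter.unusedVariables false

open IsDedekindDomain NumberField MeasureTheory

noncomputable section

namespace Fermat.Agent.LT.T7.PBQ973

open Fermat.Agent.LT.H556 Fermat.Agent.LT.H556.A0 Fermat.Agent.LT Fermat.Agent.LT.T7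
open Fermat.Agent.LT.T7.H305 Fermat.Agent.LT.T7.H893 Fermat.Agent.LT.T7.H317
open Fermat.Agent.LT.T7.H981 Fermat.Agent.LT.T7.Q797 Fermat.Agent.LT.T7.H219
open Fermat.Agent.LT.T7.L2Q Fermat.Agent.LT.T7.H962 Fermat.Agent.LT.T7.H732
open Fermat.Agent.LT.T7.MQ298 Fermat.Agent.LT.T7.CQ801

attribute [local instance] Fermat.Agent.LT.T5.instMeasurableSpaceG

/-- An element which is trivial at infinity is trivial at the real place of `ℚ`. -/
theorem reGLQ_of_trivSD973 {h : G ℚ} (hh : ∀ w : InfinitePlace ℚ, TrivAtInf w h) :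
    reGLQ298 h = 1 := by
  apply Units.ext
  ext i j
  show reHomQ298 ((h : Matrix (Fin 2) (Fin 2) (Adl ℚ)) i j) = _
  have h1 := hh Rat.infinitePlace i j
  show (InfinitePlace.Completion.extensionEmbeddingOfIsReal Rat.isReal_infinitePlace)
    (((h : Matrix (Fin 2) (Fin 2) (Adl ℚ)) i j).1 Rat.infinitePlace) = _
  rw [h1]
  by_cases hij : i = j
  · subst hij; simp
  · simp [Matrix.one_apply, hij]

open Classical in
theorem pureQ_eqSD973 (T : Finset (HeightOneSpectrum (𝓞 ℚ)))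
    (f₀ : ∀ v : HeightOneSpectrum (𝓞 ℚ), GL (Fin 2) (v.adicCompletion ℚ) → ℂ)
    (Fr : GL (Fin 2) ℝ → ℂ) (h : G ℚ) :
    pureQ298 T f₀ Fr h
      = if OutT305 T h then (∏ v ∈ T, f₀ v (finGL305 v h)) * Fr (reGLQ298 h) else 0 := by
  unfold pureQ298
  congr

open Classical in
/-- **THE CORE over `ℚ`**: the pure tensor with the components `ψ` at `T₀` is the sum over the
glued families of representatives of the left translates of the pure tensor with unit
components. -/
theorem swapSumQ_core973 (T₀ T : Finset (HeightOneSpectrum (𝓞 ℚ))) (hT : T₀ ⊆ T)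
    (m : HeightOneSpectrum (𝓞 ℚ) → ℕ)
    (ψ f₀ : ∀ v : HeightOneSpectrum (𝓞 ℚ), GL (Fin 2) (v.adicCompletion ℚ) → ℂ)
    (Fr : GL (Fin 2) ℝ → ℂ)
    (R : ∀ v : HeightOneSpectrum (𝓞 ℚ), Finset (GL (Fin 2) (v.adicCompletion ℚ)))
    (hdec : ∀ v ∈ T₀, ∀ y : GL (Fin 2) (v.adicCompletion ℚ),
      ψ v y = ∑ x ∈ R v, ψ v x * unitFn893 (m v) (x⁻¹ * y))
    (hf₀ : ∀ v ∈ T₀, f₀ v = unitFn893 (m v))
    (gl : (∀ v ∈ T₀, GL (Fin 2) (v.adicCompletion ℚ)) → G ℚ)
    (hgl : ∀ p, (∀ w : InfinitePlace ℚ, TrivAtInf w (gl p)) ∧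
      (∀ v (h : v ∈ T₀), finGL305 v (gl p) = p v h) ∧
      ∀ v : HeightOneSpectrum (𝓞 ℚ), v ∉ T₀ → finGL305 v (gl p) = 1)
    (ψ' : ∀ v : HeightOneSpectrum (𝓞 ℚ), GL (Fin 2) (v.adicCompletion ℚ) → ℂ)
    (hψ'1 : ∀ v ∈ T₀, ψ' v = ψ v) (hψ'2 : ∀ v, v ∉ T₀ → ψ' v = f₀ v) (y : G ℚ) :
    pureQ298 T ψ' Fr y
      = ∑ p ∈ T₀.pi R, (∏ v ∈ T₀, ψ v (finGL305 v (gl p)))
          * pureQ298 T f₀ Fr ((gl p)⁻¹ * y) := by
  classical
  -- the translates
  have hOx : ∀ p, gl p ∈ outSub_r317 T := by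
    intro p
    refine outT_of_inU219l T (fun _ => 0) (fun v hv => ?_)
    rw [(hgl p).2.2 v (fun h => hv (hT h))]
    exact inU_one219l 0
  have htr : ∀ p, pureQ298 T f₀ Fr ((gl p)⁻¹ * y)
      = if OutT305 T y then
          ((∏ v ∈ T \ T₀, f₀ v (finGL305 v y))
            * ∏ v ∈ T₀, unitFn893 (m v) ((finGL305 v (gl p))⁻¹ * finGL305 v y))
            * Fr (reGLQ298 y)
        else 0 := by
    intro p
    rw [pureQ_eqSD973]
    have hiff : OutT305 T ((gl p)⁻¹ * y) ↔ OutT305 T y :=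
      (outSub_r317 T).mul_mem_cancel_left ((outSub_r317 T).inv_mem (hOx p))
    by_cases hy : OutT305 T y
    · rw [if_pos hy, if_pos (hiff.2 hy)]
      have hInf : Fr (reGLQ298 ((gl p)⁻¹ * y)) = Fr (reGLQ298 y) := by
        rw [map_mul, map_inv, reGLQ_of_trivSD973 (hgl p).1, inv_one, one_mul]
      rw [hInf, ← Finset.prod_sdiff hT]
      congr 2
      · refine Finset.prod_congr rfl (fun v hv => ?_)
        have hv0 : v ∉ T₀ := (Finset.mem_sdiff.1 hv).2
        rw [map_mul, map_inv, (hgl p).2.2 v hv0, inv_one, one_mul]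
      · refine Finset.prod_congr rfl (fun v hv => ?_)
        rw [hf₀ v hv, map_mul, map_inv]
    · rw [if_neg hy, if_neg (fun h => hy (hiff.1 h))]
  rw [pureQ_eqSD973]
  by_cases hy : OutT305 T y
  · rw [if_pos hy]
    have hsum : ∑ p ∈ T₀.pi R, (∏ v ∈ T₀, ψ v (finGL305 v (gl p)))
          * pureQ298 T f₀ Fr ((gl p)⁻¹ * y)
        = ((∏ v ∈ T \ T₀, f₀ v (finGL305 v y))
            * ∑ p ∈ T₀.pi R, ∏ v ∈ T₀, (ψ v (finGL305 v (gl p))
              * unitFn893 (m v) ((finGL305 v (gl p))⁻¹ * finGL305 v y)))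
          * Fr (reGLQ298 y) := by
      rw [Finset.mul_sum, Finset.sum_mul]
      refine Finset.sum_congr rfl (fun p _ => ?_)
      rw [htr p, if_pos hy, Finset.prod_mul_distrib]
      ring
    rw [hsum, ← Finset.prod_sdiff hT]
    congr 2
    · refine Finset.prod_congr rfl (fun v hv => ?_)
      rw [hψ'2 v (Finset.mem_sdiff.1 hv).2]
    · have h1 : ∏ v ∈ T₀, ψ' v (finGL305 v y)
          = ∏ v ∈ T₀, ∑ x ∈ R v, ψ v x * unitFn893 (m v) (x⁻¹ * finGL305 v y) := by
        refine Finset.prod_congr rfl (fun v hv => ?_)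
        rw [hψ'1 v hv, hdec v hv]
      rw [h1, Finset.prod_sum]
      refine Finset.sum_congr rfl (fun p _ => ?_)
      rw [← Finset.prod_attach T₀ (fun v => ψ v (finGL305 v (gl p))
        * unitFn893 (m v) ((finGL305 v (gl p))⁻¹ * finGL305 v y))]
      refine Finset.prod_congr rfl (fun v _ => ?_)
      rw [(hgl p).2.1 v.1 v.2]
  · rw [if_neg hy]
    symm
    refine Finset.sum_eq_zero (fun p _ => ?_)
    rw [htr p, if_neg hy, mul_zero]

/-! ## The leaf -/

section Leaf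

variable (F : Type) [Field F] [NumberField F]

open Classical in
theorem swDnQ_eqSD973 (B : L2QBase962 F) (T₀ : Finset (HeightOneSpectrum (𝓞 ℚ)))
    (fb f₀ : ∀ v : HeightOneSpectrum (𝓞 ℚ), GL (Fin 2) (v.adicCompletion ℚ) → ℂ)
    (v : HeightOneSpectrum (𝓞 ℚ)) :
    swDnQ973 B T₀ fb f₀ v
      = if v = B.u then iwFn893 else if v ∈ T₀ then fb v else f₀ v := by
  unfold swDnQ973
  congr

/-- **LEAF PBQ.0.D0 `PBQ973.SwapDnSumQC973`.** -/
theorem swapDnSumQC973 : SwapDnSumQC973 F := by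
  intro hS hK Φe B hB hram g hg 𝔫 hlev μr μc hμr hμc T₀ n n₀ m hexp c hc c₁ Φ₁ F₁ hA fb hfb
    Ω iT _ _ _ iM _ ν _ T T' φ₀ Φ f₀ F0 F1 hdat
  classical
  have huT : (toBase962_732 B).u ∈ T₀ := (hexp.div (toBase962_732 B).u).2 hlev.u_level
  have hmu : 1 ≤ m (toBase962_732 B).u :=
    level_pos219w hexp.lev_dn (toBase962_732 B).u hlev.u_level
  -- the swapped components at the level
  obtain ⟨ψ, hψu, hψn⟩ : ∃ ψ : ∀ v : HeightOneSpectrum (𝓞 ℚ),
      GL (Fin 2) (v.adicCompletion ℚ) → ℂ,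
      (∀ v, v = (toBase962_732 B).u → ψ v = iwFn893) ∧
        (∀ v, v ≠ (toBase962_732 B).u → ψ v = fb v) :=
    ⟨fun v => if v = (toBase962_732 B).u then iwFn893 else fb v,
      fun v h => if_pos h, fun v h => if_neg h⟩
  have hR : ∀ v : HeightOneSpectrum (𝓞 ℚ), ∃ R : Finset (GL (Fin 2) (v.adicCompletion ℚ)),
      v ∈ T₀ → (∀ x ∈ R, ψ v x ≠ 0) ∧
        ∀ y : GL (Fin 2) (v.adicCompletion ℚ),
          ψ v y = ∑ x ∈ R, ψ v x * unitFn893 (m v) (x⁻¹ * y) := by
    intro v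
    by_cases hv : v ∈ T₀
    · have hinv : T6.IsBiInv (T6.InU (m v)) (ψ v) ∧ T6.HasFinSupp (T6.InU (m v)) (ψ v) := by
        by_cases hvu : v = (toBase962_732 B).u
        · rw [hψu v hvu]
          have hmv : 1 ≤ m v := by rw [hvu]; exact hmu
          exact PB616.iw_inv_at616 v hmv
        · rw [hψn v hvu]
          exact hfb.inv_down v (Finset.mem_erase.2 ⟨hvu, hv⟩)
      obtain ⟨R, h1, h2⟩ := exists_reps219w (m v) (ψ v) hinv.1 hinv.2
      exact ⟨R, fun _ => ⟨h1, h2⟩⟩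
    · exact ⟨∅, fun h => absurd h hv⟩
  choose R hR using hR
  obtain ⟨gl, hgl⟩ := exists_glue219w (K := ℚ) T₀
  have hinj : ∀ p ∈ T₀.pi R, ∀ q ∈ T₀.pi R, gl p = gl q → p = q := by
    intro p _ q _ e
    funext v hv
    rw [← (hgl p).2.1 v hv, ← (hgl q).2.1 v hv, e]
  refine ⟨(T₀.pi R).image gl, fun x => ∏ v ∈ T₀, ψ v (finGL305 v x), ?_, ?_⟩
  · intro x hx
    obtain ⟨p, hp, rfl⟩ := Finset.mem_image.1 hx
    refine ⟨(hgl p).1, fun v hv => ?_, ?_⟩
    · show finComp v (gl p) = 1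
      have := (hgl p).2.2 v hv
      rw [← coe_finGL_r317, this]
      rfl
    · have hpu : p (toBase962_732 B).u huT ∈ R (toBase962_732 B).u :=
        (Finset.mem_pi.1 hp) (toBase962_732 B).u huT
      have hne := (hR (toBase962_732 B).u huT).1 _ hpu
      rw [hψu (toBase962_732 B).u rfl] at hne
      have hiw := PB616.inIw_of_iwFn_ne_zero616 hne
      rw [← (hgl p).2.1 (toBase962_732 B).u huT] at hiw
      refine ⟨fun i j => ?_, fun i j => ?_, ?_⟩
      · exact (HeightOneSpectrum.mem_adicCompletionIntegers _ _ _).2 (hiw.1 i j)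
      · have h2 := hiw.2.1 i j
        rw [finGL_inv_coe219w] at h2
        exact (HeightOneSpectrum.mem_adicCompletionIntegers _ _ _).2 h2
      · exact hiw.2.2
  · intro t ω y
    obtain ⟨hd1, -⟩ := hdat
    have hTω : T₀ ⊆ T ω := (hd1 ω).1
    have hLoc := (hd1 ω).2.2
    rw [Finset.sum_image hinj]
    exact swapSumQ_core973 T₀ (T ω) hTω m ψ (f₀ ω) (archQ973 F0 F1 t ω) R
      (fun v hv => (hR v hv).2)
      hLoc.1 gl hgl (swDnQ973 (toBase962_732 B) T₀ fb (f₀ ω))
      (fun v hv => by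
        rw [swDnQ_eqSD973]
        by_cases hvu : v = (toBase962_732 B).u
        · rw [if_pos hvu, hψu v hvu]
        · rw [if_neg hvu, if_pos hv, hψn v hvu])
      (fun v hv => by
        rw [swDnQ_eqSD973]
        have hvu : v ≠ (toBase962_732 B).u := fun e => hv (e ▸ huT)
        rw [if_neg hvu, if_neg hv]) y

end Leaf

end Fermat.Agent.LT.T7.PBQ973

end
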