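import Mathlib
import Fermat.Agent.LT.T7.H973.PreBQSpec
import Fermat.Agent.LT.T7.H510.SwapUpSum

/-!
# Row LT, tower T7, leaf PBQ.0.U0 `PBQ973.SwapUpSumQC973` (registry row 3130): THE KEY IDENTITY
# UPSTAIRS over `ℚ` (helper973, SPARE of the node owner; OFF-MAIN)

`swapUpSumQC973 (F) : PBQ973.SwapUpSumQC973 F`, VERBATIM against `LT/T7/H973/PreBQSpec.lean`
(sha256 200eee4e).  UNCONDITIONAL.  No hole, nothing assumed.  ADDITIVE (new names only, all
suffixed `973`).

Proof.  Q-mirror of `H510.swapUpSumC_h510` (helper510, `T7/H510/SwapUpSum.lean`), whose local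
lemmas and lemmas on ONE number field are used as they are: `HU` = the products over
`w ∈ S'` of local representatives of `H_w / U(n w)`, `H_w` the Iwahori subgroup over `u` and
`U(n₀ w)` at the other places of `S'`.  The three lemmas on the levels are proved again for the
level structures over `ℚ` (`CQ57.IsLevQ57`, `CQ57.IsLevFnQ57`).
-/

set_option autoImplicit false
set_option linter.unusedSectionVars false
set_option linter.style.haveILetI false
set_option linter.unusedVariables false

open AutomorphicForm IsDedekindDomain NumberField MeasureTheory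

noncomputable section

namespace Fermat.Agent.LT.T7.PBQ973

open Fermat.Agent.LT Fermat.Agent.LT.H556 Fermat.Agent.LT.H556.A0 Fermat.Agent.LT.T7
open Fermat.Agent.LT.T7.H893 Fermat.Agent.LT.T7.H305 Fermat.Agent.LT.T7.Q797
open Fermat.Agent.LT.H129 Fermat.Agent.LT.T7.H510
open Fermat.Agent.LT.T7.L2Q Fermat.Agent.LT.T7.H962 Fermat.Agent.LT.T7.H732
open Fermat.Agent.LT.T7.MQ298 Fermat.Agent.LT.T7.CQ801

attribute [local instance] Fermat.Agent.LT.T5.instMeasurableSpaceG

/-! ## 1. The levels over `ℚ` -/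

section Levels

variable {F : Type} [Field F] [NumberField F]

/-- `S'` is the set of the places over `T₀`. -/
theorem mem_S'_iffSU973 {B : L2QBase962 F} {𝔫 : Ideal (𝓞 ℚ)}
    {T₀ : Finset (HeightOneSpectrum (𝓞 ℚ))}
    {n n₀ : HeightOneSpectrum (𝓞 F) → ℕ} {m : HeightOneSpectrum (𝓞 ℚ) → ℕ}
    (hlev : CQ57.IsLevQ57 B 𝔫) (hexp : CQ57.IsLevFnQ57 B 𝔫 T₀ n n₀ m)
    (w : HeightOneSpectrum (𝓞 F)) :
    w ∈ B.S' ↔ ∃ v ∈ T₀, PlaceOver ℚ F v w := by
  rw [hlev.mem_S'_g w, Ideal.dvd_iff_le]
  constructor
  · intro hw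
    obtain ⟨v, hv⟩ := exists_placeUnder_M510 (K := ℚ) w
    refine ⟨v, (hexp.div v).2 ?_, hv⟩
    rw [Ideal.dvd_iff_le]
    intro x hx
    exact (hv x (algebraMap (𝓞 ℚ) (𝓞 F) x) rfl).2 (hw (Ideal.mem_map_of_mem _ hx))
  · rintro ⟨v, hvT, hv⟩
    have h1 : 𝔫 ≤ v.asIdeal := Ideal.dvd_iff_le.1 ((hexp.div v).1 hvT)
    show Ideal.map (algebraMap (𝓞 ℚ) (𝓞 F)) 𝔫 ≤ w.asIdeal
    rw [Ideal.map_le_iff_le_comap]
    intro x hx
    exact (hv x (algebraMap (𝓞 ℚ) (𝓞 F) x) rfl).1 (h1 hx)

/-- `n₀ w ≤ n w`. -/
theorem level_ge_baseSU973 {B : L2QBase962 F} {𝔫 : Ideal (𝓞 ℚ)}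
    {T₀ : Finset (HeightOneSpectrum (𝓞 ℚ))}
    {n n₀ : HeightOneSpectrum (𝓞 F) → ℕ} {m : HeightOneSpectrum (𝓞 ℚ) → ℕ}
    (hlev : CQ57.IsLevQ57 B 𝔫) (hexp : CQ57.IsLevFnQ57 B 𝔫 T₀ n n₀ m)
    (w : HeightOneSpectrum (𝓞 F)) :
    n₀ w ≤ n w := by
  obtain ⟨π, hπ⟩ := w.valuation_exists_uniformizer F
  have hx := val_unif_pow_M510 w π hπ (n w)
  have h1 : (algebraMap F (w.adicCompletion F) π) ^ (n w)
      ∈ idealClosure (upI (K' := F) 𝔫) w := (hexp.lev_up w _).2 (le_of_eq hx)
  have h2 : (algebraMap F (w.adicCompletion F) π) ^ (n w) ∈ idealClosure B.𝔑₀ w :=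
    closure_mono (Set.image_mono hlev.level_g) h1
  have h3 := (hexp.lev_base w _).1 h2
  rw [hx, WithZero.exp_le_exp] at h3
  omega

/-- `1 ≤ n w` at the places of `S'`. -/
theorem level_posSU973 {B : L2QBase962 F} {𝔫 : Ideal (𝓞 ℚ)}
    {T₀ : Finset (HeightOneSpectrum (𝓞 ℚ))}
    {n n₀ : HeightOneSpectrum (𝓞 F) → ℕ} {m : HeightOneSpectrum (𝓞 ℚ) → ℕ}
    (hlev : CQ57.IsLevQ57 B 𝔫) (hexp : CQ57.IsLevFnQ57 B 𝔫 T₀ n n₀ m)
    {w : HeightOneSpectrum (𝓞 F)}
    (hw : w ∈ B.S') : 1 ≤ n w := by
  by_contra hn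
  have h0 : n w = 0 := by omega
  have hle : upI (K' := F) 𝔫 ≤ w.asIdeal := Ideal.dvd_iff_le.1 ((hlev.mem_S'_g w).1 hw)
  have h1 : (1 : w.adicCompletion F) ∈ idealClosure (upI (K' := F) 𝔫) w := by
    refine (hexp.lev_up w 1).2 ?_
    rw [h0]
    simp
  have hcl : IsClosed {y : w.adicCompletion F | Valued.v y < 1} := by
    have h := Valued.isClosed_ball (w.adicCompletion F)
      ((Valued.v : Valuation (w.adicCompletion F) _).restrict 1)
    have e : {y : w.adicCompletion F | Valued.v y < 1}
        = {y | (Valued.v : Valuation (w.adicCompletion F) _).restrict y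
            < (Valued.v : Valuation (w.adicCompletion F) _).restrict 1} := by
      ext y
      simp only [Set.mem_ofPred_eq]
      rw [Valuation.restrict_lt_iff, map_one]
    rw [e]
    exact h
  have hsub : idealClosure (upI (K' := F) 𝔫) w
      ⊆ {y : w.adicCompletion F | Valued.v y < 1} := by
    refine closure_minimal ?_ hcl
    rintro _ ⟨x, hx, rfl⟩
    show Valued.v (algebraMap F (w.adicCompletion F) (algebraMap (𝓞 F) F x)) < 1
    have h3 : Valued.v (algebraMap F (w.adicCompletion F) (algebraMap (𝓞 F) F x))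
        = w.valuation F (algebraMap (𝓞 F) F x) :=
      w.valuedAdicCompletion_eq_valuation' (K := F) (algebraMap (𝓞 F) F x)
    rw [h3]
    exact (w.valuation_lt_one_iff_mem (K := F) x).2 (hle hx)
  have := hsub h1
  simp at this

end Levels

/-! ## 2. The key identity -/

section Main

open Classical in
/-- **LEAF PBQ.0.U0 `PBQ973.SwapUpSumQC973`** (THE KEY IDENTITY upstairs over `ℚ`),
unconditional. -/
theorem swapUpSumQC973 (F : Type) [Field F] [NumberField F] : SwapUpSumQC973 F := by
  intro _ _ Φe B0 hB0 _ g _ 𝔫 hlev μr μc _ _ T₀ n n₀ m hexp c _ c₁ Φ₁ F₁ _ fb _ Ω iT _ _ _ iM _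
    ν _ T T' φ₀ Φ f₀ F0 F1 hdat
  have hB : IsL2QBase962 Φe (toBase962_732 B0) := isL2QBase962_of60_732 hB0
  generalize toBase962_732 B0 = B at hB hlev hexp hdat ⊢
  have hu : B.u ∈ T₀ := (hexp.div _).2 hlev.u_level
  have hS' := mem_S'_iffSU973 hlev hexp
  -- the local groups
  let Hw : ∀ w : HeightOneSpectrum (𝓞 F), GL (Fin 2) (w.adicCompletion F) → Prop :=
    fun w y => if PlaceOver ℚ F B.u w then InIw893 y else T6.InU (n₀ w) y
  have hloc : ∀ w : HeightOneSpectrum (𝓞 F), w ∈ B.S' →
      ∃ R : Finset (GL (Fin 2) (w.adicCompletion F)), R.Nonempty ∧ (∀ r ∈ R, Hw w r) ∧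
        ∀ x : GL (Fin 2) (w.adicCompletion F),
          (∑ r ∈ R, (if T6.InU (n w) (x * r⁻¹) then (1 : ℂ) else 0))
              = @ite ℂ (Hw w x) (Classical.propDecidable _) 1 0 ∧
            (∑ r ∈ R, (if T6.InU (n w) (r⁻¹ * x) then (1 : ℂ) else 0))
              = @ite ℂ (Hw w x) (Classical.propDecidable _) 1 0 := by
    intro w hw
    refine exists_cosetSum_K510 (T6.H176.instLocalC176 F w) (n w) (Hw w) ?_ ?_ ?_
    · intro y hy
      by_cases h : PlaceOver ℚ F B.u w
      · simp only [Hw, if_pos h] at hy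
        exact inIw_inU_zero_M510 hy
      · simp only [Hw, if_neg h] at hy
        exact inU_mono_M510 (Nat.zero_le _) hy
    · intro u y hu hy
      by_cases h : PlaceOver ℚ F B.u w
      · simp only [Hw, if_pos h] at hy ⊢
        exact inIw_mul_M510 (level_posSU973 hlev hexp hw) hu hy
      · simp only [Hw, if_neg h] at hy ⊢
        exact (T6.H420.subU (n₀ w)).mul_mem
          (inU_mono_M510 (level_ge_baseSU973 hlev hexp w) hu) hy
    · by_cases h : PlaceOver ℚ F B.u w
      · simp only [Hw, if_pos h]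
        exact inIw_one_M510
      · simp only [Hw, if_neg h]
        exact (T6.H420.subU (n₀ w)).one_mem
  choose! R hRne hRH hRsum using hloc
  -- the global elements
  let ext : (∀ w : {w // w ∈ B.S'}, GL (Fin 2) (w.1.adicCompletion F)) →
      ∀ w : HeightOneSpectrum (𝓞 F), GL (Fin 2) (w.adicCompletion F) :=
    fun hh w => if h : w ∈ B.S' then hh ⟨w, h⟩ else 1
  let glob : (∀ w : {w // w ∈ B.S'}, GL (Fin 2) (w.1.adicCompletion F)) → G F :=
    fun hh => (B.S'.toList.map fun w => locFin129 w (ext hh w)).prod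
  have hext_in : ∀ hh (w : HeightOneSpectrum (𝓞 F)) (h : w ∈ B.S'), ext hh w = hh ⟨w, h⟩ :=
    fun hh w h => dif_pos h
  have hext_out : ∀ hh (w : HeightOneSpectrum (𝓞 F)), w ∉ B.S' → ext hh w = 1 :=
    fun hh w h => dif_neg h
  have hglob_fin : ∀ hh w, finCompHom129 w (glob hh) = ext hh w := by
    intro hh w
    rw [finComp_listProd_M510 (ext hh) B.S'.toList (Finset.nodup_toList _) w]
    by_cases h : w ∈ B.S'
    · rw [if_pos (Finset.mem_toList.2 h)]
    · rw [if_neg (fun h' => h (Finset.mem_toList.1 h')), hext_out hh w h]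
  have hglob_inf : ∀ hh w, infCompHom129 w (glob hh) = 1 :=
    fun hh w => infComp_listProd_M510 (ext hh) B.S'.toList w
  let P : Finset (∀ w : {w // w ∈ B.S'}, GL (Fin 2) (w.1.adicCompletion F)) :=
    Fintype.piFinset fun w => R w.1
  have hPne : P.Nonempty := by
    have : ∀ w : {w // w ∈ B.S'}, ∃ r, r ∈ R w.1 := fun w => hRne w.1 w.2
    choose r hr using this
    exact ⟨r, Fintype.mem_piFinset.2 hr⟩
  have hinj : ∀ a ∈ P, ∀ b ∈ P, glob a = glob b → a = b := by
    intro a _ b _ hab
    funext w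
    have := congrArg (finCompHom129 w.1) hab
    rw [hglob_fin, hglob_fin, hext_in a w.1 w.2, hext_in b w.1 w.2] at this
    exact this
  refine ⟨P.image glob, hPne.image glob, ?_, ?_⟩
  · -- the properties of the elements
    intro h hh
    obtain ⟨a, ha, rfl⟩ := Finset.mem_image.1 hh
    have haR : ∀ w (hw : w ∈ B.S'), Hw w (ext a w) := by
      intro w hw
      rw [hext_in a w hw]
      exact hRH w hw _ (Fintype.mem_piFinset.1 ha ⟨w, hw⟩)
    have hU0 : ∀ w, T6.InU 0 (finCompHom129 w (glob a)) := by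
      intro w
      rw [hglob_fin]
      by_cases hw : w ∈ B.S'
      · have := haR w hw
        by_cases h : PlaceOver ℚ F B.u w
        · simp only [Hw, if_pos h] at this
          exact inIw_inU_zero_M510 this
        · simp only [Hw, if_neg h] at this
          exact inU_mono_M510 (Nat.zero_le _) this
      · rw [hext_out a w hw]
        exact (T6.H420.subU 0).one_mem
    refine ⟨fun w => (trivAtInf_iff129 w _).2 (hglob_inf a w),
      fun w hw => (trivAtFin_iff129 w _).2 (by rw [hglob_fin, hext_out a w hw]),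
      fun w => ⟨?_, ?_⟩, ?_, ?_⟩
    · intro i j
      exact (HeightOneSpectrum.mem_adicCompletionIntegers _ _ _).2
        (entry_le_one_M510 (hU0 w) i j)
    · intro i j
      have := entry_inv_le_one_M510 (hU0 w) i j
      rw [← map_inv] at this
      exact (HeightOneSpectrum.mem_adicCompletionIntegers _ _ _).2 this
    · -- congruent to `1` modulo `𝔑₀` outside the orbit
      intro w hw i j
      have hnu : ¬ PlaceOver ℚ F B.u w := by
        intro h
        obtain ⟨j', hj', hwj⟩ := hB.orbit_all w h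
        exact hw j' hj' hwj
      have hUn : T6.InU (n₀ w) (finCompHom129 w (glob a)) := by
        rw [hglob_fin]
        by_cases hw' : w ∈ B.S'
        · have := haR w hw'
          simp only [Hw, if_neg hnu] at this
          exact this
        · rw [hext_out a w hw']
          exact (T6.H420.subU (n₀ w)).one_mem
      refine ⟨(hexp.lev_base w _).2 ?_, (hexp.lev_base w _).2 ?_⟩
      · exact (hUn i j).1
      · have := (hUn i j).2
        rw [← map_inv] at this
        exact this
    · -- Iwahori along the orbit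
      intro j hj
      have hw' : B.o j ∈ B.S' := hB.orbit_level j
      have := haR (B.o j) hw'
      simp only [Hw, if_pos (hB.orbit_over j)] at this
      rw [← hglob_fin a (B.o j)] at this
      refine ⟨?_, ?_, this.2.2⟩
      · intro i j'
        exact (HeightOneSpectrum.mem_adicCompletionIntegers _ _ _).2 (this.1 i j')
      · intro i j'
        have h2 := this.2.1 i j'
        rw [← map_inv] at h2
        exact (HeightOneSpectrum.mem_adicCompletionIntegers _ _ _).2 h2
  · -- the identities
    intro ω x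
    obtain ⟨hT₀T, hOver, hLA⟩ := hdat.1 ω
    obtain ⟨-, hunit, -, -⟩ := hLA
    have hST : B.S' ⊆ T' ω := by
      intro w hw
      obtain ⟨v, hv, hvw⟩ := (hS' w).1 hw
      exact (hOver w).2 ⟨v, hT₀T hv, hvw⟩
    -- the swapped side
    have hswap : pure305 (T' ω) (swUpQ973 B T₀ n₀ (φ₀ ω)) (Φ ω) x
        = if OutT305 (T' ω) x then
            ((∏ w ∈ T' ω \ B.S', φ₀ ω w (finCompHom129 w x))
              * ∏ w : {w // w ∈ B.S'},
                  @ite ℂ (Hw w.1 (finCompHom129 w.1 x)) (Classical.propDecidable _) 1 0)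
            * ∏ w : InfinitePlace F, Φ ω w (infGL305 w x) else 0 := by
      rw [pure_transl_M510 (T' ω) B.S' hST _ _ x x (fun _ _ => rfl) (fun _ => rfl)]
      by_cases ho : OutT305 (T' ω) x
      · rw [if_pos ho, if_pos ho]
        congr 2
        · refine Finset.prod_congr rfl fun w hw => ?_
          have hwS : w ∉ B.S' := (Finset.mem_sdiff.1 hw).2
          have h1 : ¬ PlaceOver ℚ F B.u w := fun h => hwS ((hS' w).2 ⟨B.u, hu, h⟩)
          have h2 : ¬ ∃ v ∈ T₀, PlaceOver ℚ F v w := fun h => hwS ((hS' w).2 h)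
          unfold swUpQ973
          rw [if_neg h1, if_neg h2]
        · rw [← Finset.prod_coe_sort B.S']
          refine Finset.prod_congr rfl fun w _ => ?_
          have h2 : ∃ v ∈ T₀, PlaceOver ℚ F v w.1 := (hS' w.1).1 w.2
          unfold swUpQ973
          by_cases h1 : PlaceOver ℚ F B.u w.1
          · have hH : Hw w.1 (finCompHom129 w.1 x) ↔ InIw893 (finCompHom129 w.1 x) := by
              simp only [Hw, if_pos h1]
            rw [if_pos h1]
            unfold iwFn893
            by_cases hy : InIw893 (finCompHom129 w.1 x)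
            · rw [if_pos hy, if_pos (hH.2 hy)]
            · rw [if_neg hy, if_neg (fun h => hy (hH.1 h))]
          · have hH : Hw w.1 (finCompHom129 w.1 x)
                ↔ T6.InU (n₀ w.1) (finCompHom129 w.1 x) := by
              simp only [Hw, if_neg h1]
            rw [if_neg h1, if_pos h2]
            unfold unitFn893
            by_cases hy : T6.InU (n₀ w.1) (finCompHom129 w.1 x)
            · rw [if_pos hy, if_pos (hH.2 hy)]
            · rw [if_neg hy, if_neg (fun h => hy (hH.1 h))]
      · rw [if_neg ho, if_neg ho]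
    -- the translates
    have htr : ∀ a ∈ P, ∀ y : G F, (∀ w, finCompHom129 w y
          = finCompHom129 w x * (ext a w)⁻¹ ∨ finCompHom129 w y
          = (ext a w)⁻¹ * finCompHom129 w x) → (∀ w, infGL305 w y = infGL305 w x) →
        pure305 (T' ω) (φ₀ ω) (Φ ω) y
          = if OutT305 (T' ω) x then
            ((∏ w ∈ T' ω \ B.S', φ₀ ω w (finCompHom129 w x))
              * ∏ w : {w // w ∈ B.S'},
                  (if T6.InU (n w.1) (finCompHom129 w.1 y) then (1 : ℂ) else 0))
            * ∏ w : InfinitePlace F, Φ ω w (infGL305 w x) else 0 := by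
      intro a _ y hy hyinf
      have hfin : ∀ w, w ∉ B.S' → finCompHom129 w y = finCompHom129 w x := by
        intro w hw
        rcases hy w with h | h
        · rw [h, hext_out a w hw, inv_one, mul_one]
        · rw [h, hext_out a w hw, inv_one, one_mul]
      rw [pure_transl_M510 (T' ω) B.S' hST _ _ x y hfin hyinf]
      by_cases ho : OutT305 (T' ω) x
      · rw [if_pos ho, if_pos ho]
        congr 2
        rw [← Finset.prod_coe_sort B.S']
        refine Finset.prod_congr rfl fun w _ => ?_
        obtain ⟨v, hv, hvw⟩ := (hS' w.1).1 w.2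
        rw [hunit v hv w.1 hvw]
        rfl
      · rw [if_neg ho, if_neg ho]
    have hsumR : ∀ f : ∀ w : {w // w ∈ B.S'}, GL (Fin 2) (w.1.adicCompletion F) → ℂ,
        (∑ a ∈ P, ∏ w : {w // w ∈ B.S'}, f w (a w))
          = ∏ w : {w // w ∈ B.S'}, ∑ r ∈ R w.1, f w r := by
      intro f
      exact (Finset.prod_univ_sum (fun w : {w // w ∈ B.S'} => R w.1) f).symm
    constructor
    · rw [hswap, Finset.sum_image hinj]
      have h1 : ∀ a ∈ P, pure305 (T' ω) (φ₀ ω) (Φ ω) (x * (glob a)⁻¹)
          = if OutT305 (T' ω) x then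
            ((∏ w ∈ T' ω \ B.S', φ₀ ω w (finCompHom129 w x))
              * ∏ w : {w // w ∈ B.S'},
                  (if T6.InU (n w.1) (finCompHom129 w.1 x * (a w)⁻¹) then (1 : ℂ) else 0))
            * ∏ w : InfinitePlace F, Φ ω w (infGL305 w x) else 0 := by
        intro a ha
        rw [htr a ha (x * (glob a)⁻¹)
          (fun w => Or.inl (by rw [map_mul, map_inv, hglob_fin]))
          (fun w => by rw [map_mul, map_inv, infGL_eq_one_M510 w (hglob_inf a w), inv_one,
            mul_one])]
        by_cases ho : OutT305 (T' ω) x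
        · rw [if_pos ho, if_pos ho]
          congr 2
          refine Finset.prod_congr rfl fun w _ => ?_
          rw [map_mul, map_inv, hglob_fin, hext_in a w.1 w.2]
        · rw [if_neg ho, if_neg ho]
      rw [Finset.sum_congr rfl h1]
      by_cases ho : OutT305 (T' ω) x
      · simp only [if_pos ho]
        rw [← Finset.sum_mul, ← Finset.mul_sum,
          hsumR (fun w r => if T6.InU (n w.1) (finCompHom129 w.1 x * r⁻¹) then (1 : ℂ) else 0)]
        congr 2
        refine Finset.prod_congr rfl fun w _ => ?_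
        exact ((hRsum w.1 w.2 _).1).symm
      · simp only [if_neg ho, Finset.sum_const_zero]
    · rw [hswap, Finset.sum_image hinj]
      have h1 : ∀ a ∈ P, pure305 (T' ω) (φ₀ ω) (Φ ω) ((glob a)⁻¹ * x)
          = if OutT305 (T' ω) x then
            ((∏ w ∈ T' ω \ B.S', φ₀ ω w (finCompHom129 w x))
              * ∏ w : {w // w ∈ B.S'},
                  (if T6.InU (n w.1) ((a w)⁻¹ * finCompHom129 w.1 x) then (1 : ℂ) else 0))
            * ∏ w : InfinitePlace F, Φ ω w (infGL305 w x) else 0 := by
        intro a ha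
        rw [htr a ha ((glob a)⁻¹ * x)
          (fun w => Or.inr (by rw [map_mul, map_inv, hglob_fin]))
          (fun w => by rw [map_mul, map_inv, infGL_eq_one_M510 w (hglob_inf a w), inv_one,
            one_mul])]
        by_cases ho : OutT305 (T' ω) x
        · rw [if_pos ho, if_pos ho]
          congr 2
          refine Finset.prod_congr rfl fun w _ => ?_
          rw [map_mul, map_inv, hglob_fin, hext_in a w.1 w.2]
        · rw [if_neg ho, if_neg ho]
      rw [Finset.sum_congr rfl h1]
      by_cases ho : OutT305 (T' ω) x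
      · simp only [if_pos ho]
        rw [← Finset.sum_mul, ← Finset.mul_sum,
          hsumR (fun w r => if T6.InU (n w.1) (r⁻¹ * finCompHom129 w.1 x) then (1 : ℂ) else 0)]
        congr 2
        refine Finset.prod_congr rfl fun w _ => ?_
        exact ((hRsum w.1 w.2 _).2).symm
      · simp only [if_neg ho, Finset.sum_const_zero]

end Main

end Fermat.Agent.LT.T7.PBQ973

end
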