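import Mathlib
import Fermat.Agent.LT.T7.H973.PairBQClosed
import Fermat.Agent.LT.T7.H973.SwapUpSumQ
import Fermat.Agent.LT.T7.H973.SwapDnSumQ
import Fermat.Agent.LT.T7.H963.SwapUpQ
import Fermat.Agent.LT.T7.H47.ST.SwapQ
import Fermat.Agent.LT.T7.H688.SwapUpInvQ
import Fermat.Agent.LT.T7.H575.SwapUpOpQ
import Fermat.Agent.LT.T7.H75.SwapDnTestQ
import Fermat.Agent.LT.T7.H607.SwapDnOpQ
import Fermat.Agent.LT.T7.H570.BadPartQ

/-!
# Row LT, tower T7, node T7.L2Q.1.H2a.B `CQ801.PairBQC801` (registry row 2856, owner helper973):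
# INTEGRATION of the second cut (THE SWAP) -- THE SECOND PAIR over `ℚ` FROM THE FIRST PAIR

OFF-MAIN.  Complete proofs, nothing assumed.  ADDITIVE (new names only, suffix `973`).

    openSwapQ973        (F) : OpenSwapQ973 F                               (UNCONDITIONAL)
    preBQC_of_pairA973  : CQ801.PairAQC801 P F → PreBQC973 P F
    pairBQC_of_pairA973 : CQ801.PairAQC801 P F → CQ801.PairBQC801 P F

ONLY OPEN ITEM of the second pair over `ℚ`: the first pair `CQ801.PairAQC801 P F` (registry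
row 2855).

Closed leaves used (byte-identical copies of the files of the provers):
* `SwapUpSumQC973`, `SwapDnSumQC973`, `SwapLocQC973`: helper973 (`T7/H973/SwapUpSumQ.lean`,
  `SwapDnSumQ.lean`, `SwapLocQ.lean`; Q-mirrors of helper510, helper219);
* `SwapMemUpQC973`, `SwapUpTestQC973`: helper963 (`T7/H963/SwapUpQ.lean`);
* `SwapUpEKQC973`, `SwapUpSuppQC973`, `SwapDnEKQC973`, `SwapDnSuppQC973`: helper47
  (`T7/H47/ST/SwapQ.lean`);
* `SwapUpInvQC973`: helper688 (`T7/H688/SwapUpInvQ.lean`);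
* `SwapUpOpQC973`: helper575 (`T7/H575/SwapUpOpQ.lean`);
* `SwapDnTestQC973`, `SwapMemDnQC973`: helper75 (`T7/H75/SwapDnTestQ.lean`);
* `SwapDnInvQC973`: helper459 (`T7/H459/SwapDnInv.lean`);
* `SwapDnOpQC973`: helper607 (`T7/H607/SwapDnOpQ.lean`);
* `BadPartQC973`: helper570 (`T7/H570/BadPartQ.lean`).
-/

set_option autoImplicit false

open AutomorphicForm IsDedekindDomain NumberField MeasureTheory
open scoped ComplexConjugate

noncomputable section

namespace Fermat.Agent.LT.T7.PBQ973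

open Fermat.Agent.LT.H556 Fermat.Agent.LT.H556.A0 Fermat.Agent.LT Fermat.Agent.LT.T7
  Fermat.Agent.LT.T7.L2Q Fermat.Agent.LT.T7.CQ801

/-- **THE OPEN LEAVES OF THE SWAP over `ℚ` ARE CLOSED.** -/
theorem openSwapQ973 (F : Type) [Field F] [NumberField F] : OpenSwapQ973 F where
  upTest := H963.SMU.swapUpTestQC_of963 (F := F) (swapUpSumQC973 F)
  upEK := H47.ST.swapUpEKQC_of47 (F := F) (swapUpSumQC973 F)
  upInv := H688.swapUpInvQC688 F
  upOp := H575.swapUpOpQC_of575 (F := F) (swapUpSumQC973 F)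
  upSupp := H47.ST.swapUpSuppQC_of47 (F := F) (swapUpSumQC973 F)
  memUp := H963.SMU.swapMemUpQC_of963 (F := F) (swapUpSumQC973 F)
  dnTest := H75.SQ.swapDnTestQC75 F
  dnEK := H47.ST.swapDnEKQC_of47 (F := F) (swapDnSumQC973 F)
  dnInv := H459.swapDnInvQC459 F
  dnOp := H607.SwQ.swapDnOpQC_of607 (F := F) (swapDnSumQC973 F) (H459.swapDnInvQC459 F)
  dnSupp := H47.ST.swapDnSuppQC_of47 (F := F) (swapDnSumQC973 F)
  memDn := H75.SQ.swapMemDnQC75 F
  loc := swapLocQC973 F

variable {P : EKCond}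
variable {F : Type} [Field F] [NumberField F]

/-- **THE UN-AVERAGED SECOND PAIR over `ℚ` FROM THE FIRST PAIR**, UNCONDITIONAL otherwise. -/
theorem preBQC_of_pairA973 (hA : PairAQC801 P F) : PreBQC973 P F :=
  preBQC_of973 P F hA (H570BP.badPartQC570 F) (openSwapQ973 F)

/-- **THE SECOND PAIR over `ℚ` FROM THE FIRST PAIR**, UNCONDITIONAL otherwise. -/
theorem pairBQC_of_pairA973 (hA : PairAQC801 P F) : PairBQC801 P F :=
  pairBQC_of_preBQ973 (preBQC_of_pairA973 hA)

/-- The frozen node, VERBATIM. -/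
example (hA : Fermat.Agent.LT.T7.CQ801.PairAQC801 P F) :
    Fermat.Agent.LT.T7.CQ801.PairBQC801 P F :=
  pairBQC_of_pairA973 hA

end Fermat.Agent.LT.T7.PBQ973

end
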